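import Fermat.Prelude.Def_FLTPrelim_FreyPackage
import Mathlib

/-!
# The discriminant of the Frey curve is nonzero
-/

set_option autoImplicit false

namespace Fermat.Agent.S13.FreyDelta

theorem freyCurve_Δ (P : FreyPackage) :
    P.freyCurve.Δ = ((P.a : ℚ) ^ P.p) ^ 2 * ((P.b : ℚ) ^ P.p) ^ 2 * ((P.c : ℚ) ^ P.p) ^ 2 / 256 := by
  have hc : ((P.c : ℚ) ^ P.p) = (P.a : ℚ) ^ P.p + (P.b : ℚ) ^ P.p := by
    have := P.hFLT
    exact_mod_cast this.symm
  rw [hc]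
  simp only [WeierstrassCurve.Δ, WeierstrassCurve.b₂, WeierstrassCurve.b₄, WeierstrassCurve.b₆,
    WeierstrassCurve.b₈, FreyPackage.freyCurve]
  ring

theorem freyCurve_Δ_ne_zero (P : FreyPackage) : P.freyCurve.Δ ≠ 0 := by
  rw [freyCurve_Δ]
  have ha : ((P.a : ℚ) ^ P.p) ≠ 0 := pow_ne_zero _ (by exact_mod_cast P.ha0)
  have hb : ((P.b : ℚ) ^ P.p) ≠ 0 := pow_ne_zero _ (by exact_mod_cast P.hb0)
  have hc : ((P.c : ℚ) ^ P.p) ≠ 0 := pow_ne_zero _ (by exact_mod_cast P.hc0)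
  positivity

theorem freyCurve_baseChange_Δ_ne_zero (P : FreyPackage) (K : Type*) [Field K] [Algebra ℚ K] :
    (P.freyCurve.baseChange K).Δ ≠ 0 := by
  have : (P.freyCurve.baseChange K).Δ = algebraMap ℚ K P.freyCurve.Δ := by
    simp [WeierstrassCurve.baseChange, WeierstrassCurve.map_Δ]
  rw [this]
  exact (map_ne_zero_iff _ (algebraMap ℚ K).injective).mpr (freyCurve_Δ_ne_zero P)

end Fermat.Agent.S13.FreyDelta
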