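import Fermat.Agent.DivPoly.CountFinal
import Fermat.Agent.S13.FreyDelta
import Fermat.Prelude.Def_FLTPrelim_CofixedLine

/-!
# The `p`-torsion of the Frey curve over `ℚ̄`: nontrivial, finite, at most `p²` points

Instantiation of `DivPoly.CountFinal` for `P.freyCurve⁄ℚ̄` and the prime `P.p`, in the shapes
consumed by the S13 endgame (`hnt`) and by the local analyses (`[Finite V]`, `hcard`).
-/

set_option autoImplicit false

open WeierstrassCurve WeierstrassCurve.Affine WeierstrassCurve.Affine.Point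

namespace Fermat.Agent.S13.FreyTorsion

local notation "Kb" => AlgebraicClosure ℚ

theorem p_ne_zero (P : FreyPackage) : ((P.p : ℕ) : Kb) ≠ 0 := by
  exact_mod_cast P.hp0

theorem two_lt_p (P : FreyPackage) : 2 < P.p := by
  have := P.hp5; omega

/-- (`hnt` of the endgame) there is a nonzero point of order `p` on the Frey curve over `ℚ̄`. -/
theorem exists_torsion_point (P : FreyPackage) :
    ∃ Q : (P.freyCurve⁄Kb).Point, Q ≠ 0 ∧ P.p • Q = 0 :=
  Fermat.Agent.DivPoly.CountFinal.exists_torsion_point (W := (P.freyCurve⁄Kb).toAffine)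
    P.hp_odd (two_lt_p P) (p_ne_zero P)
    (Fermat.Agent.S13.FreyDelta.freyCurve_baseChange_Δ_ne_zero P Kb)

theorem nontrivial_torsion (P : FreyPackage) :
    Nontrivial (Submodule.torsionBy ℤ (P.freyCurve⁄Kb).Point P.p) :=
  Fermat.Agent.DivPoly.CountFinal.nontrivial_torsionBy (W := (P.freyCurve⁄Kb).toAffine)
    P.hp_odd (two_lt_p P) (p_ne_zero P)
    (Fermat.Agent.S13.FreyDelta.freyCurve_baseChange_Δ_ne_zero P Kb)

instance finite_torsion (P : FreyPackage) :
    Finite (Submodule.torsionBy ℤ (P.freyCurve⁄Kb).Point P.p) :=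
  Fermat.Agent.DivPoly.CountFinal.finite_torsionBy (W := (P.freyCurve⁄Kb).toAffine)
    P.hp_odd (p_ne_zero P)

/-- (`hcard`) the `p`-torsion of the Frey curve has at most `p²` points. -/
theorem card_torsion_le (P : FreyPackage) :
    Nat.card (Submodule.torsionBy ℤ (P.freyCurve⁄Kb).Point P.p) ≤ P.p ^ 2 :=
  Fermat.Agent.DivPoly.CountFinal.card_torsionBy_le (W := (P.freyCurve⁄Kb).toAffine)
    P.hp_odd (p_ne_zero P)

/-- the `p`-torsion of the Frey curve has `ZMod p`-dimension at most `2`. -/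
theorem finrank_torsion_le_two (P : FreyPackage) :
    haveI : Fact P.p.Prime := ⟨P.pp⟩
    Module.finrank (ZMod P.p) (Submodule.torsionBy ℤ (P.freyCurve⁄Kb).Point P.p) ≤ 2 := by
  have : Fact P.p.Prime := ⟨P.pp⟩
  exact Fermat.Agent.DivPoly.Count.finrank_le_two_of_card_le (card_torsion_le P)

end Fermat.Agent.S13.FreyTorsion
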