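/-
A4-GAL (helper11): the Galois-theoretic reduction of "a normal open subgroup of `G_ℚ`
containing an inertia group at every prime is everything" to the BRIDGE statement
"every nontrivial finite Galois extension of `ℚ` inside `Qbar` is moved by inertia at some prime".
-/
import Mathlib
import Fermat.Prelude.Def_FLTPrelim_Ramification
import Fermat.Agent.S05.Inertia

set_option autoImplicit false

namespace Fermat.Agent.S13.UnramMain

open ValuationSubring

/-- The algebraic closure of `ℚ` with its default `ℚ`-algebra structure is an algebraic closure. -/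
instance isAlgClosure_rat : IsAlgClosure ℚ (AlgebraicClosure ℚ) :=
  ⟨inferInstance, Fermat.Agent.S05.Inertia.isAlgebraic_rat⟩

/-- The BRIDGE statement: every nontrivial finite Galois subextension of `Qbar/ℚ` is moved by
an element of inertia at every place above some prime `q`. -/
def Bridge : Prop :=
  ∀ (K : IntermediateField ℚ (AlgebraicClosure ℚ)) [FiniteDimensional ℚ K] [IsGalois ℚ K],
    K ≠ ⊥ → ∃ q : ℕ, q.Prime ∧ ∀ A : ValuationSubring (AlgebraicClosure ℚ), A.LiesOverPrime q →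
      ∃ σ ∈ A.inertiaSubgroupIn ℚ, ∃ x ∈ K, σ x ≠ x

theorem eq_top_of_forall_exists_inertia_le_of_bridge (hB : Bridge)
    (N : Subgroup (AlgebraicClosure ℚ ≃ₐ[ℚ] AlgebraicClosure ℚ)) [N.Normal]
    (F : IntermediateField ℚ (AlgebraicClosure ℚ)) [FiniteDimensional ℚ F]
    (hF : F.fixingSubgroup ≤ N)
    (hN : ∀ q : ℕ, q.Prime → ∃ A : ValuationSubring (AlgebraicClosure ℚ),
      A.LiesOverPrime q ∧ A.inertiaSubgroupIn ℚ ≤ N) : N = ⊤ := by
  -- `N` is open, hence closed
  have hopen : IsOpen (N : Set (AlgebraicClosure ℚ ≃ₐ[ℚ] AlgebraicClosure ℚ)) :=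
    Subgroup.isOpen_mono hF (IntermediateField.fixingSubgroup_isOpen F)
  have hclosed : IsClosed (N : Set (AlgebraicClosure ℚ ≃ₐ[ℚ] AlgebraicClosure ℚ)) :=
    Subgroup.isClosed_of_isOpen N hopen
  -- its fixed field
  set K : IntermediateField ℚ (AlgebraicClosure ℚ) := IntermediateField.fixedField N with hK
  have hKF : K ≤ F := by
    rw [← InfiniteGalois.fixedField_fixingSubgroup F]
    exact IntermediateField.fixedField_antitone hF
  have : FiniteDimensional ℚ K := by
    let _ : Algebra K F := RingHom.toAlgebra (IntermediateField.inclusion hKF)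
    exact FiniteDimensional.left ℚ K F
  have : IsGalois ℚ K := IsGalois.of_fixedField_normal_subgroup N
  have hfix : K.fixingSubgroup = N :=
    InfiniteGalois.fixingSubgroup_fixedField ⟨N, hclosed⟩
  by_cases hbot : K = ⊥
  · rw [← hfix, hbot]
    exact IntermediateField.fixingSubgroup_bot
  · exfalso
    obtain ⟨q, hq, hqA⟩ := hB K hbot
    obtain ⟨A, hA, hIN⟩ := hN q hq
    obtain ⟨σ, hσ, x, hx, hne⟩ := hqA A hA
    have hσN : σ ∈ K.fixingSubgroup := by rw [hfix]; exact hIN hσ
    exact hne ((IntermediateField.mem_fixingSubgroup_iff K σ).mp hσN x hx)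

/-- Finite-set form: a normal subgroup containing the pointwise stabiliser of a finite subset of
`Qbar` and an inertia group at every prime is everything. -/
theorem eq_top_of_finite_set_of_bridge (hB : Bridge)
    (N : Subgroup (AlgebraicClosure ℚ ≃ₐ[ℚ] AlgebraicClosure ℚ)) [N.Normal]
    (S : Set (AlgebraicClosure ℚ)) (hS : S.Finite)
    (hSN : ∀ σ : AlgebraicClosure ℚ ≃ₐ[ℚ] AlgebraicClosure ℚ, (∀ x ∈ S, σ x = x) → σ ∈ N)
    (hN : ∀ q : ℕ, q.Prime → ∃ A : ValuationSubring (AlgebraicClosure ℚ),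
      A.LiesOverPrime q ∧ A.inertiaSubgroupIn ℚ ≤ N) : N = ⊤ := by
  have : Finite S := hS.to_subtype
  have : FiniteDimensional ℚ (IntermediateField.adjoin ℚ S) :=
    IntermediateField.finiteDimensional_adjoin
      (fun x _ => (Algebra.IsAlgebraic.isAlgebraic (R := ℚ) x).isIntegral)
  refine eq_top_of_forall_exists_inertia_le_of_bridge hB N (IntermediateField.adjoin ℚ S) ?_ hN
  intro σ hσ
  refine hSN σ (fun x hx => ?_)
  exact (IntermediateField.mem_fixingSubgroup_iff _ σ).mp hσ x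
    (IntermediateField.subset_adjoin ℚ S hx)

section Torsion

open WeierstrassCurve WeierstrassCurve.Affine WeierstrassCurve.Affine.Point

variable {W' : Affine ℚ} {n : ℕ}

/-- The set of affine coordinates of a point. -/
def coords : (W'⁄(AlgebraicClosure ℚ)).Point → Set (AlgebraicClosure ℚ)
  | .zero => ∅
  | .some x y _ => {x, y}

theorem coords_finite (P : (W'⁄(AlgebraicClosure ℚ)).Point) : (coords P).Finite := by
  cases P with
  | zero => exact Set.finite_empty
  | some x y h => exact (Set.toFinite ({x, y} : Set (AlgebraicClosure ℚ)))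

theorem smul_eq_self_of_coords (σ : AlgebraicClosure ℚ ≃ₐ[ℚ] AlgebraicClosure ℚ)
    (P : (W'⁄(AlgebraicClosure ℚ)).Point) (h : ∀ z ∈ coords P, σ z = z) : σ • P = P := by
  cases P with
  | zero => rfl
  | some x y hxy =>
    have hx : σ x = x := h x (by simp [coords])
    have hy : σ y = y := h y (by simp [coords])
    change Point.some (σ x) (σ y) _ = Point.some x y hxy
    simp only [hx, hy]

/-- The set of all coordinates of all `n`-torsion points. -/
def coordSet (W' : Affine ℚ) (n : ℕ) : Set (AlgebraicClosure ℚ) :=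
  ⋃ P : Submodule.torsionBy ℤ (W'⁄(AlgebraicClosure ℚ)).Point n,
    coords (P : (W'⁄(AlgebraicClosure ℚ)).Point)

theorem coordSet_finite [Finite (Submodule.torsionBy ℤ (W'⁄(AlgebraicClosure ℚ)).Point n)] :
    (coordSet W' n).Finite :=
  Set.finite_iUnion fun _ => coords_finite _

theorem smul_eq_self_of_coordSet (σ : AlgebraicClosure ℚ ≃ₐ[ℚ] AlgebraicClosure ℚ)
    (h : ∀ z ∈ coordSet W' n, σ z = z)
    (P : Submodule.torsionBy ℤ (W'⁄(AlgebraicClosure ℚ)).Point n) : σ • P = P := by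
  apply Subtype.ext
  change σ • (P : (W'⁄(AlgebraicClosure ℚ)).Point) = P
  exact smul_eq_self_of_coords σ _ fun z hz => h z (Set.mem_iUnion.mpr ⟨P, hz⟩)

/-- The subgroup of `G_ℚ` acting trivially on a submodule `M` of the `n`-torsion. -/
def kerOn (M : Submodule (ZMod n) (Submodule.torsionBy ℤ (W'⁄(AlgebraicClosure ℚ)).Point n)) :
    Subgroup (AlgebraicClosure ℚ ≃ₐ[ℚ] AlgebraicClosure ℚ) where
  carrier := {σ | ∀ x ∈ M, σ • x = x}
  one_mem' := fun x _ => one_smul _ x
  mul_mem' := by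
    intro σ τ hσ hτ x hx
    rw [mul_smul, hτ x hx, hσ x hx]
  inv_mem' := by
    intro σ hσ x hx
    rw [inv_smul_eq_iff, hσ x hx]

theorem mem_kerOn {M : Submodule (ZMod n) (Submodule.torsionBy ℤ (W'⁄(AlgebraicClosure ℚ)).Point n)}
    {σ : AlgebraicClosure ℚ ≃ₐ[ℚ] AlgebraicClosure ℚ} :
    σ ∈ kerOn M ↔ ∀ x ∈ M, σ • x = x := Iff.rfl

theorem kerOn_normal
    {M : Submodule (ZMod n) (Submodule.torsionBy ℤ (W'⁄(AlgebraicClosure ℚ)).Point n)}
    (hM : IsGaloisStable ℚ M) : (kerOn M).Normal := by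
  refine ⟨fun σ hσ τ x hx => ?_⟩
  rw [mul_smul, mul_smul, hσ _ (hM τ⁻¹ x hx), smul_inv_smul]

/-- The subgroup of `G_ℚ` acting trivially on the quotient of the `n`-torsion by `M`. -/
def kerQuot (M : Submodule (ZMod n) (Submodule.torsionBy ℤ (W'⁄(AlgebraicClosure ℚ)).Point n)) :
    Subgroup (AlgebraicClosure ℚ ≃ₐ[ℚ] AlgebraicClosure ℚ) where
  carrier := {σ | ∀ x, σ • x - x ∈ M}
  one_mem' := fun x => by simp
  mul_mem' := by
    intro σ τ hσ hτ x
    have : (σ * τ) • x - x = (σ • (τ • x) - τ • x) + (τ • x - x) := by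
      rw [mul_smul]; abel
    rw [this]
    exact M.add_mem (hσ _) (hτ _)
  inv_mem' := by
    intro σ hσ x
    have : σ⁻¹ • x - x = -(σ • (σ⁻¹ • x) - σ⁻¹ • x) := by
      rw [smul_inv_smul]; abel
    rw [this]
    exact M.neg_mem (hσ _)

theorem mem_kerQuot
    {M : Submodule (ZMod n) (Submodule.torsionBy ℤ (W'⁄(AlgebraicClosure ℚ)).Point n)}
    {σ : AlgebraicClosure ℚ ≃ₐ[ℚ] AlgebraicClosure ℚ} :
    σ ∈ kerQuot M ↔ ∀ x, σ • x - x ∈ M := Iff.rfl

theorem kerQuot_normal
    {M : Submodule (ZMod n) (Submodule.torsionBy ℤ (W'⁄(AlgebraicClosure ℚ)).Point n)}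
    (hM : IsGaloisStable ℚ M) : (kerQuot M).Normal := by
  refine ⟨fun σ hσ τ x => ?_⟩
  have : (τ * σ * τ⁻¹) • x - x = τ • (σ • (τ⁻¹ • x) - τ⁻¹ • x) := by
    rw [mul_smul, mul_smul, smul_sub, smul_inv_smul]
  rw [this]
  exact hM τ _ (hσ _)

/-- If a Galois-stable submodule `M` of the (finite) `n`-torsion is fixed pointwise by an inertia
group at every prime, then it is fixed pointwise by all of `G_ℚ`. -/
theorem forall_smul_eq_of_inertia_of_bridge (hB : Bridge)
    [Finite (Submodule.torsionBy ℤ (W'⁄(AlgebraicClosure ℚ)).Point n)]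
    {M : Submodule (ZMod n) (Submodule.torsionBy ℤ (W'⁄(AlgebraicClosure ℚ)).Point n)}
    (hM : IsGaloisStable ℚ M)
    (hI : ∀ q : ℕ, q.Prime → ∃ A : ValuationSubring (AlgebraicClosure ℚ), A.LiesOverPrime q ∧
      ∀ σ ∈ A.inertiaSubgroupIn ℚ, ∀ x ∈ M, σ • x = x)
    (σ : AlgebraicClosure ℚ ≃ₐ[ℚ] AlgebraicClosure ℚ) : ∀ x ∈ M, σ • x = x := by
  have := kerOn_normal hM
  have htop : kerOn M = ⊤ :=
    eq_top_of_finite_set_of_bridge hB (kerOn M) (coordSet W' n) coordSet_finite
      (fun τ hτ x _ => smul_eq_self_of_coordSet τ hτ x)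
      (fun q hq => by
        obtain ⟨A, hA, h⟩ := hI q hq
        exact ⟨A, hA, fun τ hτ => h τ hτ⟩)
  have : σ ∈ kerOn M := htop ▸ Subgroup.mem_top σ
  exact this

/-- If an inertia group at every prime acts trivially on the quotient of the (finite) `n`-torsion
by a Galois-stable submodule `M`, then so does all of `G_ℚ`. -/
theorem forall_smul_sub_mem_of_inertia_of_bridge (hB : Bridge)
    [Finite (Submodule.torsionBy ℤ (W'⁄(AlgebraicClosure ℚ)).Point n)]
    {M : Submodule (ZMod n) (Submodule.torsionBy ℤ (W'⁄(AlgebraicClosure ℚ)).Point n)}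
    (hM : IsGaloisStable ℚ M)
    (hI : ∀ q : ℕ, q.Prime → ∃ A : ValuationSubring (AlgebraicClosure ℚ), A.LiesOverPrime q ∧
      ∀ σ ∈ A.inertiaSubgroupIn ℚ, ∀ x, σ • x - x ∈ M)
    (σ : AlgebraicClosure ℚ ≃ₐ[ℚ] AlgebraicClosure ℚ) : ∀ x, σ • x - x ∈ M := by
  have := kerQuot_normal hM
  have htop : kerQuot M = ⊤ :=
    eq_top_of_finite_set_of_bridge hB (kerQuot M) (coordSet W' n) coordSet_finite
      (fun τ hτ x => by rw [smul_eq_self_of_coordSet τ hτ x, sub_self]; exact M.zero_mem)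
      (fun q hq => by
        obtain ⟨A, hA, h⟩ := hI q hq
        exact ⟨A, hA, fun τ hτ => h τ hτ⟩)
  have : σ ∈ kerQuot M := htop ▸ Subgroup.mem_top σ
  exact this

end Torsion

end Fermat.Agent.S13.UnramMain
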