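/-
Program A / A4 (helper8): valuation subrings of an algebraic extension of `ℚ` versus integral
elements.

* `exists_liesOverPrime`            : there is a valuation subring over every prime `q`;
* `exists_integral_fraction`        : every `a ∈ A` is `z / y` with `y, z` integral over `ℤ`,
                                      `y` a unit of `A`;
* `mem_inertiaSubgroupIn_of_integral` : an automorphism moving every integral element by an
                                      element of the maximal ideal of `A` lies in the inertia group.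
-/
import Mathlib
import Fermat.Prelude.Def_FLTPrelim_Ramification
import Fermat.Agent.S05.Inertia

set_option autoImplicit false

namespace Fermat.Agent.S13.UnramVal

open Polynomial
open Fermat.Agent.S05.Inertia

section Tail

variable {L : Type*} [Field L]

/-- The `k`-th tail `∑_{i ≥ k} cᵢ a^(i-k)` of `f(a)`. -/
noncomputable def tail (f : ℤ[X]) (a : L) (k : ℕ) : L := aeval a (divX^[k] f)

lemma coeff_iterate_divX (f : ℤ[X]) (k i : ℕ) : (divX^[k] f).coeff i = f.coeff (i + k) := by
  induction k generalizing f i with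
  | zero => simp
  | succ k ih =>
    rw [Function.iterate_succ_apply', coeff_divX, ih]
    congr 1
    ring

lemma tail_zero (f : ℤ[X]) (a : L) : tail f a 0 = aeval a f := rfl

lemma tail_succ (f : ℤ[X]) (a : L) (k : ℕ) :
    tail f a k = tail f a (k + 1) * a + (f.coeff k : L) := by
  unfold tail
  rw [Function.iterate_succ_apply']
  set p := divX^[k] f with hp
  have h := divX_mul_X_add p
  have hc : p.coeff 0 = f.coeff k := by rw [hp, coeff_iterate_divX, zero_add]
  conv_lhs => rw [← h]
  rw [map_add, map_mul, aeval_X, aeval_C, hc]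
  simp

variable (V : ValuationSubring L)

lemma aeval_mem (f : ℤ[X]) {a : L} (ha : a ∈ V) : aeval a f ∈ V := by
  rw [aeval_eq_sum_range]
  refine sum_mem fun i _ => ?_
  rw [zsmul_eq_mul]
  exact mul_mem (intCast_mem V _) (pow_mem ha i)

lemma mul_tail_mem_of_inv_mem (f : ℤ[X]) {a : L} (h0 : aeval a f = 0) (ha : a⁻¹ ∈ V)
    (ha0 : a ≠ 0) (k : ℕ) : a * tail f a k ∈ V := by
  induction k with
  | zero => rw [tail_zero, h0, mul_zero]; exact zero_mem V
  | succ k ih =>
    have h1 : tail f a k ∈ V := by
      have : tail f a k = a⁻¹ * (a * tail f a k) := by field_simp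
      rw [this]; exact mul_mem ha ih
    have h2 : a * tail f a (k + 1) = tail f a k - (f.coeff k : L) := by
      rw [tail_succ f a k]; ring
    rw [h2]; exact sub_mem h1 (intCast_mem V _)

/-- If `f(a) = 0`, `a ≠ 0`, all tails and `a` times all tails lie in every valuation subring. -/
lemma tail_mem_and_mul_tail_mem (f : ℤ[X]) {a : L} (h0 : aeval a f = 0) (ha0 : a ≠ 0) (k : ℕ) :
    tail f a k ∈ V ∧ a * tail f a k ∈ V := by
  rcases V.mem_or_inv_mem a with ha | ha
  · have h1 : tail f a k ∈ V := aeval_mem V _ ha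
    exact ⟨h1, mul_mem ha h1⟩
  · have h2 := mul_tail_mem_of_inv_mem V f h0 ha ha0 k
    refine ⟨?_, h2⟩
    have : tail f a k = a⁻¹ * (a * tail f a k) := by field_simp
    rw [this]; exact mul_mem ha h2

/-- An element lying in every valuation subring is integral over `ℤ`. -/
lemma isIntegral_of_forall_mem {x : L} (h : ∀ V : ValuationSubring L, x ∈ V) : IsIntegral ℤ x := by
  by_contra hx
  let R : Subring L := (integralClosure ℤ L).toSubring
  have hxR : x ∉ R := hx
  have : IsIntegrallyClosedIn R L :=
    inferInstanceAs (IsIntegrallyClosedIn (integralClosure ℤ L) L)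
  obtain ⟨V, -, hV⟩ := Subring.exists_le_valuationSubring_of_isIntegrallyClosedIn hxR
  exact hV (h V)

end Tail

section Fraction

variable {L : Type*} [Field L] (A : ValuationSubring L) {q : ℕ}

lemma valuation_aeval_lt_one (hq : q.Prime) (hA : A.LiesOverPrime q) (p : ℤ[X])
    (hp : ∀ i, (q : ℤ) ∣ p.coeff i) {a : L} (ha : a ∈ A) : A.valuation (aeval a p) < 1 := by
  rw [aeval_eq_sum_range]
  refine Valuation.map_sum_lt _ one_ne_zero fun i _ => ?_
  rw [zsmul_eq_mul, map_mul, map_pow]
  have h1 : A.valuation ((p.coeff i : ℤ) : L) < 1 :=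
    (valuation_intCast_lt_one_iff hq hA _).mpr (hp i)
  have h2 : A.valuation a ^ i ≤ 1 :=
    pow_le_one₀ zero_le ((ValuationSubring.valuation_le_one_iff A a).mpr ha)
  calc A.valuation ((p.coeff i : ℤ) : L) * A.valuation a ^ i
      ≤ A.valuation ((p.coeff i : ℤ) : L) * 1 := mul_le_mul_right h2 _
    _ < 1 := by rw [mul_one]; exact h1

/-- Every element of a valuation subring `A` (over a prime `q`) of an algebraic extension of `ℚ`
is a fraction `z / y` of integral elements with `y` a unit of `A`. -/
theorem exists_integral_fraction [CharZero L] (hq : q.Prime) (hA : A.LiesOverPrime q) {a : L}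
    (halg : IsAlgebraic ℤ a) (ha : a ∈ A) :
    ∃ y z : L, IsIntegral ℤ y ∧ IsIntegral ℤ z ∧ y ∉ A.nonunits ∧ a * y = z := by
  classical
  by_cases ha0 : a = 0
  · refine ⟨1, 0, isIntegral_one, isIntegral_zero, ?_, by rw [ha0, zero_mul]⟩
    rw [ValuationSubring.mem_nonunits_iff, map_one]; exact lt_irrefl _
  obtain ⟨f, hf0, hfa⟩ := halg
  set g := f.primPart with hg
  have hga : aeval a g = 0 := by
    have h1 := f.eq_C_content_mul_primPart
    have h2 : aeval a f = (f.content : L) * aeval a g := by
      conv_lhs => rw [h1]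
      rw [map_mul, aeval_C, eq_intCast]
    rw [hfa] at h2
    have hc : (f.content : L) ≠ 0 := by
      exact_mod_cast (Polynomial.content_eq_zero_iff.not.mpr hf0)
    exact (mul_eq_zero.mp h2.symm).resolve_left hc
  have hprim : g.IsPrimitive := f.isPrimitive_primPart
  -- some coefficient is prime to `q`
  have hex : ∃ i, i ≤ g.natDegree ∧ ¬ (q : ℤ) ∣ g.coeff i := by
    by_contra hcon
    push Not at hcon
    have hall : ∀ i, (q : ℤ) ∣ g.coeff i := by
      intro i
      by_cases hi : i ≤ g.natDegree
      · exact hcon i hi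
      · rw [coeff_eq_zero_of_natDegree_lt (not_le.mp hi)]; exact dvd_zero _
    have hC : C (q : ℤ) ∣ g := (Polynomial.C_dvd_iff_dvd_coeff _ _).mpr hall
    have hu := hprim _ hC
    have : (q : ℤ).natAbs = 1 := Int.isUnit_iff_natAbs_eq.mp hu
    rw [Int.natAbs_natCast] at this
    exact hq.one_lt.ne' this
  obtain ⟨i₀, hi₀, hi₀'⟩ := hex
  set r := Nat.findGreatest (fun i => ¬ (q : ℤ) ∣ g.coeff i) g.natDegree with hr
  have hr1 : ¬ (q : ℤ) ∣ g.coeff r := Nat.findGreatest_spec (P := fun i => ¬ (q : ℤ) ∣ g.coeff i)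
    hi₀ hi₀'
  have hr2 : ∀ i, r < i → (q : ℤ) ∣ g.coeff i := by
    intro i hi
    by_cases hi' : i ≤ g.natDegree
    · have := Nat.findGreatest_is_greatest (P := fun i => ¬ (q : ℤ) ∣ g.coeff i) hi hi'
      exact not_not.mp this
    · rw [coeff_eq_zero_of_natDegree_lt (not_le.mp hi')]; exact dvd_zero _
  refine ⟨tail g a r, a * tail g a r,
    isIntegral_of_forall_mem fun V => (tail_mem_and_mul_tail_mem V g hga ha0 r).1,
    isIntegral_of_forall_mem fun V => (tail_mem_and_mul_tail_mem V g hga ha0 r).2, ?_, rfl⟩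
  rw [ValuationSubring.mem_nonunits_iff, not_lt]
  apply le_of_eq
  symm
  rw [tail_succ g a r]
  have h1 : A.valuation (tail g a (r + 1)) < 1 := by
    refine valuation_aeval_lt_one A hq hA _ (fun i => ?_) ha
    rw [coeff_iterate_divX]
    exact hr2 _ (by omega)
  have h2 : A.valuation (tail g a (r + 1) * a) < 1 := by
    rw [map_mul]
    calc A.valuation (tail g a (r + 1)) * A.valuation a
        ≤ A.valuation (tail g a (r + 1)) * 1 :=
          mul_le_mul_right ((ValuationSubring.valuation_le_one_iff A a).mpr ha) _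
      _ < 1 := by rw [mul_one]; exact h1
  have h3 : A.valuation ((g.coeff r : ℤ) : L) = 1 := valuation_intCast_eq_one hq hA hr1
  rw [add_comm, Valuation.map_add_eq_of_lt_left _ (h2.trans_eq h3.symm)]
  exact h3

end Fraction

section Exists

variable {L : Type*} [Field L] [CharZero L]

/-- Over every prime `q` there is a valuation subring. -/
theorem exists_liesOverPrime {q : ℕ} (hq : q.Prime) :
    ∃ A : ValuationSubring L, A.LiesOverPrime q := by
  let A₀ : Subring L := (Int.castRingHom L).range
  let qq : A₀ := ⟨(q : L), ⟨(q : ℤ), by simp⟩⟩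
  have hI : Ideal.span {qq} ≠ ⊤ := by
    intro h
    rw [Ideal.eq_top_iff_one, Ideal.mem_span_singleton'] at h
    obtain ⟨⟨m, ⟨n, rfl⟩⟩, hm⟩ := h
    have h1 : ((n * q : ℤ) : L) = ((1 : ℤ) : L) := by
      have := congrArg (Subtype.val) hm
      push_cast
      simpa [qq] using this
    have h2 : n * (q : ℤ) = 1 := Int.cast_injective h1
    have h3 : (q : ℤ) ∣ 1 := ⟨n, by rw [← h2]; ring⟩
    have h4 : (q : ℤ).natAbs = 1 := Int.isUnit_iff_natAbs_eq.mp (isUnit_of_dvd_one h3)
    rw [Int.natAbs_natCast] at h4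
    exact hq.one_lt.ne' h4
  obtain ⟨B, -, hB⟩ := Ideal.image_subset_nonunits_valuationSubring _ hI
  refine ⟨B, ?_⟩
  exact hB ⟨qq, Ideal.subset_span rfl, rfl⟩

end Exists

section Inertia

variable {L : Type*} [Field L] (A : ValuationSubring L) {q : ℕ}

/-- Elements integral over `ℤ` lie in every valuation subring. -/
lemma mem_of_isIntegral_int {x : L} (hx : IsIntegral ℤ x) : x ∈ A := by
  have h1 : IsIntegral A x := hx.tower_top
  obtain ⟨y, hy⟩ := (IsIntegrallyClosed.isIntegral_iff (R := A) (K := L)).mp h1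
  rw [← hy]; exact y.2

/-- Step 1: a ring endomorphism moving integral elements by non-units maps `A` into `A` and acts
trivially on the residue field. -/
lemma apply_mem_and_sub_mem_nonunits [CharZero L] (hq : q.Prime) (hA : A.LiesOverPrime q)
    (halg : ∀ a : L, IsAlgebraic ℤ a) (σ : L →+* L)
    (h : ∀ x : L, IsIntegral ℤ x → σ x - x ∈ A.nonunits) {a : L} (ha : a ∈ A) :
    σ a ∈ A ∧ σ a - a ∈ A.nonunits := by
  obtain ⟨y, z, hy, hz, hyu, e⟩ := exists_integral_fraction A hq hA (halg a) ha
  have hyA : y ∈ A := mem_of_isIntegral_int A hy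
  have hzA : z ∈ A := mem_of_isIntegral_int A hz
  have hvy : A.valuation y = 1 := by
    refine le_antisymm ((ValuationSubring.valuation_le_one_iff A y).mpr hyA) ?_
    rw [ValuationSubring.mem_nonunits_iff, not_lt] at hyu
    exact hyu
  have hvz : A.valuation z ≤ 1 := (ValuationSubring.valuation_le_one_iff A z).mpr hzA
  have hy0 : y ≠ 0 := by
    rintro rfl; rw [map_zero] at hvy; exact zero_ne_one hvy
  have hdy : A.valuation (σ y - y) < 1 := (ValuationSubring.mem_nonunits_iff A).mp (h y hy)
  have hdz : A.valuation (σ z - z) < 1 := (ValuationSubring.mem_nonunits_iff A).mp (h z hz)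
  have hvσy : A.valuation (σ y) = 1 := by
    rw [← hvy]
    exact Valuation.map_eq_of_sub_lt _ (by rw [hvy]; exact hdy)
  have hσy0 : σ y ≠ 0 := by
    intro h0; rw [h0, map_zero] at hvσy; exact zero_ne_one hvσy
  have hσzA : σ z ∈ A := mem_of_isIntegral_int A (map_isIntegral_int σ hz)
  have hvσz : A.valuation (σ z) ≤ 1 := (ValuationSubring.valuation_le_one_iff A _).mpr hσzA
  have ha' : a = z / y := by rw [← e]; field_simp
  have hσa : σ a = σ z / σ y := by rw [ha', map_div₀]
  constructor
  · rw [← ValuationSubring.valuation_le_one_iff, hσa, map_div₀, hvσy, div_one]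
    exact hvσz
  · rw [ValuationSubring.mem_nonunits_iff]
    have e2 : σ a - a = ((σ z - z) * y - z * (σ y - y)) / (σ y * y) := by
      rw [hσa, ha']; field_simp; ring
    rw [e2, map_div₀, map_mul, hvσy, hvy, one_mul, div_one]
    refine lt_of_le_of_lt (Valuation.map_sub _ _ _) (max_lt ?_ ?_)
    · rw [map_mul, hvy, mul_one]; exact hdz
    · rw [map_mul]
      calc A.valuation z * A.valuation (σ y - y) ≤ 1 * A.valuation (σ y - y) :=
            mul_le_mul_left hvz _
        _ < 1 := by rw [one_mul]; exact hdy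

variable {K : Type*} [Field K] [Algebra K L]

open scoped Pointwise in
/-- **(INF-a)** An automorphism moving every integral element by an element of the maximal ideal
of `A` lies in the inertia subgroup of `A`. -/
theorem mem_inertiaSubgroupIn_of_integral [CharZero L] (hq : q.Prime) (hA : A.LiesOverPrime q)
    (halg : ∀ a : L, IsAlgebraic ℤ a) (σ : L ≃ₐ[K] L)
    (h : ∀ x : L, IsIntegral ℤ x → σ x - x ∈ A.nonunits) : σ ∈ A.inertiaSubgroupIn K := by
  -- the same hypothesis for `σ⁻¹`
  have h' : ∀ x : L, IsIntegral ℤ x → σ.symm x - x ∈ A.nonunits := by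
    intro x hx
    have h1 := h (σ.symm x) (map_isIntegral_int σ.symm hx)
    rw [AlgEquiv.apply_symm_apply] at h1
    have : σ.symm x - x = -(x - σ.symm x) := by ring
    rw [this, ValuationSubring.mem_nonunits_iff, Valuation.map_neg]
    exact (ValuationSubring.mem_nonunits_iff A).mp h1
  have s1 := fun {a : L} (ha : a ∈ A) =>
    apply_mem_and_sub_mem_nonunits A hq hA halg (σ : L →+* L) h ha
  have s2 := fun {a : L} (ha : a ∈ A) =>
    apply_mem_and_sub_mem_nonunits A hq hA halg (σ.symm : L →+* L) h' ha
  have hD : σ ∈ A.decompositionSubgroup K := by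
    rw [MulAction.mem_stabilizer_iff]
    ext x
    rw [ValuationSubring.mem_pointwise_smul_iff_inv_smul_mem]
    constructor
    · intro hx
      have := (s1 hx).1
      simpa using this
    · intro hx
      exact (s2 hx).1
  refine Subgroup.mem_map.mpr ⟨⟨σ, hD⟩, ?_, rfl⟩
  change MulSemiringAction.toRingAut (A.decompositionSubgroup K)
      (IsLocalRing.ResidueField A) ⟨σ, hD⟩ = 1
  ext r
  obtain ⟨a, rfl⟩ := IsLocalRing.residue_surjective r
  change (⟨σ, hD⟩ : A.decompositionSubgroup K) • IsLocalRing.residue A a = IsLocalRing.residue A a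
  rw [← IsLocalRing.ResidueField.residue_smul, ← sub_eq_zero, ← map_sub,
    IsLocalRing.residue_eq_zero_iff]
  have hmem := (s1 a.2).2
  obtain ⟨hb, hbe⟩ := ValuationSubring.mem_nonunits_iff_exists_mem_maximalIdeal.mp hmem
  exact hbe

end Inertia

section Qbar

/-- Every element of `AlgebraicClosure ℚ` is algebraic over `ℤ`. -/
theorem isAlgebraic_int_qbar (a : AlgebraicClosure ℚ) : IsAlgebraic ℤ a :=
  (IsFractionRing.isAlgebraic_iff ℤ ℚ (AlgebraicClosure ℚ)).mpr
    (Algebra.IsAlgebraic.isAlgebraic a)

/-- **(INF-a)** for the absolute Galois group of `ℚ`. -/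
theorem mem_inertiaSubgroupIn_qbar (A : ValuationSubring (AlgebraicClosure ℚ)) {q : ℕ}
    (hq : q.Prime) (hA : A.LiesOverPrime q)
    (σ : AlgebraicClosure ℚ ≃ₐ[ℚ] AlgebraicClosure ℚ)
    (h : ∀ x : AlgebraicClosure ℚ, IsIntegral ℤ x → σ x - x ∈ A.nonunits) :
    σ ∈ A.inertiaSubgroupIn ℚ :=
  mem_inertiaSubgroupIn_of_integral A hq hA isAlgebraic_int_qbar σ h

end Qbar

end Fermat.Agent.S13.UnramVal
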