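/-
Program A / A4, (INF-b) (helper8): lifting an element of the inertia group of a finite Galois
level `K/ℚ` to an automorphism of `AlgebraicClosure ℚ` that moves every algebraic integer by an
element of the maximal ideal of a given valuation subring `A`.
-/
import Mathlib
import Fermat.Agent.S54.GaloisSetup
import Fermat.Agent.S13.UnramVal
import Fermat.Agent.S13.UnramMain

set_option autoImplicit false
set_option linter.style.haveILetI false

namespace Fermat.Agent.S13.UnramLift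

open Fermat.Agent.S54 Fermat.Agent.S13.UnramVal
open scoped Pointwise

attribute [local instance] topOQ

local notation "Qbar" => AlgebraicClosure ℚ

variable (K : IntermediateField ℚ Qbar)

/-- `Gal(Qbar/K)` preserves the ring of algebraic integers. -/
instance isInvariantSubring_OQ_K : IsInvariantSubring (Qbar ≃ₐ[K] Qbar) OQ where
  smul_mem σ x hx := by
    rw [mem_OQ] at hx ⊢
    exact map_isIntegral_int σ hx

theorem coe_smul_OQ_K (σ : Qbar ≃ₐ[K] Qbar) (x : OQ) :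
    ((σ • x : OQ) : Qbar) = σ (x : Qbar) := rfl

/-- The algebraic integers lying in `K`, as a subring of `OQ`. -/
def OK : Subring OQ where
  carrier := {b | (b : Qbar) ∈ K}
  mul_mem' ha hb := K.mul_mem ha hb
  one_mem' := K.one_mem
  add_mem' ha hb := K.add_mem ha hb
  zero_mem' := K.zero_mem
  neg_mem' ha := K.neg_mem ha

theorem mem_OK {b : OQ} : b ∈ OK K ↔ (b : Qbar) ∈ K := Iff.rfl

instance smulCommClass_OK : SMulCommClass (Qbar ≃ₐ[K] Qbar) (OK K) OQ where
  smul_comm g a b := by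
    apply Subtype.ext
    change g ((a : OQ) * b : OQ) = ((a : OQ) : Qbar) * g (b : Qbar)
    rw [Subring.coe_mul, map_mul]
    congr 1
    exact g.commutes ⟨_, a.2⟩

instance continuousSMul_OQ_K : ContinuousSMul (Qbar ≃ₐ[K] Qbar) OQ := by
  rw [continuousSMul_iff_stabilizer_isOpen]
  intro b
  convert stabilizer_isOpen_of_isIntegral (K := K) (L := Qbar) (b : Qbar) using 1
  ext g
  simp only [SetLike.mem_coe, MulAction.mem_stabilizer_iff]
  constructor
  · intro h; exact congrArg Subtype.val h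
  · intro h; exact Subtype.ext h

instance isInvariant_OQ_K : Algebra.IsInvariant (OK K) OQ (Qbar ≃ₐ[K] Qbar) where
  isInvariant b hb := by
    have hmem : (b : Qbar) ∈ IntermediateField.fixedField
        (⊤ : Subgroup (Qbar ≃ₐ[K] Qbar)) := by
      rintro ⟨g, -⟩
      exact congrArg Subtype.val (hb g)
    rw [InfiniteGalois.fixedField_bot, IntermediateField.mem_bot] at hmem
    obtain ⟨k, hk⟩ := hmem
    refine ⟨⟨b, ?_⟩, rfl⟩
    rw [mem_OK, ← hk]
    exact k.2


section Prime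

variable (A : ValuationSubring Qbar)

theorem OQ_le (A : ValuationSubring Qbar) : OQ ≤ A.toSubring := fun _ hx =>
  mem_of_isIntegral_int A (mem_OQ.mp hx)

/-- The prime of `OQ` below the maximal ideal of `A`. -/
noncomputable def primeQ : Ideal OQ :=
  (IsLocalRing.maximalIdeal A).comap (Subring.inclusion (OQ_le A))

instance primeQ_isPrime : (primeQ A).IsPrime := Ideal.comap_isPrime _ _

theorem mem_primeQ (b : OQ) : b ∈ primeQ A ↔ (b : Qbar) ∈ A.nonunits := by
  rw [primeQ, Ideal.mem_comap, ValuationSubring.mem_nonunits_iff_exists_mem_maximalIdeal]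
  constructor
  · intro h; exact ⟨_, h⟩
  · rintro ⟨_, h⟩; exact h

/-- Elements of `A` differing by a non-unit are simultaneously non-units. -/
theorem mem_nonunits_iff_of_sub {x y : Qbar} (h : x - y ∈ A.nonunits) :
    x ∈ A.nonunits ↔ y ∈ A.nonunits := by
  simp only [ValuationSubring.mem_nonunits_iff] at h ⊢
  constructor
  · intro hx
    have : y = x - (x - y) := by ring
    rw [this]
    exact lt_of_le_of_lt (Valuation.map_sub _ _ _) (max_lt hx h)
  · intro hy
    have : x = (x - y) + y := by ring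
    rw [this]
    exact lt_of_le_of_lt (Valuation.map_add _ _ _) (max_lt h hy)

end Prime


section Lift

variable (A : ValuationSubring Qbar)

/-- Step 1: a lift of `τ` stabilising the prime of `OQ` below `A`. -/
theorem exists_lift_stabilizing (τ : K ≃ₐ[ℚ] K)
    (hτ : ∀ x : K, IsIntegral ℤ x → (((τ x : K) : Qbar) - x) ∈ A.nonunits) :
    ∃ σ : Qbar ≃ₐ[ℚ] Qbar, (∀ x : K, σ x = τ x) ∧
      ∀ b : OQ, (σ • b ∈ primeQ A ↔ b ∈ primeQ A) := by
  -- Step 0: any lift
  set σ₀ : Qbar ≃ₐ[ℚ] Qbar := τ.liftNormal Qbar with hσ₀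
  have hσ₀K : ∀ x : K, σ₀ x = τ x := fun x => τ.liftNormal_commutes Qbar x
  have hσ₀K' : ∀ x : K, σ₀⁻¹ (x : Qbar) = τ.symm x := by
    intro x
    have h1 := hσ₀K (τ.symm x)
    rw [AlgEquiv.apply_symm_apply] at h1
    rw [← h1]
    exact σ₀.symm_apply_apply _
  set Q := primeQ A with hQ
  -- the two primes have the same trace on `OK`
  have hunder : (σ₀ • Q).under (OK K) = Q.under (OK K) := by
    ext a
    rw [Ideal.mem_comap, Ideal.mem_comap, Ideal.mem_pointwise_smul_iff_inv_smul_mem,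
      mem_primeQ, mem_primeQ]
    have haK : ((a : OQ) : Qbar) ∈ K := a.2
    have haint : IsIntegral ℤ ((a : OQ) : Qbar) := (a : OQ).2
    set y : K := τ.symm ⟨_, haK⟩ with hy
    have hyint : IsIntegral ℤ y := by
      have h0 : IsIntegral ℤ (⟨_, haK⟩ : K) :=
        (isIntegral_algebraMap_iff (algebraMap K Qbar).injective).mp haint
      exact map_isIntegral_int τ.symm h0
    have h1 := hτ y hyint
    rw [hy, AlgEquiv.apply_symm_apply] at h1
    have h2 : ((σ₀⁻¹ • (algebraMap (OK K) OQ a) : OQ) : Qbar) = (y : Qbar) := by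
      rw [hy, ← hσ₀K']; rfl
    rw [h2]
    exact (mem_nonunits_iff_of_sub A h1).symm
  obtain ⟨g, hg⟩ := Algebra.IsInvariant.exists_smul_of_under_eq_of_profinite
    (A := OK K) (B := OQ) (G := Qbar ≃ₐ[K] Qbar) (σ₀ • Q) Q hunder
  refine ⟨(g.restrictScalars ℚ) * σ₀, fun x => ?_, fun b => ?_⟩
  · rw [AlgEquiv.mul_apply, hσ₀K]
    exact g.commutes (τ x)
  · have h1 : ((g.restrictScalars ℚ * σ₀) • b : OQ) = g • (σ₀ • b) := rfl
    rw [h1]
    conv_lhs => rw [hg]
    rw [Ideal.mem_pointwise_smul_iff_inv_smul_mem, inv_smul_smul,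
      Ideal.mem_pointwise_smul_iff_inv_smul_mem, inv_smul_smul]

/-- Step 2: correcting the action on the residue field by an element of `Gal(Qbar/K)`. -/
theorem exists_fixing_congr (σ₁ : Qbar ≃ₐ[ℚ] Qbar)
    (h1 : ∀ b : OQ, (σ₁ • b ∈ primeQ A ↔ b ∈ primeQ A))
    (h2 : ∀ a : OK K, σ₁ • (a : OQ) - a ∈ primeQ A) :
    ∃ ρ : Qbar ≃ₐ[K] Qbar, (∀ b : OQ, (ρ • b ∈ primeQ A ↔ b ∈ primeQ A)) ∧
      ∀ b : OQ, ρ • b - σ₁ • b ∈ primeQ A := by
  set Q := primeQ A with hQ
  set P : Ideal (OK K) := Q.under (OK K) with hP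
  set p : Ideal ℤ := Q.under ℤ with hp
  -- `σ₁` stabilises `Q`
  have hstab : σ₁ ∈ MulAction.stabilizer (Qbar ≃ₐ[ℚ] Qbar) Q := by
    rw [MulAction.mem_stabilizer_iff]
    ext b
    rw [Ideal.mem_pointwise_smul_iff_inv_smul_mem, ← h1 (σ₁⁻¹ • b), smul_inv_smul]
  set φ₀ := Ideal.Quotient.stabilizerHom Q p (Qbar ≃ₐ[ℚ] Qbar) ⟨σ₁, hstab⟩ with hφ₀
  have hφ₀mk : ∀ b : OQ, φ₀ (Ideal.Quotient.mk Q b) = Ideal.Quotient.mk Q (σ₁ • b) :=
    fun b => Ideal.Quotient.stabilizerHom_apply Q p (Qbar ≃ₐ[ℚ] Qbar) ⟨σ₁, hstab⟩ b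
  -- `φ₀` is linear over `OK / P`
  let φK : (OQ ⧸ Q) ≃ₐ[OK K ⧸ P] (OQ ⧸ Q) :=
    AlgEquiv.ofRingEquiv (f := φ₀.toRingEquiv) (by
      intro a
      obtain ⟨a, rfl⟩ := Ideal.Quotient.mk_surjective a
      rw [Ideal.Quotient.algebraMap_mk_of_liesOver]
      change φ₀ (Ideal.Quotient.mk Q (algebraMap (OK K) OQ a)) = _
      rw [hφ₀mk]
      exact Ideal.Quotient.eq.mpr (h2 a))
  obtain ⟨⟨ρ, hρ⟩, hρφ⟩ := Ideal.Quotient.stabilizerHom_surjective_of_profinite
    (G := Qbar ≃ₐ[K] Qbar) P Q φK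
  refine ⟨ρ, fun b => ?_, fun b => ?_⟩
  · rw [MulAction.mem_stabilizer_iff] at hρ
    conv_lhs => rw [← hρ]
    rw [Ideal.mem_pointwise_smul_iff_inv_smul_mem, inv_smul_smul]
  · have h3 := DFunLike.congr_fun hρφ (Ideal.Quotient.mk Q b)
    rw [Ideal.Quotient.stabilizerHom_apply] at h3
    have h4 : φK (Ideal.Quotient.mk Q b) = Ideal.Quotient.mk Q (σ₁ • b) := hφ₀mk b
    rw [h4] at h3
    exact Ideal.Quotient.eq.mp h3

/-- **(INF-b)** Lifting an element of the inertia group of `m_A ∩ 𝓞 K` in `Gal(K/ℚ)` to an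
automorphism of `Qbar` moving all algebraic integers by elements of the maximal ideal of `A`. -/
theorem exists_lift_congr_integral (τ : K ≃ₐ[ℚ] K)
    (hτ : ∀ x : K, IsIntegral ℤ x → (((τ x : K) : Qbar) - x) ∈ A.nonunits) :
    ∃ σ : Qbar ≃ₐ[ℚ] Qbar, (∀ x : K, σ x = τ x) ∧
      ∀ x : Qbar, IsIntegral ℤ x → σ x - x ∈ A.nonunits := by
  obtain ⟨σ₁, hσ₁K, hσ₁Q⟩ := exists_lift_stabilizing K A τ hτ
  have h2 : ∀ a : OK K, σ₁ • (a : OQ) - a ∈ primeQ A := by
    intro a
    rw [mem_primeQ]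
    have haK : ((a : OQ) : Qbar) ∈ K := a.2
    have haint : IsIntegral ℤ (⟨_, haK⟩ : K) :=
      (isIntegral_algebraMap_iff (algebraMap K Qbar).injective).mp (a : OQ).2
    have h3 := hτ ⟨_, haK⟩ haint
    rw [← hσ₁K] at h3
    exact h3
  obtain ⟨ρ, hρQ, hρσ⟩ := exists_fixing_congr K A σ₁ hσ₁Q h2
  have hρK : ∀ x : K, ρ⁻¹ (x : Qbar) = x := by
    intro x
    have : ρ (x : Qbar) = x := ρ.commutes x
    conv_lhs => rw [← this]
    exact ρ.symm_apply_apply _
  refine ⟨(ρ⁻¹).restrictScalars ℚ * σ₁, fun x => ?_, fun x hx => ?_⟩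
  · rw [AlgEquiv.mul_apply, hσ₁K]
    exact hρK (τ x)
  · set b : OQ := ⟨x, mem_OQ.mpr hx⟩ with hb
    have h3 : ρ⁻¹ • (σ₁ • b) - b ∈ primeQ A := by
      rw [← hρQ, smul_sub, smul_inv_smul]
      have := hρσ b
      rw [← neg_sub]
      exact (primeQ A).neg_mem this
    rw [mem_primeQ] at h3
    exact h3

end Lift

end Fermat.Agent.S13.UnramLift
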