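/-
Program A / A4 (helper8): a nontrivial finite Galois extension `K/ℚ` inside `AlgebraicClosure ℚ`
has a prime `q` such that, for EVERY valuation subring `A` of `AlgebraicClosure ℚ` over `q`, the
inertia group of `m_A ∩ 𝓞 K` in `Gal(K/ℚ)` is nontrivial (Hermite–Minkowski + `#I = e`).
-/
import Mathlib
import Fermat.Prelude.Def_FLTPrelim_Ramification
import Fermat.Agent.S13.UnramVal
import Fermat.Agent.S13.UnramMain

set_option autoImplicit false

namespace Fermat.Agent.S13.UnramRam

open NumberField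
open Fermat.Agent.S13.UnramVal Fermat.Agent.S13.UnramMain

variable (K : IntermediateField ℚ (AlgebraicClosure ℚ)) [FiniteDimensional ℚ K]

instance numberField_of_finiteDimensional : NumberField K where
  to_charZero := inferInstance
  to_finiteDimensional := inferInstance

/-- The ring homomorphism `𝓞 K → A` for a valuation subring `A` of `AlgebraicClosure ℚ`. -/
noncomputable def toVal (A : ValuationSubring (AlgebraicClosure ℚ)) : 𝓞 K →+* A where
  toFun x := ⟨((x : K) : AlgebraicClosure ℚ), mem_of_isIntegral_int A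
    (map_isIntegral_int (algebraMap K (AlgebraicClosure ℚ)) x.2)⟩
  map_one' := by ext; simp
  map_mul' x y := by ext; simp
  map_zero' := by ext; simp
  map_add' x y := by ext; simp

/-- The prime of `𝓞 K` below the maximal ideal of `A`. -/
noncomputable def primeBelow (A : ValuationSubring (AlgebraicClosure ℚ)) : Ideal (𝓞 K) :=
  (IsLocalRing.maximalIdeal A).comap (toVal K A)

instance (A : ValuationSubring (AlgebraicClosure ℚ)) : (primeBelow K A).IsPrime :=
  Ideal.comap_isPrime _ _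

omit [FiniteDimensional ℚ K] in
lemma mem_primeBelow_iff (A : ValuationSubring (AlgebraicClosure ℚ)) (x : 𝓞 K) :
    x ∈ primeBelow K A ↔ (((x : K) : AlgebraicClosure ℚ)) ∈ A.nonunits := by
  rw [primeBelow, Ideal.mem_comap, ValuationSubring.mem_nonunits_iff_exists_mem_maximalIdeal]
  constructor
  · intro h; exact ⟨_, h⟩
  · rintro ⟨_, h⟩; exact h


/-- **(RAM)** -/
theorem exists_ramified_inertia [IsGalois ℚ K] (hK : K ≠ ⊥) :
    ∃ q : ℕ, q.Prime ∧ ∀ A : ValuationSubring (AlgebraicClosure ℚ), A.LiesOverPrime q →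
      ∃ τ : K ≃ₐ[ℚ] K, τ ≠ 1 ∧ ∀ x : K, IsIntegral ℤ x →
        (((τ x : K) : AlgebraicClosure ℚ) - x) ∈ A.nonunits := by
  have hfr : 1 < Module.finrank ℚ K := by
    have h1 : Module.finrank ℚ K ≠ 1 := fun h => hK (IntermediateField.finrank_eq_one_iff.mp h)
    have h0 : 0 < Module.finrank ℚ K := Module.finrank_pos
    omega
  obtain ⟨q, hq, hram⟩ :=
    NumberField.exists_not_isUnramifiedAt_int_of_isGalois (K := K) (𝒪 := 𝓞 K) hfr
  refine ⟨q, hq, fun A hA => ?_⟩
  set P := primeBelow K A with hP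
  have hqP : (q : 𝓞 K) ∈ P := by
    rw [mem_primeBelow_iff]
    have hA' : ((q : ℕ) : AlgebraicClosure ℚ) ∈ A.nonunits := hA
    simpa using hA'
  have hnr := hram P inferInstance hqP
  have he : P.ramificationIdx ℤ ≠ 1 := fun h => hnr (Ideal.ramificationIdx_eq_one_iff.mp h)
  have hcard : Nat.card (P.inertia Gal(K/ℚ)) = (P.under ℤ).ramificationIdxIn (𝓞 K) :=
    Ideal.card_inertia_eq_ramificationIdxIn (P.under ℤ) P
  rw [Ideal.ramificationIdxIn_eq_ramificationIdx (P.under ℤ) P Gal(K/ℚ)] at hcard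
  have hex : ∃ τ : K ≃ₐ[ℚ] K, τ ∈ P.inertia Gal(K/ℚ) ∧ τ ≠ 1 := by
    by_contra hcon
    push Not at hcon
    have hbot : P.inertia Gal(K/ℚ) = ⊥ := (Subgroup.eq_bot_iff_forall _).mpr hcon
    rw [hbot, Subgroup.card_bot] at hcard
    exact he hcard.symm
  obtain ⟨τ, hτ, hτ1⟩ := hex
  refine ⟨τ, hτ1, fun x hx => ?_⟩
  set x' : 𝓞 K := IsIntegralClosure.mk' (𝓞 K) x hx with hx'
  have hxx : ((x' : 𝓞 K) : K) = x := IsIntegralClosure.algebraMap_mk' (𝓞 K) x hx
  have h1 : τ • x' - x' ∈ primeBelow K A := hτ x'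
  rw [mem_primeBelow_iff] at h1
  have hxx' : algebraMap (𝓞 K) K x' = x := hxx
  have h2 : ((τ • x' - x' : 𝓞 K) : K) = τ x - x := by
    change algebraMap (𝓞 K) K (τ • x' - x') = τ x - x
    rw [map_sub, algebraMap.smul', hxx']; rfl
  rw [h2] at h1
  simpa using h1

end Fermat.Agent.S13.UnramRam
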