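/-
Program A / A4 (helper8): the BRIDGE statement of `UnramMain.lean` and the final, hypothesis-free
forms of "a normal open subgroup of `G_ℚ` containing an inertia group at every prime is everything".
-/
import Mathlib
import Fermat.Agent.S13.UnramVal
import Fermat.Agent.S13.UnramMain
import Fermat.Agent.S13.UnramRam
import Fermat.Agent.S13.UnramLift

set_option autoImplicit false

namespace Fermat.Agent.S13.UnramBridge

open Fermat.Agent.S13.UnramVal Fermat.Agent.S13.UnramMain Fermat.Agent.S13.UnramRam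
  Fermat.Agent.S13.UnramLift

/-- **(INF)** the inertia group of `A` surjects onto the inertia group of `m_A ∩ 𝓞 K`. -/
theorem exists_inertia_lift (K : IntermediateField ℚ (AlgebraicClosure ℚ))
    (A : ValuationSubring (AlgebraicClosure ℚ)) {q : ℕ} (hq : q.Prime) (hA : A.LiesOverPrime q)
    (τ : K ≃ₐ[ℚ] K)
    (hτ : ∀ x : K, IsIntegral ℤ x → (((τ x : K) : AlgebraicClosure ℚ) - x) ∈ A.nonunits) :
    ∃ σ ∈ A.inertiaSubgroupIn ℚ, ∀ x : K, σ x = τ x := by
  obtain ⟨σ, hσK, hσ⟩ := exists_lift_congr_integral K A τ hτ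
  exact ⟨σ, mem_inertiaSubgroupIn_qbar A hq hA σ hσ, hσK⟩

/-- **(BRIDGE)** -/
theorem bridge : Bridge := by
  intro K _ _ hK
  obtain ⟨q, hq, h⟩ := exists_ramified_inertia K hK
  refine ⟨q, hq, fun A hA => ?_⟩
  obtain ⟨τ, hτ1, hτ⟩ := h A hA
  obtain ⟨σ, hσI, hσK⟩ := exists_inertia_lift K A hq hA τ hτ
  refine ⟨σ, hσI, ?_⟩
  obtain ⟨x, hx⟩ : ∃ x : K, τ x ≠ x := by
    by_contra hcon
    push Not at hcon
    exact hτ1 (AlgEquiv.ext hcon)
  refine ⟨x, x.2, ?_⟩
  rw [hσK]
  exact fun h => hx (Subtype.ext h)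


/-! ### Final forms (no hypotheses left) -/

/-- **A4, subgroup form**: a normal subgroup of `G_ℚ` containing the fixing subgroup of a finite
extension and, for every prime `q`, the inertia group of SOME valuation subring over `q`, is
everything. -/
theorem eq_top_of_forall_exists_inertia_le
    (N : Subgroup (AlgebraicClosure ℚ ≃ₐ[ℚ] AlgebraicClosure ℚ)) [N.Normal]
    (F : IntermediateField ℚ (AlgebraicClosure ℚ)) [FiniteDimensional ℚ F]
    (hF : F.fixingSubgroup ≤ N)
    (hN : ∀ q : ℕ, q.Prime → ∃ A : ValuationSubring (AlgebraicClosure ℚ),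
      A.LiesOverPrime q ∧ A.inertiaSubgroupIn ℚ ≤ N) : N = ⊤ :=
  eq_top_of_forall_exists_inertia_le_of_bridge bridge N F hF hN

/-- **A4, finite-set form**. -/
theorem eq_top_of_finite_set
    (N : Subgroup (AlgebraicClosure ℚ ≃ₐ[ℚ] AlgebraicClosure ℚ)) [N.Normal]
    (S : Set (AlgebraicClosure ℚ)) (hS : S.Finite)
    (hSN : ∀ σ : AlgebraicClosure ℚ ≃ₐ[ℚ] AlgebraicClosure ℚ, (∀ x ∈ S, σ x = x) → σ ∈ N)
    (hN : ∀ q : ℕ, q.Prime → ∃ A : ValuationSubring (AlgebraicClosure ℚ),
      A.LiesOverPrime q ∧ A.inertiaSubgroupIn ℚ ≤ N) : N = ⊤ :=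
  eq_top_of_finite_set_of_bridge bridge N S hS hSN hN

/-- **(W3)** Over every prime there is a valuation subring of `AlgebraicClosure ℚ`. -/
theorem exists_liesOverPrime_qbar (q : ℕ) (hq : q.Prime) :
    ∃ A : ValuationSubring (AlgebraicClosure ℚ), A.LiesOverPrime q :=
  exists_liesOverPrime hq

section Torsion

open WeierstrassCurve WeierstrassCurve.Affine WeierstrassCurve.Affine.Point

variable (W' : Affine ℚ) (n : ℕ)
  [Finite (Submodule.torsionBy ℤ (W'⁄(AlgebraicClosure ℚ)).Point n)]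
  (M : Submodule (ZMod n) (Submodule.torsionBy ℤ (W'⁄(AlgebraicClosure ℚ)).Point n))

/-- **(W1)** If a Galois-stable submodule `M` of the finite `n`-torsion is fixed pointwise by the
inertia group of some valuation subring over every prime, it is fixed pointwise by `G_ℚ`. -/
theorem kerOn_eq_top (hM : IsGaloisStable ℚ M)
    (h : ∀ q : ℕ, q.Prime → ∃ A : ValuationSubring (AlgebraicClosure ℚ), A.LiesOverPrime q ∧
      ∀ σ ∈ A.inertiaSubgroupIn ℚ, ∀ x ∈ M, σ • x = x) :
    ∀ (σ : AlgebraicClosure ℚ ≃ₐ[ℚ] AlgebraicClosure ℚ), ∀ x ∈ M, σ • x = x :=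
  fun σ => forall_smul_eq_of_inertia_of_bridge bridge hM h σ

/-- **(W2)** If the inertia group of some valuation subring over every prime acts trivially on
the quotient of the finite `n`-torsion by a Galois-stable submodule `M`, so does `G_ℚ`. -/
theorem kerQuot_eq_top (hM : IsGaloisStable ℚ M)
    (h : ∀ q : ℕ, q.Prime → ∃ A : ValuationSubring (AlgebraicClosure ℚ), A.LiesOverPrime q ∧
      ∀ σ ∈ A.inertiaSubgroupIn ℚ,
        ∀ x : Submodule.torsionBy ℤ (W'⁄(AlgebraicClosure ℚ)).Point n, σ • x - x ∈ M) :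
    ∀ (σ : AlgebraicClosure ℚ ≃ₐ[ℚ] AlgebraicClosure ℚ)
      (x : Submodule.torsionBy ℤ (W'⁄(AlgebraicClosure ℚ)).Point n), σ • x - x ∈ M :=
  fun σ => forall_smul_sub_mem_of_inertia_of_bridge bridge hM h σ

end Torsion

end Fermat.Agent.S13.UnramBridge
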