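/-
A4 / INF-b (helper11): lifting inertia from a finite Galois level to the absolute Galois group.

* `exists_mul_smul_sub_mem` : abstract form.  A profinite group `G` acts continuously on a discrete
  commutative ring `B`, `H ≤ G` is a closed normal subgroup, `Q` a prime of `B`.  If `σ0 ∈ G` moves
  every `H`-invariant element of `B` by an element of `Q`, then some `h * σ0` with `h ∈ H` moves
  EVERY element of `B` by an element of `Q` (i.e. lies in the inertia group of `Q`).
  Proof: the usual two steps, via Mathlib's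
  `Algebra.IsInvariant.exists_smul_of_under_eq_of_profinite` (transitivity on primes) and
  `Ideal.Quotient.stabilizerHom_surjective_of_profinite`.
* `exists_lift_congr_integral` : the concrete form for `Qbar/K/ℚ` and a valuation subring of
  `Qbar`, in the shape of the A4 plan.
* `exists_inertia_lift` : composed with INF-a (`UnramVal.mem_inertiaSubgroupIn_qbar`).
-/
import Mathlib
import Fermat.Prelude.Def_FLTPrelim_Ramification
import Fermat.Agent.S05.Inertia
import Fermat.Agent.S13.UnramVal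
import Fermat.Agent.S13.UnramMain

set_option autoImplicit false
set_option linter.style.haveILetI false

namespace Fermat.Agent.S13.UnramLift11

open scoped Pointwise

universe u

section Abstract

variable {G : Type u} [Group G] [TopologicalSpace G] [IsTopologicalGroup G] [CompactSpace G]
  [TotallyDisconnectedSpace G]
variable {B : Type*} [CommRing B] [TopologicalSpace B] [DiscreteTopology B]
  [MulSemiringAction G B] [ContinuousSMul G B]

/-- Abstract inertia lifting. -/
theorem exists_mul_smul_sub_mem (H : Subgroup G) [H.Normal] (hH : IsClosed (H : Set G))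
    (Q : Ideal B) [Q.IsPrime] (σ0 : G)
    (h0 : ∀ a : B, (∀ h ∈ H, h • a = a) → σ0 • a - a ∈ Q) :
    ∃ h ∈ H, ∀ b : B, (h * σ0) • b - b ∈ Q := by
  haveI : CompactSpace H := isCompact_iff_compactSpace.mp hH.isCompact
  haveI : SMulCommClass H (FixedPoints.subring B H) B :=
    instSMulCommClassSubtypeMemSubringSubring B H
  haveI : Algebra.IsInvariant (FixedPoints.subring B H) B H := ⟨fun b hb => ⟨⟨b, hb⟩, rfl⟩⟩
  -- `σ0` preserves the fixed ring
  have hfix : ∀ a : B, (∀ h ∈ H, h • a = a) → ∀ h ∈ H, h • (σ0 • a) = σ0 • a := by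
    intro a ha h hh
    have h1 : σ0⁻¹ * h * σ0 ∈ H := by
      have := Subgroup.Normal.conj_mem ‹H.Normal› h hh σ0⁻¹
      simpa using this
    have h2 := ha _ h1
    rw [mul_smul, mul_smul, inv_smul_eq_iff] at h2
    exact h2
  have hfix' : ∀ a : B, (∀ h ∈ H, h • a = a) → ∀ h ∈ H, h • (σ0⁻¹ • a) = σ0⁻¹ • a := by
    intro a ha h hh
    have h1 : σ0 * h * σ0⁻¹ ∈ H := Subgroup.Normal.conj_mem ‹H.Normal› h hh σ0
    have h2 := ha _ h1
    rw [mul_smul, mul_smul, ← eq_inv_smul_iff] at h2
    exact h2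
  -- Step 1: transitivity
  have hunder : (σ0 • Q).under (FixedPoints.subring B H) = Q.under (FixedPoints.subring B H) := by
    ext ⟨a, ha⟩
    have ha' : ∀ h ∈ H, h • a = a := fun h hh => ha ⟨h, hh⟩
    simp only [Ideal.under_def, Ideal.mem_comap]
    change a ∈ σ0 • Q ↔ a ∈ Q
    rw [Ideal.mem_pointwise_smul_iff_inv_smul_mem]
    have h1 := h0 (σ0⁻¹ • a) (hfix' a ha')
    rw [smul_inv_smul] at h1
    constructor
    · intro h2
      have := Q.add_mem h1 h2
      simpa using this
    · intro h2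
      have := Q.sub_mem h2 h1
      simpa using this
  obtain ⟨ρ, hρ⟩ := Algebra.IsInvariant.exists_smul_of_under_eq_of_profinite
    (A := FixedPoints.subring B H) (G := H) (σ0 • Q) Q hunder
  -- `σ1 := ρ σ0` stabilises `Q`
  have hσ1 : ((ρ : G) * σ0) • Q = Q := by
    rw [mul_smul]; exact hρ.symm
  have hσ1mem : ∀ x : B, ((ρ : G) * σ0) • x ∈ Q ↔ x ∈ Q := by
    intro x
    conv_lhs => rw [← hσ1]
    exact Ideal.smul_mem_pointwise_smul_iff
  -- it acts trivially on the fixed ring modulo `Q`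
  have hσ1fix : ∀ a : B, (∀ h ∈ H, h • a = a) → ((ρ : G) * σ0) • a - a ∈ Q := by
    intro a ha
    rw [mul_smul, hfix a ha ρ ρ.2]
    exact h0 a ha
  -- the induced automorphism of `B ⧸ Q`
  let e : (B ⧸ Q) ≃+* (B ⧸ Q) :=
    Ideal.quotientEquiv Q Q (MulSemiringAction.toRingEquiv G B ((ρ : G) * σ0)) hσ1.symm
  have he : ∀ b : B, e (Ideal.Quotient.mk Q b) = Ideal.Quotient.mk Q (((ρ : G) * σ0) • b) :=
    fun b => rfl
  let s1 : (B ⧸ Q) ≃ₐ[FixedPoints.subring B H ⧸ Q.under (FixedPoints.subring B H)] (B ⧸ Q) :=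
    { e with
      commutes' := by
        rintro ⟨a⟩
        change e (Ideal.Quotient.mk Q (a : B)) = Ideal.Quotient.mk Q (a : B)
        rw [he, Ideal.Quotient.eq]
        exact hσ1fix a.1 (fun h hh => a.2 ⟨h, hh⟩) }
  obtain ⟨ρ', hρ'⟩ := Ideal.Quotient.stabilizerHom_surjective_of_profinite
    (G := H) (Q.under (FixedPoints.subring B H)) Q s1
  have hkey : ∀ c : B, ((ρ' : H) : G) • c - ((ρ : G) * σ0) • c ∈ Q := by
    intro c
    have h1 := congrArg (fun f => f (Ideal.Quotient.mk Q c)) hρ'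
    simp only [Ideal.Quotient.stabilizerHom_apply] at h1
    have h2 : s1 (Ideal.Quotient.mk Q c) = Ideal.Quotient.mk Q (((ρ : G) * σ0) • c) := he c
    rw [h2, Ideal.Quotient.eq] at h1
    exact h1
  refine ⟨(((ρ' : H) : G))⁻¹ * (ρ : G), H.mul_mem (H.inv_mem (ρ' : H).2) ρ.2, fun b => ?_⟩
  set c : B := ((((ρ' : H) : G))⁻¹ * (ρ : G) * σ0) • b with hc
  have h3 : ((ρ' : H) : G) • c = ((ρ : G) * σ0) • b := by
    rw [hc, ← mul_smul]
    congr 1
    group
  have h4 := hkey c
  rw [h3, ← smul_sub, hσ1mem] at h4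
  have := Q.neg_mem h4
  simpa using this

end Abstract

section Concrete

local notation "Qbar" => AlgebraicClosure ℚ
local notation "GQ" => (AlgebraicClosure ℚ ≃ₐ[ℚ] AlgebraicClosure ℚ)
local notation "ZB" => integralClosure ℤ (AlgebraicClosure ℚ)

/-- The ring of algebraic integers maps to any valuation subring. -/
noncomputable def toVal (A : ValuationSubring Qbar) : ZB →+* A where
  toFun x := ⟨x.1, UnramVal.mem_of_isIntegral_int A x.2⟩
  map_one' := rfl
  map_mul' _ _ := rfl
  map_zero' := rfl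
  map_add' _ _ := rfl

/-- The prime of the ring of algebraic integers cut out by a valuation subring. -/
noncomputable def primeOf (A : ValuationSubring Qbar) : Ideal ZB :=
  (IsLocalRing.maximalIdeal A).comap (toVal A)

instance (A : ValuationSubring Qbar) : (primeOf A).IsPrime := by
  unfold primeOf
  infer_instance

theorem mem_primeOf (A : ValuationSubring Qbar) (x : ZB) :
    x ∈ primeOf A ↔ (x : Qbar) ∈ A.nonunits := by
  rw [ValuationSubring.mem_nonunits_iff_exists_mem_maximalIdeal]
  constructor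
  · intro h
    exact ⟨UnramVal.mem_of_isIntegral_int A x.2, h⟩
  · rintro ⟨_, h⟩
    exact h

theorem exists_lift_congr_integral (K : IntermediateField ℚ Qbar) [FiniteDimensional ℚ K]
    [IsGalois ℚ K] (A : ValuationSubring Qbar) (τ : K ≃ₐ[ℚ] K)
    (hτ : ∀ x : K, IsIntegral ℤ x → ((τ x : Qbar) - x) ∈ A.nonunits) :
    ∃ σ : GQ, (∀ x : K, σ x = τ x) ∧ ∀ x : Qbar, IsIntegral ℤ x → σ x - x ∈ A.nonunits := by
  letI : TopologicalSpace ZB := ⊥
  haveI : DiscreteTopology ZB := ⟨rfl⟩
  haveI : ContinuousSMul GQ ZB := by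
    rw [continuousSMul_iff_stabilizer_isOpen]
    intro x
    have := stabilizer_isOpen_of_isIntegral (K := ℚ) (L := Qbar) (x : Qbar)
    convert this using 1
    ext g
    simp only [SetLike.mem_coe, MulAction.mem_stabilizer_iff]
    constructor
    · intro h
      exact congrArg Subtype.val h
    · intro h
      exact Subtype.ext h
  haveI : (K.fixingSubgroup).Normal := (InfiniteGalois.normal_iff_isGalois K).mpr ‹IsGalois ℚ K›
  have hclosed : IsClosed (K.fixingSubgroup : Set GQ) := IntermediateField.fixingSubgroup_isClosed K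
  -- a lift of `τ`
  set σ0 : GQ := τ.liftNormal Qbar with hσ0
  have hσ0K : ∀ x : K, σ0 (x : Qbar) = τ x := fun x => AlgEquiv.liftNormal_commutes τ Qbar x
  -- the hypothesis of the abstract lemma
  have h0 : ∀ a : ZB, (∀ h ∈ K.fixingSubgroup, h • a = a) → σ0 • a - a ∈ primeOf A := by
    intro a ha
    rw [mem_primeOf]
    have haK : (a : Qbar) ∈ K := by
      rw [← InfiniteGalois.fixedField_fixingSubgroup K]
      rw [IntermediateField.mem_fixedField_iff]
      intro h hh
      exact congrArg Subtype.val (ha h hh)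
    have hint : IsIntegral ℤ (⟨(a : Qbar), haK⟩ : K) := by
      have := a.2
      rwa [← isIntegral_algebraMap_iff (FaithfulSMul.algebraMap_injective K Qbar)]
    have := hτ ⟨(a : Qbar), haK⟩ hint
    rw [← hσ0K] at this
    exact this
  obtain ⟨h, hh, hb⟩ := exists_mul_smul_sub_mem K.fixingSubgroup hclosed (primeOf A) σ0 h0
  refine ⟨h * σ0, fun x => ?_, fun x hx => ?_⟩
  · rw [AlgEquiv.mul_apply, hσ0K]
    exact (IntermediateField.mem_fixingSubgroup_iff K h).mp hh _ (τ x).2
  · have := hb ⟨x, hx⟩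
    rw [mem_primeOf] at this
    exact this

/-- **(INF)** An element of the inertia group of `m_A ∩ 𝓞 K` in `Gal(K/ℚ)` lifts to an element of
the inertia subgroup of `A` in the absolute Galois group. -/
theorem exists_inertia_lift (K : IntermediateField ℚ Qbar) [FiniteDimensional ℚ K]
    [IsGalois ℚ K] (A : ValuationSubring Qbar) {q : ℕ} (hq : q.Prime) (hA : A.LiesOverPrime q)
    (τ : K ≃ₐ[ℚ] K)
    (hτ : ∀ x : K, IsIntegral ℤ x → ((τ x : Qbar) - x) ∈ A.nonunits) :
    ∃ σ ∈ A.inertiaSubgroupIn ℚ, ∀ x : K, σ x = τ x := by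
  obtain ⟨σ, hσK, hσ⟩ := exists_lift_congr_integral K A τ hτ
  exact ⟨σ, UnramVal.mem_inertiaSubgroupIn_qbar A hq hA σ hσ, hσK⟩

/-- The statement (RAM): a nontrivial finite Galois extension of `ℚ` has, at some prime `q`, a
nontrivial inertia element at every valuation subring over `q`. -/
def Ram : Prop :=
  ∀ (K : IntermediateField ℚ Qbar) [FiniteDimensional ℚ K] [IsGalois ℚ K], K ≠ ⊥ →
    ∃ q : ℕ, q.Prime ∧ ∀ A : ValuationSubring Qbar, A.LiesOverPrime q →
      ∃ τ : K ≃ₐ[ℚ] K, τ ≠ 1 ∧ ∀ x : K, IsIntegral ℤ x → ((τ x : Qbar) - x) ∈ A.nonunits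

/-- (RAM) implies (BRIDGE). -/
theorem bridge_of_ram (hR : Ram) : UnramMain.Bridge := by
  intro K _ _ hK
  obtain ⟨q, hq, h⟩ := hR K hK
  refine ⟨q, hq, fun A hA => ?_⟩
  obtain ⟨τ, hτ1, hτ⟩ := h A hA
  obtain ⟨σ, hσ, hσK⟩ := exists_inertia_lift K A hq hA τ hτ
  have : ∃ x : K, τ x ≠ x := by
    by_contra hcon
    push Not at hcon
    exact hτ1 (AlgEquiv.ext hcon)
  obtain ⟨x, hx⟩ := this
  refine ⟨σ, hσ, x, x.2, fun hfix => hx ?_⟩
  apply Subtype.ext
  rw [← hσK x]
  exact hfix

end Concrete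

end Fermat.Agent.S13.UnramLift11
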