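/-
Program A (S13), piece A3-lin (helper10): the abstract linear algebra used at the prime `p`
(and at the prime `2`).

`V` is a vector space of dimension `≤ 2` over `ZMod p`, `N` a proper nonzero subspace (a line),
`G` a set of maps `V → V` preserving `N`.  If `(g - 1) V ⊆ W` for a proper subspace `W`, then
either all `g` are trivial on `N` or all `g` are trivial on `V / N`.
-/
import Mathlib

set_option autoImplicit false

namespace Fermat.Agent.S13.AtPLin

variable {p : ℕ} [Fact p.Prime] {V : Type*} [AddCommGroup V] [Module (ZMod p) V]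

/-- A `ZMod p`-vector space with at most `p ^ 2` elements has dimension `≤ 2`. -/
theorem finrank_le_two_of_card_le [Finite V] (hcard : Nat.card V ≤ p ^ 2) :
    Module.finrank (ZMod p) V ≤ 2 := by
  classical
  have : Fintype V := Fintype.ofFinite V
  have hc : Fintype.card V = p ^ Module.finrank (ZMod p) V := by
    have := Module.card_eq_pow_finrank (K := ZMod p) (V := V)
    rwa [ZMod.card] at this
  by_contra h
  have h' : 3 ≤ Module.finrank (ZMod p) V := by omega
  have hp : 1 < p := (Fact.out : p.Prime).one_lt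
  have h3 : p ^ 3 ≤ p ^ Module.finrank (ZMod p) V := Nat.pow_le_pow_right (by omega) h'
  have h4 : p ^ 2 < p ^ 3 := Nat.pow_lt_pow_right hp (by norm_num)
  rw [Nat.card_eq_fintype_card, hc] at hcard
  omega

variable [Module.Finite (ZMod p) V]

/-- In a space of dimension `≤ 2`, a proper subspace `W` is contained in a given line `N` or
meets it trivially. -/
theorem le_or_disjoint (hdim : Module.finrank (ZMod p) V ≤ 2) (N W : Submodule (ZMod p) V)
    (hN0 : N ≠ ⊥) (hN1 : N ≠ ⊤) (hW : W ≠ ⊤) : W ≤ N ∨ Disjoint W N := by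
  have h1 : Module.finrank (ZMod p) N < Module.finrank (ZMod p) V := Submodule.finrank_lt hN1
  have h2 : 0 < Module.finrank (ZMod p) N := by
    rw [Module.finrank_pos_iff_exists_ne_zero]
    obtain ⟨x, hxN, hx0⟩ := (Submodule.ne_bot_iff N).mp hN0
    exact ⟨⟨x, hxN⟩, fun h => hx0 (congrArg Subtype.val h)⟩
  have hN : Module.finrank (ZMod p) N = 1 := by omega
  have hWlt : Module.finrank (ZMod p) W < Module.finrank (ZMod p) V := Submodule.finrank_lt hW
  have hW1 : Module.finrank (ZMod p) W ≤ 1 := by omega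
  by_cases hd : Disjoint W N
  · exact Or.inr hd
  · left
    -- `W ⊓ N ≠ ⊥`, so `W ⊓ N = N` (dimension), so `N ≤ W`, so `N = W` (dimension)
    have hne : W ⊓ N ≠ ⊥ := fun h => hd (disjoint_iff.mpr h)
    have hpos : 0 < Module.finrank (ZMod p) ↥(W ⊓ N) := by
      rw [Module.finrank_pos_iff_exists_ne_zero]
      obtain ⟨x, hx, hx0⟩ := (Submodule.ne_bot_iff _).mp hne
      exact ⟨⟨x, hx⟩, fun h => hx0 (congrArg Subtype.val h)⟩
    have hle : Module.finrank (ZMod p) ↥(W ⊓ N) ≤ Module.finrank (ZMod p) N :=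
      Submodule.finrank_mono inf_le_right
    have heq : W ⊓ N = N :=
      Submodule.eq_of_le_of_finrank_le inf_le_right (by omega)
    have hNW : N ≤ W := by rw [← heq]; exact inf_le_left
    have : N = W := Submodule.eq_of_le_of_finrank_le hNW (by omega)
    rw [this]

/-- One-step version: if `(g - 1) V ⊆ W` for all `g ∈ G`, `W ≠ ⊤`, then all `g ∈ G` act trivially
on `N`, or all act trivially on `V / N`. -/
theorem trivial_of_sub_mem (hdim : Module.finrank (ZMod p) V ≤ 2) (N W : Submodule (ZMod p) V)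
    (hN0 : N ≠ ⊥) (hN1 : N ≠ ⊤) (hW : W ≠ ⊤) (G : Set (V → V))
    (hGN : ∀ g ∈ G, ∀ x ∈ N, g x ∈ N) (hGW : ∀ g ∈ G, ∀ x, g x - x ∈ W) :
    (∀ g ∈ G, ∀ x ∈ N, g x = x) ∨ (∀ g ∈ G, ∀ x, g x - x ∈ N) := by
  rcases le_or_disjoint hdim N W hN0 hN1 hW with h | h
  · exact Or.inr fun g hg x => h (hGW g hg x)
  · left
    intro g hg x hx
    have h1 : g x - x ∈ W := hGW g hg x
    have h2 : g x - x ∈ N := N.sub_mem (hGN g hg x hx) hx
    have : g x - x ∈ W ⊓ N := ⟨h1, h2⟩
    rw [disjoint_iff.mp h, Submodule.mem_bot] at this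
    exact sub_eq_zero.mp this

/-- Two-step version (multiplicative reduction): `(g - 1) V ⊆ V₀` and `(g - 1) V₀ ⊆ V₁`. Then
`V₁ = ⊤`, or all `g ∈ G` act trivially on `N`, or all act trivially on `V / N`. -/
theorem trivial_of_two_step (hdim : Module.finrank (ZMod p) V ≤ 2) (N V₀ V₁ : Submodule (ZMod p) V)
    (hN0 : N ≠ ⊥) (hN1 : N ≠ ⊤) (G : Set (V → V))
    (hGN : ∀ g ∈ G, ∀ x ∈ N, g x ∈ N) (hG0 : ∀ g ∈ G, ∀ x, g x - x ∈ V₀)
    (hG1 : ∀ g ∈ G, ∀ x ∈ V₀, g x - x ∈ V₁) :
    V₁ = ⊤ ∨ (∀ g ∈ G, ∀ x ∈ N, g x = x) ∨ (∀ g ∈ G, ∀ x, g x - x ∈ N) := by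
  by_cases h0 : V₀ = ⊤
  · by_cases h1 : V₁ = ⊤
    · exact Or.inl h1
    · right
      refine trivial_of_sub_mem hdim N V₁ hN0 hN1 h1 G hGN fun g hg x => ?_
      exact hG1 g hg x (by rw [h0]; exact Submodule.mem_top)
  · exact Or.inr (trivial_of_sub_mem hdim N V₀ hN0 hN1 h0 G hGN hG0)

/-- Unipotent version (prime `2`): if `(g - 1) V ⊆ V₀` and `(g - 1) V₀ = 0`, then every `g ∈ G`
acts trivially on `N` and on `V / N`, PROVIDED `g` is additive. -/
theorem trivial_of_unipotent (hdim : Module.finrank (ZMod p) V ≤ 2) (N V₀ : Submodule (ZMod p) V)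
    (hN0 : N ≠ ⊥) (hN1 : N ≠ ⊤) (g : V →+ V) (hgN : ∀ x ∈ N, g x ∈ N)
    (hg0 : ∀ x, g x - x ∈ V₀) (hg1 : ∀ x ∈ V₀, g x = x) :
    (∀ x ∈ N, g x = x) ∧ (∀ x, g x - x ∈ N) := by
  by_cases h0 : V₀ = ⊤
  · have hall : ∀ x, g x = x := fun x => hg1 x (by rw [h0]; exact Submodule.mem_top)
    exact ⟨fun x _ => hall x, fun x => by rw [hall x, sub_self]; exact N.zero_mem⟩
  · rcases le_or_disjoint hdim N V₀ hN0 hN1 h0 with h | h
    · -- `V₀ ≤ N`: trivial on `V/N`; on `N`: `N` is a line, `(g-1)N ⊆ V₀` ...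
      refine ⟨?_, fun x => h (hg0 x)⟩
      intro x hx
      -- either `V₀ = N` (then `g` fixes `N` pointwise) or `V₀ = ⊥` (then `g = 1`)
      by_cases hV0 : V₀ = ⊥
      · have := hg0 x
        rw [hV0, Submodule.mem_bot] at this
        exact sub_eq_zero.mp this
      · -- `V₀ ≠ ⊥`, `V₀ ≤ N`, `N` a line: `V₀ = N`
        have h1 : Module.finrank (ZMod p) N < Module.finrank (ZMod p) V :=
          Submodule.finrank_lt hN1
        have hpos : 0 < Module.finrank (ZMod p) V₀ := by
          rw [Module.finrank_pos_iff_exists_ne_zero]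
          obtain ⟨y, hy, hy0⟩ := (Submodule.ne_bot_iff _).mp hV0
          exact ⟨⟨y, hy⟩, fun h => hy0 (congrArg Subtype.val h)⟩
        have : V₀ = N := Submodule.eq_of_le_of_finrank_le h (by omega)
        exact hg1 x (by rw [this]; exact hx)
    · -- `V₀ ∩ N = 0`: trivial on `N`; then for any `x`, `g x - x ∈ V₀` ...
      have hN : ∀ x ∈ N, g x = x := by
        intro x hx
        have h1 : g x - x ∈ V₀ := hg0 x
        have h2 : g x - x ∈ N := N.sub_mem (hgN x hx) hx
        have : g x - x ∈ V₀ ⊓ N := ⟨h1, h2⟩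
        rw [disjoint_iff.mp h, Submodule.mem_bot] at this
        exact sub_eq_zero.mp this
      refine ⟨hN, ?_⟩
      -- `V = V₀ ⊕ N` or `V₀ = 0`
      by_cases hV0 : V₀ = ⊥
      · intro x
        have := hg0 x
        rw [hV0, Submodule.mem_bot] at this
        rw [this]; exact N.zero_mem
      · -- `V₀ ⊔ N = ⊤` by dimension, so `g = 1` on `V`
        have h1 : Module.finrank (ZMod p) N < Module.finrank (ZMod p) V :=
          Submodule.finrank_lt hN1
        have h2 : 0 < Module.finrank (ZMod p) N := by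
          rw [Module.finrank_pos_iff_exists_ne_zero]
          obtain ⟨y, hyN, hy0⟩ := (Submodule.ne_bot_iff N).mp hN0
          exact ⟨⟨y, hyN⟩, fun h => hy0 (congrArg Subtype.val h)⟩
        have hpos : 0 < Module.finrank (ZMod p) V₀ := by
          rw [Module.finrank_pos_iff_exists_ne_zero]
          obtain ⟨y, hy, hy0⟩ := (Submodule.ne_bot_iff _).mp hV0
          exact ⟨⟨y, hy⟩, fun h => hy0 (congrArg Subtype.val h)⟩
        have hsum := Submodule.finrank_sup_add_finrank_inf_eq V₀ N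
        rw [disjoint_iff.mp h, finrank_bot, add_zero] at hsum
        have hle := Submodule.finrank_le (V₀ ⊔ N)
        have htop : V₀ ⊔ N = ⊤ := by
          apply Submodule.eq_top_of_finrank_eq
          omega
        intro x
        have hx : x ∈ V₀ ⊔ N := by rw [htop]; exact Submodule.mem_top
        obtain ⟨y, hy, z, hz, rfl⟩ := Submodule.mem_sup.mp hx
        rw [map_add, hg1 y hy, hN z hz, sub_self]
        exact N.zero_mem

end Fermat.Agent.S13.AtPLin
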