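import Mathlib
import Fermat.Agent.S05.Kernel

/-!
# S13 / A2 (N5): smooth closeness for a general Weierstrass curve (characteristic free)

`K` a field with a valuation `v`, `W` a Weierstrass curve over `K` with integral coefficients.
If `P = (x, y)` is an integral point whose reduction is nonsingular (one of the partial
derivatives `WX`, `WY` is a unit) and `P' = (x', y')` is congruent to `P` modulo the maximal
ideal, then `P' - P` lies in the kernel of reduction `E₁` (`Kernel.InE1`).
-/

set_option autoImplicit false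

open WeierstrassCurve WeierstrassCurve.Affine

namespace Fermat.Agent.S13.Closeness

open Fermat.Agent.S05

variable {K : Type*} [Field K] {Γ₀ : Type*} [LinearOrderedCommGroupWithZero Γ₀]
  {v : Valuation K Γ₀} {W : Affine K}

/-- `∂W/∂x = a₁ y - 3x² - 2a₂ x - a₄`. -/
def WX (W : Affine K) (x y : K) : K := W.a₁ * y - 3 * x ^ 2 - 2 * W.a₂ * x - W.a₄

/-- `∂W/∂y = 2y + a₁ x + a₃`. -/
def WY (W : Affine K) (x y : K) : K := 2 * y + W.a₁ * x + W.a₃

lemma WY_eq (x y : K) : WY W x y = y - W.negY x y := by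
  simp only [WY, negY]; ring

/-- a large slope gives a non-integral `x`-coordinate of the sum. -/
lemma one_lt_val_addX (hW : Kernel.IntegralCoeffs v W) {ℓ x x' : K} (hℓ : 1 < v ℓ)
    (hx : v x ≤ 1) (hx' : v x' ≤ 1) : 1 < v (W.addX x' x ℓ) := by
  obtain ⟨ha₁, ha₂, -, -, -⟩ := hW
  have h2 : v ℓ < v ℓ ^ 2 := by
    calc v ℓ = v ℓ ^ 1 := (pow_one _).symm
      _ < v ℓ ^ 2 := pow_lt_pow_right₀ hℓ (by norm_num)
  have hrest : v (W.a₁ * ℓ - W.a₂ - x' - x) ≤ v ℓ := by
    refine v.map_sub_le (v.map_sub_le (v.map_sub_le ?_ ?_) ?_) ?_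
    · exact Kernel.vle_int_mul ha₁ le_rfl
    · exact ha₂.trans hℓ.le
    · exact hx'.trans hℓ.le
    · exact hx.trans hℓ.le
  have he : W.addX x' x ℓ = ℓ ^ 2 + (W.a₁ * ℓ - W.a₂ - x' - x) := by
    simp only [addX]; ring
  rw [he, v.map_add_eq_of_lt_left (by rw [map_pow]; exact lt_of_le_of_lt hrest h2), map_pow]
  exact lt_trans hℓ h2

lemma val_inv_gt_one {d : K} (hd0 : d ≠ 0) (hd : v d < 1) {n : K} (hn : v n = 1) :
    1 < v (n / d) := by
  have hpos : 0 < v d := by rw [pos_iff_ne_zero, ne_eq, map_eq_zero]; exact hd0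
  rw [map_div₀, hn, one_div, one_lt_inv₀ hpos]
  exact hd

variable [DecidableEq K]

/-- **Smooth closeness**, coordinate form. -/
theorem one_lt_val_of_close (hW : Kernel.IntegralCoeffs v W) {x y x' y' : K}
    (h : W.Equation x y) (h' : W.Equation x' y') (hx : v x ≤ 1) (hy : v y ≤ 1)
    (hxx : v (x' - x) < 1) (hyy : v (y' - y) < 1)
    (hns : v (WX W x y) = 1 ∨ v (WY W x y) = 1)
    (hxy : ¬(x' = x ∧ y' = W.negY x (W.negY x y))) :
    1 < v (W.addX x' x (W.slope x' x y' (W.negY x y))) := by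
  have hW' := hW
  obtain ⟨ha₁, ha₂, ha₃, ha₄, ha₆⟩ := hW
  have hx' : v x' ≤ 1 := by
    have : x' = (x' - x) + x := by ring
    rw [this]; exact v.map_add_le hxx.le hx
  have hy' : v y' ≤ 1 := by
    have : y' = (y' - y) + y := by ring
    rw [this]; exact v.map_add_le hyy.le hy
  rw [negY_negY] at hxy
  have hWYle : v (WY W x y) ≤ 1 := by
    unfold WY
    exact v.map_add_le (v.map_add_le (Kernel.vle_int_mul Kernel.vle_ofNat_two hy)
      (Kernel.vle_int_mul ha₁ hx)) ha₃
  apply one_lt_val_addX hW' _ hx hx'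
  by_cases hxe : x' = x
  · -- same `x`: `P' = -P`
    have hyne : y' ≠ y := fun hy => hxy ⟨hxe, hy⟩
    have hyneg : y' = W.negY x y := by
      rcases Y_eq_of_X_eq h' h hxe with h1 | h1
      · exact absurd h1 hyne
      · exact h1
    subst hxe
    have hne : y' ≠ W.negY x' (W.negY x' y) := by rw [negY_negY]; exact hyne
    rw [slope_of_Y_ne rfl hne]
    have hden : y' - W.negY x' y' = y' - y := by rw [hyneg, negY_negY]
    rw [hden]
    have hWY : WY W x' y = -(y' - y) := by rw [hyneg]; simp only [WY, negY]; ring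
    have hWYlt : v (WY W x' y) < 1 := by rw [hWY, Valuation.map_neg]; exact hyy
    have hWXu : v (WX W x' y) = 1 := by
      rcases hns with h1 | h1
      · exact h1
      · exact absurd h1 (ne_of_lt hWYlt)
    have hnum : 3 * x' ^ 2 + 2 * W.a₂ * x' + W.a₄ - W.a₁ * y'
        = -(WX W x' y + W.a₁ * (y' - y)) := by
      simp only [WX]; ring
    rw [hnum]
    apply val_inv_gt_one (sub_ne_zero.mpr hyne) hyy
    rw [Valuation.map_neg, v.map_add_eq_of_lt_left, hWXu]
    rw [hWXu]
    exact lt_of_le_of_lt (Kernel.vle_int_mul ha₁ le_rfl) hyy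
  · rw [slope_of_X_ne hxe]
    have hxne : x' - x ≠ 0 := sub_ne_zero.mpr hxe
    have hnumeq : y' - W.negY x y = (y' - y) + WY W x y := by
      simp only [WY, negY]; ring
    by_cases hWYu : v (WY W x y) = 1
    · apply val_inv_gt_one hxne hxx
      rw [hnumeq, v.map_add_eq_of_lt_right (by rw [hWYu]; exact hyy), hWYu]
    · have hWYlt : v (WY W x y) < 1 := lt_of_le_of_ne hWYle hWYu
      have hWXu : v (WX W x y) = 1 := by
        rcases hns with h1 | h1
        · exact h1
        · exact absurd h1 hWYu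
      rw [equation_iff] at h h'
      -- second form of the slope
      set N' : K := x' ^ 2 + x' * x + x ^ 2 + W.a₂ * (x' + x) + W.a₄ - W.a₁ * y' with hN'
      have hid : (y' - y) * (y' - W.negY x y) = (x' - x) * N' := by
        simp only [hN', negY]
        linear_combination h' - h
      have hN'e : N' = -WX W x y + ((x' - x) * (x' + 2 * x) + W.a₂ * (x' - x)
          - W.a₁ * (y' - y)) := by
        simp only [hN', WX]; ring
      have hsmall : v ((x' - x) * (x' + 2 * x) + W.a₂ * (x' - x) - W.a₁ * (y' - y)) < 1 := by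
        have h2x : v (x' + 2 * x) ≤ 1 :=
          v.map_add_le hx' (Kernel.vle_int_mul Kernel.vle_ofNat_two hx)
        have t1 : v ((x' - x) * (x' + 2 * x)) ≤ v (x' - x) := Kernel.vle_mul_int le_rfl h2x
        have t2 : v (W.a₂ * (x' - x)) ≤ v (x' - x) := Kernel.vle_int_mul ha₂ le_rfl
        have t3 : v (W.a₁ * (y' - y)) ≤ v (y' - y) := Kernel.vle_int_mul ha₁ le_rfl
        have hm : max (v (x' - x)) (v (y' - y)) < 1 := max_lt hxx hyy
        refine lt_of_le_of_lt (v.map_sub_le (v.map_add_le (t1.trans (le_max_left _ _))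
          (t2.trans (le_max_left _ _))) (t3.trans (le_max_right _ _))) hm
      have hN'u : v N' = 1 := by
        rw [hN'e, v.map_add_eq_of_lt_left (by rw [Valuation.map_neg, hWXu]; exact hsmall),
          Valuation.map_neg, hWXu]
      have hN'ne : N' ≠ 0 := by
        intro h0; rw [h0, map_zero] at hN'u; exact zero_ne_one hN'u
      have hyne : y' - y ≠ 0 := by
        intro h0
        rw [h0, zero_mul] at hid
        exact (mul_ne_zero hxne hN'ne) hid.symm
      have hsl : (y' - W.negY x y) / (x' - x) = N' / (y' - y) := by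
        rw [div_eq_div_iff hxne hyne]
        linear_combination hid
      rw [hsl]
      exact val_inv_gt_one hyne hyy hN'u

/-- **Smooth closeness**: congruent integral points with nonsingular reduction differ by an
element of the kernel of reduction. -/
theorem sub_inE1_of_close (hW : Kernel.IntegralCoeffs v W) {x y x' y' : K}
    (h : W.Nonsingular x y) (h' : W.Nonsingular x' y') (hx : v x ≤ 1) (hy : v y ≤ 1)
    (hxx : v (x' - x) < 1) (hyy : v (y' - y) < 1)
    (hns : v (WX W x y) = 1 ∨ v (WY W x y) = 1) :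
    Kernel.InE1 v (Point.some x' y' h' - Point.some x y h) := by
  rw [sub_eq_add_neg, Point.neg_some]
  by_cases hxy : x' = x ∧ y' = W.negY x (W.negY x y)
  · rw [Point.add_of_Y_eq hxy.1 hxy.2]
    exact Kernel.inE1_zero v
  · rw [Point.add_some hxy, Kernel.inE1_some]
    exact one_lt_val_of_close hW h.1 h'.1 hx hy hxx hyy hns hxy

omit [DecidableEq K] in
/-- an integral `x` forces an integral `y`. -/
lemma vy_le_one (hW : Kernel.IntegralCoeffs v W) {x y : K} (h : W.Equation x y)
    (hx : v x ≤ 1) : v y ≤ 1 := by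
  by_contra hy
  exact absurd (Kernel.vx_of_vy hW h (not_le.mp hy)) (not_lt.mpr hx)

omit [DecidableEq K] in
/-- **Node shape** (`a₃ = a₆ = 0`, `v a₄ < 1`): every integral point with `v x = 1` has
nonsingular reduction. Uses `x³ = a₄ x - x WX - y WY`. -/
theorem unit_partial_of_node_shape (hW : Kernel.IntegralCoeffs v W) (h3 : W.a₃ = 0)
    (h6 : W.a₆ = 0) (h4 : v W.a₄ < 1) {x y : K} (h : W.Equation x y) (hx : v x = 1) :
    v (WX W x y) = 1 ∨ v (WY W x y) = 1 := by
  have hy : v y ≤ 1 := vy_le_one hW h hx.le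
  obtain ⟨ha₁, ha₂, ha₃, ha₄, ha₆⟩ := hW
  have hWXle : v (WX W x y) ≤ 1 := by
    unfold WX
    refine v.map_sub_le (v.map_sub_le (v.map_sub_le (Kernel.vle_int_mul ha₁ hy) ?_) ?_) ha₄
    · exact Kernel.vle_int_mul Kernel.vle_ofNat_three (by rw [map_pow, hx, one_pow])
    · exact Kernel.vle_int_mul (Kernel.vle_int_mul Kernel.vle_ofNat_two ha₂) hx.le
  have hWYle : v (WY W x y) ≤ 1 := by
    unfold WY
    exact v.map_add_le (v.map_add_le (Kernel.vle_int_mul Kernel.vle_ofNat_two hy)
      (Kernel.vle_int_mul ha₁ hx.le)) ha₃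
  by_contra hcon
  rw [not_or] at hcon
  have hWXlt : v (WX W x y) < 1 := lt_of_le_of_ne hWXle hcon.1
  have hWYlt : v (WY W x y) < 1 := lt_of_le_of_ne hWYle hcon.2
  rw [equation_iff, h3, h6] at h
  have hid : x ^ 3 = W.a₄ * x - x * WX W x y - y * WY W x y := by
    simp only [WX, WY, h3]
    linear_combination (2 : K) * h
  have h1 : v (x ^ 3) = 1 := by rw [map_pow, hx, one_pow]
  have h2 : v (W.a₄ * x - x * WX W x y - y * WY W x y) < 1 := by
    have t1 : v (W.a₄ * x) < 1 := lt_of_le_of_lt (Kernel.vle_mul_int le_rfl hx.le) h4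
    have t2 : v (x * WX W x y) < 1 := lt_of_le_of_lt (Kernel.vle_int_mul hx.le le_rfl) hWXlt
    have t3 : v (y * WY W x y) < 1 := lt_of_le_of_lt (Kernel.vle_int_mul hy le_rfl) hWYlt
    have hm : max (max (v (W.a₄ * x)) (v (x * WX W x y))) (v (y * WY W x y)) < 1 :=
      max_lt (max_lt t1 t2) t3
    exact lt_of_le_of_lt (v.map_sub_le (v.map_sub_le ((le_max_left _ _).trans (le_max_left _ _))
      ((le_max_right _ _).trans (le_max_left _ _))) (le_max_right _ _)) hm
  rw [← hid, h1] at h2
  exact lt_irrefl _ h2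

/-- **Inertia version**: an automorphism acting trivially on the residue field moves an integral
point with nonsingular reduction by an element of `E₁`. -/
theorem inertia_sub_inE1 (hW : Kernel.IntegralCoeffs v W) (σ : K →+* K)
    (hσr : ∀ a, v a ≤ 1 → v (σ a - a) < 1) {x y : K}
    (h : W.Nonsingular x y) (h' : W.Nonsingular (σ x) (σ y)) (hx : v x ≤ 1)
    (hns : v (WX W x y) = 1 ∨ v (WY W x y) = 1) :
    Kernel.InE1 v (Point.some (σ x) (σ y) h' - Point.some x y h) :=
  have hy : v y ≤ 1 := vy_le_one hW h.1 hx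
  sub_inE1_of_close hW h h' hx hy (hσr x hx) (hσr y hy) hns

/-- **Torsion points with nonsingular reduction are fixed by inertia** (`v n = 1`). -/
theorem fixed_of_nsmul_eq_zero (hW : Kernel.IntegralCoeffs v W) (σ : K →+* K)
    (hσr : ∀ a, v a ≤ 1 → v (σ a - a) < 1) {n : ℕ} (hn : v (n : K) = 1) {x y : K}
    (h : W.Nonsingular x y) (h' : W.Nonsingular (σ x) (σ y))
    (ht : n • Point.some x y h = 0) (ht' : n • Point.some (σ x) (σ y) h' = 0)
    (hns : v (WX W x y) = 1 ∨ v (WY W x y) = 1) : σ x = x ∧ σ y = y := by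
  have hx : v x ≤ 1 := Kernel.x_integral_of_nsmul_eq_zero hW h hn ht
  have hD := inertia_sub_inE1 hW σ hσr h h' hx hns
  have hnD : n • (Point.some (σ x) (σ y) h' - Point.some x y h) = 0 := by
    rw [smul_sub, ht, ht', sub_zero]
  have h0 := Kernel.eq_zero_of_nsmul_eq_zero hW hD hn hnD
  have heq : Point.some (σ x) (σ y) h' = Point.some x y h := sub_eq_zero.mp h0
  rw [Point.some.injEq] at heq
  exact heq

/-- (A2a-2) **Node shape**: a torsion point of order prime to the residue characteristic which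
does not reduce to the node (`1 ≤ v x`) is fixed by inertia. -/
theorem fixed_of_nsmul_eq_zero_of_node_shape (hW : Kernel.IntegralCoeffs v W) (h3 : W.a₃ = 0)
    (h6 : W.a₆ = 0) (h4 : v W.a₄ < 1) (σ : K →+* K)
    (hσr : ∀ a, v a ≤ 1 → v (σ a - a) < 1) {n : ℕ} (hn : v (n : K) = 1) {x y : K}
    (h : W.Nonsingular x y) (h' : W.Nonsingular (σ x) (σ y))
    (ht : n • Point.some x y h = 0) (ht' : n • Point.some (σ x) (σ y) h' = 0)
    (hx1 : 1 ≤ v x) : σ x = x ∧ σ y = y := by
  have hx : v x ≤ 1 := Kernel.x_integral_of_nsmul_eq_zero hW h hn ht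
  exact fixed_of_nsmul_eq_zero hW σ hσr hn h h' ht ht'
    (unit_partial_of_node_shape hW h3 h6 h4 h.1 (le_antisymm hx hx1))

end Fermat.Agent.S13.Closeness
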