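import Mathlib
import Fermat.Agent.S05.PairFormulas
import Fermat.Agent.S05.KernelAlt

/-!
# S13 / A2 (helper16): the general node shape, `x`-coordinates only, characteristic free

SETTING N.  `K` a field, `v : Valuation K Γ₀`, `W : Affine K` with `a₃ = a₆ = 0`, integral
`a₁, a₂`, `v a₄ < 1`, `a₄ ≠ 0` and `v b₂ = 1` (`NodeShape v W`).  The reduction of `W` has a node at
`(0,0)`.  No hypothesis on `v 2`: this covers the Frey curve at the prime `2`
(`a₁ = 1`, `b₂ = bᵖ - aᵖ` odd) as well as `Wab a b` at odd primes.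

* `TypeN v P` : `P = (x, y)` with `v x < 1` (reduces to the node); `InE0 v P` : the complement.
* `typeN_add_inE0`, `inE0_add`, `inE0_neg` : `E₀` is a subgroup (N1).
* `inE0_two_nsmul_of_le` : a point with `v x ≤ v a₄` has `2 P ∈ E₀` (N2).
* `typeN_nsmul_of_prime` : for an odd prime `p`, `p • P = 0`, `P` of type N: every multiple `k • P`
  with `¬ p ∣ k` is of type N with `v a₄ < v x`.
-/

set_option autoImplicit false

open WeierstrassCurve WeierstrassCurve.Affine

namespace Fermat.Agent.S13.Node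

open Fermat.Agent.S05.PairFormulas Fermat.Agent.S05.KernelAlt

variable {K : Type*} [Field K] {Γ₀ : Type*} [LinearOrderedCommGroupWithZero Γ₀]
  {v : Valuation K Γ₀}

/-- SETTING N: nodal shape with the node at the origin. -/
structure NodeShape (v : Valuation K Γ₀) (W : Affine K) : Prop where
  a₃ : W.a₃ = 0
  a₆ : W.a₆ = 0
  a₁ : v W.a₁ ≤ 1
  a₂ : v W.a₂ ≤ 1
  a₄ : v W.a₄ < 1
  a₄0 : W.a₄ ≠ 0
  b₂ : v W.b₂ = 1

variable {W : Affine K}

namespace NodeShape

variable (hW : NodeShape v W)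
include hW

lemma b₄_eq : W.b₄ = 2 * W.a₄ := by simp [WeierstrassCurve.b₄, hW.a₃]
lemma b₆_eq : W.b₆ = 0 := by simp [WeierstrassCurve.b₆, hW.a₃, hW.a₆]
lemma b₈_eq : W.b₈ = -W.a₄ ^ 2 := by simp [WeierstrassCurve.b₈, hW.a₃, hW.a₆]

lemma pairProd_eq (x₁ x₂ : K) : pairProd W x₁ x₂ = (x₁ * x₂ - W.a₄) ^ 2 := by
  simp only [pairProd, hW.b₄_eq, hW.b₆_eq, hW.b₈_eq]; ring

lemma pairSum_eq (x₁ x₂ : K) :
    pairSum W x₁ x₂ = 2 * x₁ * x₂ * (x₁ + x₂) + W.b₂ * x₁ * x₂ + 2 * W.a₄ * (x₁ + x₂) := by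
  simp only [pairSum, hW.b₄_eq, hW.b₆_eq]; ring

lemma psi2sq_eq (x : K) : psi2sq W x = x * (4 * x ^ 2 + W.b₂ * x + 4 * W.a₄) := by
  simp only [psi2sq, hW.b₄_eq, hW.b₆_eq]; ring

lemma phi2_eq (x : K) : phi2 W x = (x ^ 2 - W.a₄) ^ 2 := by
  simp only [phi2, hW.b₄_eq, hW.b₆_eq, hW.b₈_eq]; ring

lemma intB : IntB v W where
  b₂ := hW.b₂.le
  b₄ := by
    rw [hW.b₄_eq, map_mul]; exact mul_le_one' val_two_le_one hW.a₄.le
  b₆ := by rw [hW.b₆_eq, map_zero]; exact zero_le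
  b₈ := by
    rw [hW.b₈_eq, Valuation.map_neg, map_pow]; exact pow_le_one₀ zero_le hW.a₄.le

lemma val_a₄_ne_zero : v W.a₄ ≠ 0 := (Valuation.ne_zero_iff v).mpr hW.a₄0

end NodeShape

/-- `P` reduces to the node: `P = (x, y)` with `v x < 1`. -/
def TypeN (v : Valuation K Γ₀) (P : W.Point) : Prop :=
  ∃ (x y : K) (h : W.Nonsingular x y), P = Point.some x y h ∧ v x < 1

/-- `P` does not reduce to the node: `P = 0` or `1 ≤ v x`. -/
def InE0 (v : Valuation K Γ₀) (P : W.Point) : Prop :=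
  P = 0 ∨ ∃ (x y : K) (h : W.Nonsingular x y), P = Point.some x y h ∧ 1 ≤ v x

lemma typeN_some {x y : K} (h : W.Nonsingular x y) : TypeN v (Point.some x y h) ↔ v x < 1 := by
  constructor
  · rintro ⟨x', y', h', he, hv⟩
    simp only [Point.some.injEq] at he; rw [he.1]; exact hv
  · intro hv; exact ⟨x, y, h, rfl, hv⟩

lemma inE0_some {x y : K} (h : W.Nonsingular x y) : InE0 v (Point.some x y h) ↔ 1 ≤ v x := by
  constructor
  · rintro (h0 | ⟨x', y', h', he, hv⟩)
    · exact absurd h0 (Point.some_ne_zero h)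
    · simp only [Point.some.injEq] at he; rw [he.1]; exact hv
  · intro hv; exact Or.inr ⟨x, y, h, rfl, hv⟩

lemma inE0_zero : InE0 v (0 : W.Point) := Or.inl rfl

lemma not_typeN_zero : ¬ TypeN v (0 : W.Point) := by
  rintro ⟨x, y, h, he, -⟩; exact Point.some_ne_zero h he.symm

lemma typeN_or_inE0 (P : W.Point) : TypeN v P ∨ InE0 v P := by
  rcases P with _ | ⟨x, y, h⟩
  · exact Or.inr (Or.inl rfl)
  · rcases lt_or_ge (v x) 1 with hlt | hge
    · exact Or.inl ((typeN_some h).mpr hlt)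
    · exact Or.inr ((inE0_some h).mpr hge)

lemma not_typeN_of_inE0 {P : W.Point} (h0 : InE0 v P) : ¬ TypeN v P := by
  rintro ⟨x, y, h, rfl, hv⟩
  exact absurd ((inE0_some h).mp h0) (not_le.mpr hv)

lemma inE0_of_not_typeN {P : W.Point} (h : ¬ TypeN v P) : InE0 v P :=
  (typeN_or_inE0 P).resolve_left h

lemma typeN_neg {P : W.Point} (h : TypeN v P) : TypeN v (-P) := by
  obtain ⟨x, y, hxy, rfl, hv⟩ := h
  rw [Point.neg_some]; exact (typeN_some _).mpr hv

lemma inE0_neg {P : W.Point} (h : InE0 v P) : InE0 v (-P) := by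
  rcases h with rfl | ⟨x, y, hxy, rfl, hv⟩
  · rw [show (-(0 : W.Point)) = 0 from rfl]; exact inE0_zero
  · rw [Point.neg_some]; exact (inE0_some _).mpr hv

/-- if `v A * v B < 1` and `v (A + B) < 1` then `v A < 1`. -/
lemma val_lt_one_of_mul_of_add {A B : K} (hAB : v A * v B < 1) (hsum : v (A + B) < 1) :
    v A < 1 := by
  by_contra hcon
  push Not at hcon
  have hB1 : v B < 1 := by
    by_contra hB'
    push Not at hB'
    exact absurd hAB (not_lt.mpr (one_le_mul_of_one_le_of_one_le hcon hB'))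
  have : v (A + B) = v A := Valuation.map_add_eq_of_lt_left v (lt_of_lt_of_le hB1 hcon)
  rw [this] at hsum
  exact absurd hsum (not_lt.mpr hcon)

variable [DecidableEq K]

/-- (N1) coordinate form: `typeN ± E₀` is of type N. -/
lemma typeN_add_sub_some (hW : NodeShape v W) {x₁ y₁ x₂ y₂ : K} (h₁ : W.Nonsingular x₁ y₁)
    (h₂ : W.Nonsingular x₂ y₂) (hv₁ : v x₁ < 1) (hv₂ : 1 ≤ v x₂) :
    TypeN v (Point.some x₁ y₁ h₁ + Point.some x₂ y₂ h₂) ∧
    TypeN v (Point.some x₁ y₁ h₁ - Point.some x₂ y₂ h₂) := by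
  have hx : x₁ ≠ x₂ := by
    rintro rfl; exact absurd hv₂ (not_le.mpr hv₁)
  obtain ⟨xp, yp, xm, ym, hp, hm, hadd, hsub, hPi, hSig, -, -⟩ := add_sub_some h₁ h₂ hx
  rw [hW.pairProd_eq] at hPi
  rw [hW.pairSum_eq] at hSig
  set e := v x₂ with he
  have he0 : e ≠ 0 := fun h => by rw [h] at hv₂; exact absurd hv₂ (by simp)
  have hd : v (x₁ - x₂) = e := by
    rw [Valuation.map_sub_eq_of_lt_right v (lt_of_lt_of_le hv₁ hv₂)]
  have hde : v ((x₁ - x₂) ^ 2) = e ^ 2 := by rw [map_pow, hd]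
  have he2 : e ^ 2 ≠ 0 := pow_ne_zero _ he0
  have he1 : e ≤ e ^ 2 := by
    calc e = e * 1 := (mul_one e).symm
      _ ≤ e * e := mul_le_mul_right hv₂ e
      _ = e ^ 2 := (sq e).symm
  have h1e2 : (1 : Γ₀) ≤ e ^ 2 := le_trans hv₂ he1
  -- product
  have hprod : v xp * v xm < 1 := by
    have h1 : v (x₁ * x₂ - W.a₄) < e := by
      refine Valuation.map_sub_lt v ?_ (lt_of_lt_of_le hW.a₄ hv₂)
      rw [map_mul]
      calc v x₁ * e < 1 * e := mul_lt_mul_of_pos_right hv₁ (zero_lt_iff.mpr he0)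
        _ = e := one_mul e
    have := congrArg v hPi
    rw [map_mul, map_mul, hde, map_pow] at this
    have h2 : v (x₁ * x₂ - W.a₄) ^ 2 < e ^ 2 := pow_lt_pow_left₀ h1 zero_le (by norm_num)
    rw [← this] at h2
    calc v xp * v xm = v xp * v xm * 1 := (mul_one _).symm
      _ < 1 := by
        by_contra hcon
        push Not at hcon
        have : e ^ 2 ≤ v xp * v xm * e ^ 2 := by
          calc e ^ 2 = 1 * e ^ 2 := (one_mul _).symm
            _ ≤ v xp * v xm * e ^ 2 := mul_le_mul_left (by simpa using hcon) _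
        exact absurd h2 (not_lt.mpr this)
  -- sum
  have hsum : v (xp + xm) < 1 := by
    have hnum : v (2 * x₁ * x₂ * (x₁ + x₂) + W.b₂ * x₁ * x₂ + 2 * W.a₄ * (x₁ + x₂)) < e ^ 2 := by
      have hs : v (x₁ + x₂) ≤ e := Valuation.map_add_le v (le_trans hv₁.le hv₂) le_rfl
      have hx1e : v x₁ * e < e := by
        calc v x₁ * e < 1 * e := mul_lt_mul_of_pos_right hv₁ (zero_lt_iff.mpr he0)
          _ = e := one_mul e
      refine Valuation.map_add_lt v (Valuation.map_add_lt v ?_ ?_) ?_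
      · rw [map_mul, map_mul, map_mul]
        calc v 2 * v x₁ * e * v (x₁ + x₂) ≤ 1 * v x₁ * e * e := by
              gcongr
              exact val_two_le_one
          _ = v x₁ * e * e := by rw [one_mul]
          _ < e * e := mul_lt_mul_of_pos_right hx1e (zero_lt_iff.mpr he0)
          _ = e ^ 2 := (sq e).symm
      · rw [map_mul, map_mul, hW.b₂, one_mul]
        exact lt_of_lt_of_le hx1e he1
      · rw [map_mul, map_mul]
        calc v 2 * v W.a₄ * v (x₁ + x₂) ≤ 1 * v W.a₄ * e := by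
              gcongr
              exact val_two_le_one
          _ = v W.a₄ * e := by rw [one_mul]
          _ < 1 * e := mul_lt_mul_of_pos_right hW.a₄ (zero_lt_iff.mpr he0)
          _ = e := one_mul e
          _ ≤ e ^ 2 := he1
    have := congrArg v hSig
    rw [map_mul, hde] at this
    rw [← this] at hnum
    by_contra hcon
    push Not at hcon
    have : e ^ 2 ≤ v (xp + xm) * e ^ 2 := by
      calc e ^ 2 = 1 * e ^ 2 := (one_mul _).symm
        _ ≤ v (xp + xm) * e ^ 2 := mul_le_mul_left hcon _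
    exact absurd hnum (not_lt.mpr this)
  refine ⟨?_, ?_⟩
  · rw [hadd]; exact (typeN_some hp).mpr (val_lt_one_of_mul_of_add hprod hsum)
  · rw [hsub]
    exact (typeN_some hm).mpr
      (val_lt_one_of_mul_of_add (by rwa [mul_comm]) (by rwa [add_comm]))

/-- (N1) `typeN + E₀ = typeN`. -/
theorem typeN_add_inE0 (hW : NodeShape v W) {P Q : W.Point} (hP : TypeN v P) (hQ : InE0 v Q) :
    TypeN v (P + Q) := by
  obtain ⟨x₁, y₁, h₁, rfl, hv₁⟩ := hP
  rcases hQ with rfl | ⟨x₂, y₂, h₂, rfl, hv₂⟩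
  · rw [add_zero]; exact (typeN_some h₁).mpr hv₁
  · exact (typeN_add_sub_some hW h₁ h₂ hv₁ hv₂).1

/-- (N1) `E₀` is closed under addition. -/
theorem inE0_add (hW : NodeShape v W) {P Q : W.Point} (hP : InE0 v P) (hQ : InE0 v Q) :
    InE0 v (P + Q) := by
  apply inE0_of_not_typeN
  intro hN
  have := typeN_add_inE0 hW hN (inE0_neg hQ)
  rw [add_neg_cancel_right] at this
  exact not_typeN_of_inE0 hP this

theorem inE0_sub (hW : NodeShape v W) {P Q : W.Point} (hP : InE0 v P) (hQ : InE0 v Q) :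
    InE0 v (P - Q) := by
  rw [sub_eq_add_neg]; exact inE0_add hW hP (inE0_neg hQ)

theorem inE0_nsmul (hW : NodeShape v W) {P : W.Point} (hP : InE0 v P) (k : ℕ) :
    InE0 v (k • P) := by
  induction k with
  | zero => rw [zero_nsmul]; exact inE0_zero
  | succ k ih => rw [succ_nsmul]; exact inE0_add hW ih hP

/-- (N2) a point with `v x ≤ v a₄` has `2 • P ∈ E₀`. -/
theorem inE0_two_nsmul_of_le (hW : NodeShape v W) {x y : K} (h : W.Nonsingular x y)
    (hv : v x ≤ v W.a₄) : InE0 v (2 • Point.some x y h) := by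
  by_cases hy : y = W.negY x y
  · rw [two_nsmul, add_self_some_eq_zero h hy]; exact inE0_zero
  · obtain ⟨xd, yd, hd, hdbl, hrel⟩ := add_self_some h hy
    rw [two_nsmul, hdbl, inE0_some]
    have hpsi0 : psi2sq W x ≠ 0 := (psi2sq_ne_zero_iff h.1).mpr hy
    rw [hW.psi2sq_eq] at hpsi0
    rw [hW.psi2sq_eq, hW.phi2_eq] at hrel
    have ht0 : v W.a₄ ≠ 0 := hW.val_a₄_ne_zero
    have ht1 : v W.a₄ < 1 := hW.a₄
    have hx1 : v x < 1 := lt_of_le_of_lt hv ht1
    have hxx : v (x ^ 2) < v W.a₄ := by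
      rw [map_pow, sq]
      calc v x * v x ≤ v x * v W.a₄ := mul_le_mul_right hv _
        _ < 1 * v W.a₄ := mul_lt_mul_of_pos_right hx1 (zero_lt_iff.mpr ht0)
        _ = v W.a₄ := one_mul _
    have hphi : v ((x ^ 2 - W.a₄) ^ 2) = v W.a₄ ^ 2 := by
      rw [map_pow, Valuation.map_sub_eq_of_lt_right v hxx]
    have hin : v (4 * x ^ 2 + W.b₂ * x + 4 * W.a₄) ≤ v W.a₄ := by
      refine Valuation.map_add_le v (Valuation.map_add_le v ?_ ?_) ?_
      · rw [map_mul]
        calc v 4 * v (x ^ 2) ≤ 1 * v W.a₄ := mul_le_mul' val_four_le_one hxx.le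
          _ = v W.a₄ := one_mul _
      · rw [map_mul, hW.b₂, one_mul]; exact hv
      · rw [map_mul]
        calc v 4 * v W.a₄ ≤ 1 * v W.a₄ := mul_le_mul' val_four_le_one le_rfl
          _ = v W.a₄ := one_mul _
    have hpsi : v (x * (4 * x ^ 2 + W.b₂ * x + 4 * W.a₄)) ≤ v W.a₄ ^ 2 := by
      rw [map_mul, sq (v W.a₄)]; exact mul_le_mul' hv hin
    have hpsiv : v (x * (4 * x ^ 2 + W.b₂ * x + 4 * W.a₄)) ≠ 0 :=
      (Valuation.ne_zero_iff v).mpr hpsi0
    have hval := congrArg v hrel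
    rw [map_mul, hphi] at hval
    by_contra hcon
    push Not at hcon
    have : v xd * v (x * (4 * x ^ 2 + W.b₂ * x + 4 * W.a₄)) < v W.a₄ ^ 2 := by
      calc v xd * v (x * (4 * x ^ 2 + W.b₂ * x + 4 * W.a₄))
          < 1 * v (x * (4 * x ^ 2 + W.b₂ * x + 4 * W.a₄)) :=
            mul_lt_mul_of_pos_right hcon (zero_lt_iff.mpr hpsiv)
        _ = v (x * (4 * x ^ 2 + W.b₂ * x + 4 * W.a₄)) := one_mul _
        _ ≤ v W.a₄ ^ 2 := hpsi
    rw [hval] at this
    exact lt_irrefl _ this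

omit [DecidableEq K] in
/-- in an additive group, if `p • P = 0` and `p ∤ k` then `P` is a multiple of `k • P`. -/
lemma exists_nsmul_eq_of_prime {A : Type*} [AddCommGroup A] {p : ℕ} (hp : p.Prime) {P : A}
    (hP : p • P = 0) {k : ℕ} (hk : ¬ p ∣ k) : ∃ m : ℕ, m • (k • P) = P := by
  have hcop : Nat.Coprime k p := ((Nat.Prime.coprime_iff_not_dvd hp).mpr hk).symm
  obtain ⟨m, -, hm⟩ := Nat.exists_mul_mod_eq_one_of_coprime hcop hp.one_lt
  refine ⟨m, ?_⟩
  have h1 : k * m = p * (k * m / p) + 1 := by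
    have := Nat.div_add_mod (k * m) p
    rw [hm] at this; exact this.symm
  rw [← mul_nsmul, h1, add_nsmul, mul_nsmul, hP, nsmul_zero, zero_add, one_nsmul]

/-- (N2, corollary) for an odd prime `p` and a `p`-torsion point `P` of type N, every multiple
`k • P` with `p ∤ k` is of type N, with `v a₄ < v x < 1`. -/
theorem typeN_nsmul_of_prime (hW : NodeShape v W) {p : ℕ} (hp : p.Prime) (hp2 : p ≠ 2)
    {P : W.Point} (hP : TypeN v P) (hpP : p • P = 0) {k : ℕ} (hk : ¬ p ∣ k) :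
    ∃ (x y : K) (h : W.Nonsingular x y), k • P = Point.some x y h ∧ v W.a₄ < v x ∧ v x < 1 := by
  have hN : TypeN v (k • P) := by
    by_contra hcon
    obtain ⟨m, hm⟩ := exists_nsmul_eq_of_prime hp hpP hk
    have := inE0_nsmul hW (inE0_of_not_typeN hcon) m
    rw [hm] at this
    exact not_typeN_of_inE0 this hP
  obtain ⟨x, y, h, hkP, hx1⟩ := hN
  refine ⟨x, y, h, hkP, ?_, hx1⟩
  by_contra hcon
  push Not at hcon
  have h2 := inE0_two_nsmul_of_le hW h hcon
  rw [← hkP, ← mul_nsmul] at h2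
  have hk2 : ¬ p ∣ k * 2 := by
    intro hd
    rcases (Nat.Prime.dvd_mul hp).mp hd with h' | h'
    · exact hk h'
    · exact hp2 ((Nat.prime_dvd_prime_iff_eq hp Nat.prime_two).mp h')
  obtain ⟨m, hm⟩ := exists_nsmul_eq_of_prime hp hpP hk2
  have := inE0_nsmul hW h2 m
  rw [hm] at this
  exact not_typeN_of_inE0 this hP

end Fermat.Agent.S13.Node
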