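import Mathlib
import Fermat.Prelude.Def_FLTPrelim_FreyPackage
import Fermat.Prelude.Def_FLTPrelim_GaloisRep
import Fermat.Prelude.Def_FLTPrelim_Ramification
import Fermat.Agent.S05.Inertia
import Fermat.Agent.S13.NodeBasic
import Fermat.Agent.S05.Kernel

/-!
# S13 / A2 (helper16): the Frey curve at the prime `2`

The Frey curve `y² + x y = x³ + a₂ x² + a₄ x`, `a₂ = (bᵖ - 1 - aᵖ)/4`, `a₄ = -aᵖ bᵖ/16`, base changed
to a field `K` of characteristic zero with a valuation `v` that is integral on `ℤ` and has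
`v 2 < 1`, has the node shape of `NodeBasic.lean` DIRECTLY (no change of variables):
`a₁ = 1`, `a₃ = a₆ = 0`, `a₂` and `a₄` are integers, `a₄` is even and nonzero, and
`b₂ = bᵖ - aᵖ` is odd.

* integer facts: `four_dvd`, `thirtytwo_dvd`, `odd_b₂`;
* `a₂Int`, `a₄Int` and the coefficient formulas of the base change;
* `nodeShape` : `NodeShape A.valuation (P.freyCurve⁄Qbar)` for `A.LiesOverPrime 2`;
* `val_a₄` : `v a₄ = v 2 ^ (p * k - 4)`-type information is NOT here (see `RatTors2`).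
-/

set_option autoImplicit false

open WeierstrassCurve WeierstrassCurve.Affine

namespace Fermat.Agent.S13.FreyAtTwo

variable (P : FreyPackage)

/-! ### integer arithmetic -/

lemma two_dvd_b : (2 : ℤ) ∣ P.b := (ZMod.intCast_zmod_eq_zero_iff_dvd P.b 2).1 P.hb2

lemma four_dvd_a_sub : (4 : ℤ) ∣ P.a - 3 := by
  have : ((P.a - 3 : ℤ) : ZMod 4) = 0 := by
    push_cast; rw [P.ha4]; decide
  exact_mod_cast (ZMod.intCast_zmod_eq_zero_iff_dvd (P.a - 3) 4).1 this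

lemma not_two_dvd_a : ¬ (2 : ℤ) ∣ P.a := by
  intro h
  obtain ⟨k, hk⟩ := four_dvd_a_sub P
  obtain ⟨m, hm⟩ := h
  omega

lemma four_dvd_a_pow_add_one : (4 : ℤ) ∣ P.a ^ P.p + 1 := by
  have h1 : P.a ≡ -1 [ZMOD 4] := by
    obtain ⟨k, hk⟩ := four_dvd_a_sub P
    refine (Int.modEq_iff_dvd).mpr ⟨-k - 1, ?_⟩
    linarith
  have h2 : P.a ^ P.p ≡ (-1) ^ P.p [ZMOD 4] := h1.pow P.p
  rw [P.hp_odd.neg_one_pow] at h2
  have := (Int.modEq_iff_dvd.mp h2.symm)
  simpa [sub_neg_eq_add] using this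

lemma thirtytwo_dvd_b_pow : (32 : ℤ) ∣ P.b ^ P.p := by
  have h1 : (2 : ℤ) ^ P.p ∣ P.b ^ P.p := pow_dvd_pow_of_dvd (two_dvd_b P) _
  have h2 : (2 : ℤ) ^ 5 ∣ 2 ^ P.p := pow_dvd_pow 2 P.hp5
  exact (by norm_num : (32 : ℤ) = 2 ^ 5) ▸ h2.trans h1

lemma four_dvd : (4 : ℤ) ∣ P.b ^ P.p - 1 - P.a ^ P.p := by
  have h1 : (4 : ℤ) ∣ P.b ^ P.p := (by norm_num : (4 : ℤ) ∣ 32).trans (thirtytwo_dvd_b_pow P)
  have h2 := four_dvd_a_pow_add_one P
  have : P.b ^ P.p - 1 - P.a ^ P.p = P.b ^ P.p - (P.a ^ P.p + 1) := by ring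
  rw [this]; exact dvd_sub h1 h2

lemma thirtytwo_dvd : (32 : ℤ) ∣ -(P.a ^ P.p) * P.b ^ P.p :=
  Dvd.dvd.mul_left (thirtytwo_dvd_b_pow P) _

lemma not_two_dvd_b₂ : ¬ (2 : ℤ) ∣ P.b ^ P.p - P.a ^ P.p := by
  intro h
  have h1 : (2 : ℤ) ∣ P.b ^ P.p := (by norm_num : (2 : ℤ) ∣ 32).trans (thirtytwo_dvd_b_pow P)
  have h2 : (2 : ℤ) ∣ P.a ^ P.p := by
    have := dvd_sub h1 h
    simpa using this
  exact not_two_dvd_a P (Int.prime_two.dvd_of_dvd_pow h2)

/-- the integer `a₂ = (bᵖ - 1 - aᵖ)/4`. -/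
noncomputable def a₂Int : ℤ := (four_dvd P).choose

lemma a₂Int_spec : P.b ^ P.p - 1 - P.a ^ P.p = 4 * a₂Int P := (four_dvd P).choose_spec

/-- the integer `a₄/2 = -aᵖ bᵖ/32`. -/
noncomputable def a₄Half : ℤ := (thirtytwo_dvd P).choose

lemma a₄Half_spec : -(P.a ^ P.p) * P.b ^ P.p = 32 * a₄Half P := (thirtytwo_dvd P).choose_spec

lemma a₄Half_ne_zero : a₄Half P ≠ 0 := by
  intro h
  have := a₄Half_spec P
  rw [h, mul_zero] at this
  have h1 : P.a ^ P.p ≠ 0 := pow_ne_zero _ P.ha0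
  have h2 : P.b ^ P.p ≠ 0 := pow_ne_zero _ P.hb0
  exact mul_ne_zero (neg_ne_zero.mpr h1) h2 this

/-! ### the coefficients of the base change -/

section Coeff

variable {K : Type*} [Field K] [Algebra ℚ K]

lemma a₁_eq : (P.freyCurve⁄K).a₁ = 1 := by
  simp [WeierstrassCurve.baseChange, WeierstrassCurve.map, FreyPackage.freyCurve]

lemma a₃_eq : (P.freyCurve⁄K).a₃ = 0 := by
  simp [WeierstrassCurve.baseChange, WeierstrassCurve.map, FreyPackage.freyCurve]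

lemma a₆_eq : (P.freyCurve⁄K).a₆ = 0 := by
  simp [WeierstrassCurve.baseChange, WeierstrassCurve.map, FreyPackage.freyCurve]

lemma a₂_eq : (P.freyCurve⁄K).a₂ = ((a₂Int P : ℤ) : K) := by
  have h : ((P.b : ℚ) ^ P.p - 1 - (P.a : ℚ) ^ P.p) / 4 = ((a₂Int P : ℤ) : ℚ) := by
    have := congrArg (Int.cast : ℤ → ℚ) (a₂Int_spec P)
    push_cast at this
    rw [this]; ring
  simp only [WeierstrassCurve.baseChange, WeierstrassCurve.map, FreyPackage.freyCurve]
  rw [h]; simp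

lemma a₄_eq : (P.freyCurve⁄K).a₄ = ((2 * a₄Half P : ℤ) : K) := by
  have h : -((P.a : ℚ) ^ P.p) * (P.b : ℚ) ^ P.p / 16 = ((2 * a₄Half P : ℤ) : ℚ) := by
    have := congrArg (Int.cast : ℤ → ℚ) (a₄Half_spec P)
    push_cast at this
    rw [this]; push_cast; ring
  simp only [WeierstrassCurve.baseChange, WeierstrassCurve.map, FreyPackage.freyCurve]
  rw [h, map_intCast]

lemma b₂_eq : (P.freyCurve⁄K).b₂ = ((P.b ^ P.p - P.a ^ P.p : ℤ) : K) := by
  rw [WeierstrassCurve.b₂, a₁_eq, a₂_eq]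
  have := congrArg (Int.cast : ℤ → K) (a₂Int_spec P)
  push_cast at this ⊢
  linear_combination (-1 : K) * this

end Coeff

/-! ### the node shape at `2` -/

section Node

open Fermat.Agent.S05 Fermat.Agent.S13.Node

variable {K : Type*} [Field K] [Algebra ℚ K] {A : ValuationSubring K}

lemma val_a₄_lt_one (hA : A.LiesOverPrime 2) : A.valuation (P.freyCurve⁄K).a₄ < 1 := by
  rw [a₄_eq]
  exact (Inertia.valuation_intCast_lt_one_iff Nat.prime_two hA _).mpr ⟨a₄Half P, by norm_num⟩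

lemma a₄_ne_zero [CharZero K] : (P.freyCurve⁄K).a₄ ≠ 0 := by
  rw [a₄_eq]
  exact_mod_cast mul_ne_zero (two_ne_zero) (a₄Half_ne_zero P)

/-- the Frey curve has the node shape at `2`. -/
theorem nodeShape [CharZero K] (hA : A.LiesOverPrime 2) :
    NodeShape A.valuation (P.freyCurve⁄K) where
  a₃ := a₃_eq P
  a₆ := a₆_eq P
  a₁ := by rw [a₁_eq, map_one]
  a₂ := by rw [a₂_eq]; exact Inertia.valuation_intCast_le_one _
  a₄ := val_a₄_lt_one P hA
  a₄0 := a₄_ne_zero P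
  b₂ := by
    rw [b₂_eq]
    exact Inertia.valuation_intCast_eq_one Nat.prime_two hA (by exact_mod_cast not_two_dvd_b₂ P)

/-- all coefficients are integral. -/
theorem integralCoeffs [CharZero K] (hA : A.LiesOverPrime 2) :
    Kernel.IntegralCoeffs A.valuation (P.freyCurve⁄K) := by
  have h := nodeShape P hA
  refine ⟨h.a₁, h.a₂, ?_, h.a₄.le, ?_⟩
  · rw [h.a₃, map_zero]; exact zero_le
  · rw [h.a₆, map_zero]; exact zero_le

end Node

end Fermat.Agent.S13.FreyAtTwo
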