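import Mathlib
import Fermat.Agent.S13.NodeBasic

/-!
# S13 / A2 (helper16): the two branches at the node (N4), characteristic free

SETTING N (`NodeShape v W`) plus the two tangent slopes `α, β` at the node: the roots of
`T² + a₁ T - a₂` (`Roots W α β`: `α + β = -a₁`, `α β = -a₂`), so `(α - β)² = b₂` is a unit.
For a point `(x, y)` put `u = y - α x`, `w = y - β x`; then `u w = x (x² + a₄)` and
`u - w = (β - α) x`.  If `v a₄ < v x < 1` exactly one of `v u`, `v w` is `< v x`
(`branch_cases`): the point lies on the `α`-branch or on the `β`-branch.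

* `same_branch_sub` : two points with the same `v x` in that range on the same branch differ by an
  element of `E₀`.
* `inE0_sigma_sub` : for `σ` in the inertia group (abstractly: `v ∘ σ = v`, `v (σ z - z) < 1` for
  integral `z`), `σ P - P ∈ E₀` for every such point.
* `inE0_sigma_sub_of_torsion` : for an odd prime `p` and `p • P = 0`: `σ P - P ∈ E₀`.
-/

set_option autoImplicit false

open WeierstrassCurve WeierstrassCurve.Affine

namespace Fermat.Agent.S13.Node

open Fermat.Agent.S05.PairFormulas Fermat.Agent.S05.KernelAlt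

variable {K : Type*} [Field K] {Γ₀ : Type*} [LinearOrderedCommGroupWithZero Γ₀]
  {v : Valuation K Γ₀} {W : Affine K}

/-- `α, β` are the roots of `T² + a₁ T - a₂` (the tangent slopes at the node). -/
structure Roots (W : Affine K) (α β : K) : Prop where
  sum : α + β = -W.a₁
  prod : α * β = -W.a₂

namespace Roots

variable {α β : K}

lemma symm (hr : Roots W α β) : Roots W β α :=
  ⟨by rw [add_comm]; exact hr.sum, by rw [mul_comm]; exact hr.prod⟩

lemma sub_sq (hr : Roots W α β) : (α - β) ^ 2 = W.b₂ := by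
  have h1 := hr.sum
  have h2 := hr.prod
  simp only [WeierstrassCurve.b₂]
  have : W.a₁ = -(α + β) := by rw [h1]; ring
  rw [this]
  linear_combination (-4 : K) * h2

lemma root_eq (hr : Roots W α β) : α ^ 2 + W.a₁ * α - W.a₂ = 0 := by
  have h1 := hr.sum
  have h2 := hr.prod
  have : W.a₁ = -(α + β) := by rw [h1]; ring
  rw [this]
  linear_combination (-1 : K) * h2

lemma val_sub (hW : NodeShape v W) (hr : Roots W α β) : v (α - β) = 1 := by
  have h := congrArg v hr.sub_sq
  rw [map_pow, hW.b₂] at h
  rcases lt_trichotomy (v (α - β)) 1 with hlt | heq | hgt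
  · exact absurd h (ne_of_lt (pow_lt_one₀ zero_le hlt (by norm_num)))
  · exact heq
  · exact absurd h (ne_of_gt (one_lt_pow₀ hgt (by norm_num)))

lemma val_sub' (hW : NodeShape v W) (hr : Roots W α β) : v (β - α) = 1 := by
  rw [← Valuation.map_neg, neg_sub]; exact hr.val_sub hW

lemma val_le_one (hW : NodeShape v W) (hr : Roots W α β) : v α ≤ 1 := by
  by_contra hcon
  push Not at hcon
  have h0 : α ≠ 0 := by
    rintro rfl; rw [map_zero] at hcon; exact absurd hcon (by simp)
  have hα0 : v α ≠ 0 := (Valuation.ne_zero_iff v).mpr h0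
  have hsq : v α < v (α ^ 2) := by
    rw [map_pow, sq]
    calc v α = 1 * v α := (one_mul _).symm
      _ < v α * v α := mul_lt_mul_of_pos_right hcon (zero_lt_iff.mpr hα0)
  have h1 : v (W.a₁ * α) < v (α ^ 2) := by
    rw [map_mul]
    calc v W.a₁ * v α ≤ 1 * v α := mul_le_mul' hW.a₁ le_rfl
      _ = v α := one_mul _
      _ < v (α ^ 2) := hsq
  have h2 : v W.a₂ < v (α ^ 2) := lt_of_le_of_lt hW.a₂ (lt_trans hcon hsq)
  have h3 : v (α ^ 2 + W.a₁ * α) = v (α ^ 2) := Valuation.map_add_eq_of_lt_left v h1
  have h4 : v (α ^ 2 + W.a₁ * α - W.a₂) = v (α ^ 2 + W.a₁ * α) :=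
    Valuation.map_sub_eq_of_lt_left v (by rw [h3]; exact h2)
  rw [hr.root_eq, map_zero, h3, map_pow] at h4
  exact pow_ne_zero 2 hα0 h4.symm

/-- `u w = x (x² + a₄)`. -/
lemma mul_eq (hW : NodeShape v W) (hr : Roots W α β) {x y : K} (h : W.Equation x y) :
    (y - α * x) * (y - β * x) = x * (x ^ 2 + W.a₄) := by
  have e := (equation_iff x y).mp h
  rw [hW.a₃, hW.a₆] at e
  have h1 := hr.sum
  have h2 := hr.prod
  have : W.a₁ = -(α + β) := by rw [h1]; ring
  rw [this] at e
  linear_combination e + x ^ 2 * h2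

end Roots

/-- the key dichotomy: for `v a₄ < v x < 1` exactly one of `u = y - α x`, `w = y - β x` has
valuation `< v x`, the other one has valuation `v x`. -/
theorem branch_cases (hW : NodeShape v W) {α β : K} (hr : Roots W α β) {x y : K}
    (h : W.Equation x y) (hx1 : v x < 1) (hxt : v W.a₄ < v x) :
    (v (y - α * x) < v x ∧ v (y - β * x) = v x) ∨
    (v (y - β * x) < v x ∧ v (y - α * x) = v x) := by
  have hx0 : v x ≠ 0 := fun h0 => by rw [h0] at hxt; exact absurd hxt (by simp)
  have hxpos : 0 < v x := zero_lt_iff.mpr hx0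
  have hd : v ((β - α) * x) = v x := by rw [map_mul, hr.val_sub' hW, one_mul]
  by_cases hu : v (y - α * x) < v x
  · left
    refine ⟨hu, ?_⟩
    have : y - β * x = (y - α * x) - (β - α) * x := by ring
    rw [this, Valuation.map_sub_eq_of_lt_right v (by rw [hd]; exact hu), hd]
  · right
    push Not at hu
    have hw : v (y - β * x) < v x := by
      by_contra hcon
      push Not at hcon
      have hprod := congrArg v (hr.mul_eq hW h)
      rw [map_mul, map_mul] at hprod
      have hge : v x * v x ≤ v (y - α * x) * v (y - β * x) := mul_le_mul' hu hcon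
      have hlt : v (x ^ 2 + W.a₄) < v x := by
        refine Valuation.map_add_lt v ?_ hxt
        rw [map_pow, sq]
        calc v x * v x < 1 * v x := mul_lt_mul_of_pos_right hx1 hxpos
          _ = v x := one_mul _
      rw [hprod] at hge
      have : v x * v (x ^ 2 + W.a₄) < v x * v x := mul_lt_mul_of_pos_left hlt hxpos
      exact absurd hge (not_le.mpr this)
    refine ⟨hw, ?_⟩
    have : y - α * x = (y - β * x) + (β - α) * x := by ring
    rw [this, Valuation.map_add_eq_of_lt_right v (by rw [hd]; exact hw), hd]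

variable [DecidableEq K]

/-- (N4) two points with the same `v x ∈ (v a₄, 1)` on the same branch differ by an element of
`E₀`. -/
theorem same_branch_sub (hW : NodeShape v W) {α β : K} (hr : Roots W α β) {x y x' y' : K}
    (h : W.Nonsingular x y) (h' : W.Nonsingular x' y') (hx1 : v x < 1) (hxt : v W.a₄ < v x)
    (hxx : v x' = v x) (hu : v (y - α * x) < v x) (hu' : v (y' - α * x') < v x') :
    InE0 v (Point.some x' y' h' - Point.some x y h) := by
  have hx0 : v x ≠ 0 := fun h0 => by rw [h0] at hxt; exact absurd hxt (by simp)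
  have hxpos : 0 < v x := zero_lt_iff.mpr hx0
  have hd : v ((β - α) * x) = v x := by rw [map_mul, hr.val_sub' hW, one_mul]
  have hd' : v ((β - α) * x') = v x := by rw [map_mul, hr.val_sub' hW, one_mul, hxx]
  -- `v w = v w' = v x`
  have hw : v (y - β * x) = v x := by
    have : y - β * x = (y - α * x) - (β - α) * x := by ring
    rw [this, Valuation.map_sub_eq_of_lt_right v (by rw [hd]; exact hu), hd]
  have hw' : v (y' - β * x') = v x := by
    have : y' - β * x' = (y' - α * x') - (β - α) * x' := by ring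
    rw [this, Valuation.map_sub_eq_of_lt_right v (by rw [hd', ← hxx]; exact hu'), hd']
  have hnegY : W.negY x y = -y - W.a₁ * x := by simp [negY, hW.a₃]
  have ha1 : W.a₁ = -(α + β) := by rw [hr.sum]; ring
  by_cases hx : x' = x
  · -- same `x`: the points are equal
    subst hx
    rcases Y_eq_of_X_eq h'.1 h.1 rfl with hy | hy
    · subst hy
      rw [sub_self]; exact inE0_zero
    · exfalso
      have : y' - α * x' = -(y - β * x') := by rw [hy, hnegY, ha1]; ring
      rw [this, Valuation.map_neg, hw] at hu'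
      exact lt_irrefl _ hu'
  · obtain ⟨xp, yp, xm, ym, hp, hm, -, hsub, -, -, -, hxm⟩ := add_sub_some h' h hx
    rw [hsub, inE0_some]
    have hdx0 : x' - x ≠ 0 := sub_ne_zero.mpr hx
    have hdv0 : v (x' - x) ≠ 0 := (Valuation.ne_zero_iff v).mpr hdx0
    have hdle : v (x' - x) ≤ v x := Valuation.map_sub_le v hxx.le le_rfl
    -- the key identity
    have key : xm * (x' - x) ^ 2 =
        ((y' - α * x') + (y - β * x)) * ((y' - β * x') + (y - α * x))
          - (x' + x) * (x' - x) ^ 2 := by
      rw [hxm, hnegY, ha1]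
      field_simp
      linear_combination (-(x' - x) ^ 2) * hr.prod
    have h1 : v ((y' - α * x') + (y - β * x)) = v x := by
      rw [Valuation.map_add_eq_of_lt_right v (by rw [hw, ← hxx]; exact hu'), hw]
    have h2 : v ((y' - β * x') + (y - α * x)) = v x := by
      rw [Valuation.map_add_eq_of_lt_left v (by rw [hw']; exact hu), hw']
    have h3 : v ((x' + x) * (x' - x) ^ 2) < v x * v x := by
      rw [map_mul, map_pow, sq]
      have hs : v (x' + x) ≤ v x := Valuation.map_add_le v hxx.le le_rfl
      calc v (x' + x) * (v (x' - x) * v (x' - x)) ≤ v x * (v x * v x) :=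
            mul_le_mul' hs (mul_le_mul' hdle hdle)
        _ = v x * v x * v x := by rw [mul_assoc]
        _ < v x * v x * 1 := mul_lt_mul_of_pos_left hx1 (mul_pos hxpos hxpos)
        _ = v x * v x := mul_one _
    have h12 : v (((y' - α * x') + (y - β * x)) * ((y' - β * x') + (y - α * x))) = v x * v x := by
      rw [map_mul, h1, h2]
    have hval : v (xm * (x' - x) ^ 2) = v x * v x := by
      rw [key, Valuation.map_sub_eq_of_lt_left v (by rw [h12]; exact h3), h12]
    rw [map_mul, map_pow, sq] at hval
    by_contra hcon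
    push Not at hcon
    have : v xm * (v (x' - x) * v (x' - x)) < v x * v x := by
      calc v xm * (v (x' - x) * v (x' - x)) < 1 * (v (x' - x) * v (x' - x)) :=
            mul_lt_mul_of_pos_right hcon (mul_pos (zero_lt_iff.mpr hdv0) (zero_lt_iff.mpr hdv0))
        _ = v (x' - x) * v (x' - x) := one_mul _
        _ ≤ v x * v x := mul_le_mul' hdle hdle
    rw [hval] at this
    exact lt_irrefl _ this

/-- (N4, Galois form) `σ` in the inertia group moves a point of type N with `v a₄ < v x` inside its
`E₀`-coset. -/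
theorem inE0_sigma_sub (hW : NodeShape v W) {α β : K} (hr : Roots W α β)
    (σ : K →+* K) (hσv : ∀ z, v (σ z) = v z) (hσr : ∀ z, v z ≤ 1 → v (σ z - z) < 1)
    {x y : K} (h : W.Nonsingular x y) (h' : W.Nonsingular (σ x) (σ y)) (hx1 : v x < 1)
    (hxt : v W.a₄ < v x) :
    InE0 v (Point.some (σ x) (σ y) h' - Point.some x y h) := by
  have hx0 : v x ≠ 0 := fun h0 => by rw [h0] at hxt; exact absurd hxt (by simp)
  have hxpos : 0 < v x := zero_lt_iff.mpr hx0
  -- `σ` keeps the branch
  have keep : ∀ {γ δ : K}, Roots W γ δ → v (y - γ * x) < v x →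
      v (σ y - γ * σ x) < v (σ x) := by
    intro γ δ hr' hu
    have : σ y - γ * σ x = σ (y - γ * x) + (σ γ - γ) * σ x := by
      rw [map_sub, map_mul]; ring
    rw [this, hσv x]
    refine Valuation.map_add_lt v (by rw [hσv]; exact hu) ?_
    rw [map_mul, hσv]
    calc v (σ γ - γ) * v x < 1 * v x :=
          mul_lt_mul_of_pos_right (hσr γ (hr'.val_le_one hW)) hxpos
      _ = v x := one_mul _
  rcases branch_cases hW hr h.1 hx1 hxt with ⟨hu, -⟩ | ⟨hu, -⟩
  · exact same_branch_sub hW hr h h' hx1 hxt (hσv x) hu (keep hr hu)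
  · exact same_branch_sub hW hr.symm h h' hx1 hxt (hσv x) hu (keep hr.symm hu)

/-- (N4, torsion form) for an odd prime `p`, `σ` in the inertia group and a `p`-torsion point `P`:
`σ P - P ∈ E₀`. -/
theorem inE0_sigma_sub_of_torsion (hW : NodeShape v W) {α β : K} (hr : Roots W α β)
    (σ : K →+* K) (hσv : ∀ z, v (σ z) = v z) (hσr : ∀ z, v z ≤ 1 → v (σ z - z) < 1)
    {p : ℕ} (hp : p.Prime) (hp2 : p ≠ 2)
    {x y : K} (h : W.Nonsingular x y) (h' : W.Nonsingular (σ x) (σ y))
    (hpP : p • Point.some x y h = 0) :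
    InE0 v (Point.some (σ x) (σ y) h' - Point.some x y h) := by
  rcases lt_or_ge (v x) 1 with hx1 | hx1
  · have hN : TypeN v (Point.some x y h) := (typeN_some h).mpr hx1
    have hk : ¬ p ∣ 1 := fun hd => hp.one_lt.ne' (Nat.dvd_one.mp hd)
    obtain ⟨x₁, y₁, h₁, he, hxt, -⟩ := typeN_nsmul_of_prime hW hp hp2 hN hpP hk
    rw [one_nsmul] at he
    simp only [Point.some.injEq] at he
    obtain ⟨rfl, rfl⟩ := he
    exact inE0_sigma_sub hW hr σ hσv hσr h h' hx1 hxt
  · exact inE0_sub hW ((inE0_some h').mpr (by rw [hσv]; exact hx1)) ((inE0_some h).mpr hx1)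

end Fermat.Agent.S13.Node
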