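import Mathlib
import Fermat.Prelude.Def_FLTPrelim_FreyPackage
import Fermat.Prelude.Def_FLTPrelim_GaloisRep
import Fermat.Prelude.Def_FLTPrelim_Ramification
import Fermat.Agent.S05.Inertia
import Fermat.Agent.S13.NodeBranch
import Fermat.Agent.S13.Closeness
import Fermat.Agent.S13.AtPLin
import Fermat.Agent.S13.FreyAtTwo

/-!
# S13 / A2 (helper16): the inertia group at `2` acts unipotently on the `p`-torsion of the Frey curve

`local_at_2` : for a `G_ℚ`-stable line `N` in `V = E[p](ℚ̄)` (`E` the Frey curve) and `A` a valuation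
subring of `ℚ̄` over `2`, every `σ` in the inertia group of `A` is trivial on `N` and on `V / N`.

Proof.  `E` has the node shape at `2` (`FreyAtTwo.nodeShape`).  For `Q ∈ V`: `σ Q - Q ∈ E₀`
(`NodeBranch.inE0_sigma_sub_of_torsion`: `σ` preserves `v x` and the branch); for `Q ∈ V ∩ E₀`:
`σ Q = Q` (`Closeness.fixed_of_nsmul_eq_zero_of_node_shape`: smooth closeness and `E₁[p] = 0`).
Then `AtPLin.trivial_of_unipotent`.
-/

set_option autoImplicit false

open WeierstrassCurve WeierstrassCurve.Affine WeierstrassCurve.Affine.Point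

namespace Fermat.Agent.S13.Local2

open Fermat.Agent.S13.Node

/-- `ℚ̄`. -/
abbrev Qbar := AlgebraicClosure ℚ

variable (P : FreyPackage)

/-- the `p`-torsion of the Frey curve over `ℚ̄`. -/
abbrev VV : Type := Submodule.torsionBy ℤ (P.freyCurve⁄Qbar).Point P.p

/-- roots of `T² + a₁ T - a₂` exist in an algebraically closed field. -/
lemma exists_roots {K : Type*} [Field K] [IsAlgClosed K] (W : Affine K) :
    ∃ α β : K, Roots W α β := by
  obtain ⟨α, hα⟩ := IsAlgClosed.exists_root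
    (Polynomial.X ^ 2 + Polynomial.C W.a₁ * Polynomial.X - Polynomial.C W.a₂ : Polynomial K) (by
      have : (Polynomial.X ^ 2 + Polynomial.C W.a₁ * Polynomial.X - Polynomial.C W.a₂ :
          Polynomial K).degree = 2 := by
        compute_degree!
      rw [this]; norm_num)
  refine ⟨α, -W.a₁ - α, ⟨by ring, ?_⟩⟩
  simp only [Polynomial.IsRoot.def, Polynomial.eval_sub, Polynomial.eval_add, Polynomial.eval_pow,
    Polynomial.eval_X, Polynomial.eval_mul, Polynomial.eval_C] at hα
  linear_combination (-1 : K) * hα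

/-- the points of `V` in `E₀` (not reducing to the node), as a `ZMod p`-subspace. -/
noncomputable def V0 (A : ValuationSubring Qbar) (hA : A.LiesOverPrime 2) :
    Submodule (ZMod P.p) (VV P) :=
  haveI : Fact P.p.Prime := ⟨P.pp⟩
  AddSubgroup.toZModSubmodule P.p
    { carrier := {Q | InE0 A.valuation (Q : (P.freyCurve⁄Qbar).Point)}
      zero_mem' := inE0_zero
      add_mem' := fun h₁ h₂ => inE0_add (FreyAtTwo.nodeShape P hA) h₁ h₂
      neg_mem' := fun h => inE0_neg h }

lemma mem_V0 (A : ValuationSubring Qbar) (hA : A.LiesOverPrime 2) (Q : VV P) :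
    Q ∈ V0 P A hA ↔ InE0 A.valuation (Q : (P.freyCurve⁄Qbar).Point) := Iff.rfl

/-- **The inertia group at `2` acts unipotently on `E[p]`** (shape of the A5 interface). -/
theorem local_at_2 [Finite (VV P)] (hcard : Nat.card (VV P) ≤ P.p ^ 2)
    (N : Submodule (ZMod P.p) (VV P)) (hN : IsGaloisStable ℚ N) (hbot : N ≠ ⊥) (htop : N ≠ ⊤)
    (A : ValuationSubring Qbar) (hA : A.LiesOverPrime 2) :
    ∀ σ ∈ A.inertiaSubgroupIn ℚ, (∀ x ∈ N, σ • x = x) ∧ (∀ x : VV P, σ • x - x ∈ N) := by
  intro σ hσ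
  have : Fact P.p.Prime := ⟨P.pp⟩
  have : Module.Finite (ZMod P.p) (VV P) := Module.Finite.of_finite
  have hdim := AtPLin.finrank_le_two_of_card_le (p := P.p) (V := VV P) hcard
  have hW := FreyAtTwo.nodeShape (K := Qbar) P hA
  have hI := FreyAtTwo.integralCoeffs (K := Qbar) P hA
  obtain ⟨α, β, hr⟩ := exists_roots (P.freyCurve⁄Qbar)
  have hσv : ∀ z, A.valuation ((σ : Qbar →+* Qbar) z) = A.valuation z :=
    fun x => S05.Inertia.valuation_apply_rat hσ x
  have hσr : ∀ z, A.valuation z ≤ 1 → A.valuation ((σ : Qbar →+* Qbar) z - z) < 1 :=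
    fun _ hx => S05.Inertia.valuation_sub_lt_one_rat hσ hx
  have hp2 : P.p ≠ 2 := by have := P.hp5; omega
  have hpv : A.valuation (P.p : Qbar) = 1 :=
    S05.Inertia.valuation_prime_eq_one Nat.prime_two hA P.pp (Ne.symm hp2)
  let g : VV P →+ VV P := DistribSMul.toAddMonoidHom (VV P) σ
  have key := AtPLin.trivial_of_unipotent hdim N (V0 P A hA) hbot htop g
    (fun x hx => hN σ x hx) ?_ ?_
  · exact key
  · -- `(σ - 1) V ⊆ V₀`
    intro x
    obtain ⟨Q, hQ⟩ := x
    rw [mem_V0]
    show InE0 A.valuation (σ • Q - Q)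
    have hQ' : P.p • Q = 0 := by
      rw [Submodule.mem_torsionBy_iff, natCast_zsmul] at hQ; exact hQ
    rcases Q with _ | ⟨x₀, y₀, h₀⟩
    · show InE0 A.valuation ((0 : (P.freyCurve⁄Qbar).Point) - 0)
      rw [sub_zero]; exact inE0_zero
    · have h₀' : (P.freyCurve⁄Qbar).Nonsingular (σ x₀) (σ y₀) :=
        (Affine.baseChange_nonsingular (W := P.freyCurve) (f := σ.toAlgHom)
          σ.toAlgHom.injective x₀ y₀).mpr h₀
      have hs : σ • (Point.some x₀ y₀ h₀ : (P.freyCurve⁄Qbar).Point) =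
          Point.some (σ x₀) (σ y₀) h₀' := rfl
      rw [hs]
      exact inE0_sigma_sub_of_torsion hW hr (σ : Qbar →+* Qbar) hσv hσr P.pp hp2 h₀ h₀' hQ'
  · -- `σ = 1` on `V₀`
    intro x hx
    obtain ⟨Q, hQ⟩ := x
    rw [mem_V0] at hx
    apply Subtype.ext
    show σ • Q = Q
    have hQ' : P.p • Q = 0 := by
      rw [Submodule.mem_torsionBy_iff, natCast_zsmul] at hQ; exact hQ
    have hσQ : P.p • (σ • Q) = 0 := by
      have := Point.algEquiv_smul_zsmul σ (P.p : ℤ) Q
      rw [natCast_zsmul, natCast_zsmul] at this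
      rw [← this, hQ']
      rfl
    rcases Q with _ | ⟨x₀, y₀, h₀⟩
    · rfl
    · have h₀' : (P.freyCurve⁄Qbar).Nonsingular (σ x₀) (σ y₀) :=
        (Affine.baseChange_nonsingular (W := P.freyCurve) (f := σ.toAlgHom)
          σ.toAlgHom.injective x₀ y₀).mpr h₀
      have hs : σ • (Point.some x₀ y₀ h₀ : (P.freyCurve⁄Qbar).Point) =
          Point.some (σ x₀) (σ y₀) h₀' := rfl
      rw [hs] at hσQ ⊢
      have hx1 : 1 ≤ A.valuation x₀ := (inE0_some h₀).mp hx
      obtain ⟨e1, e2⟩ := Closeness.fixed_of_nsmul_eq_zero_of_node_shape hI hW.a₃ hW.a₆ hW.a₄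
        (σ : Qbar →+* Qbar) hσr hpv h₀ h₀' hQ' hσQ hx1
      have e1' : σ x₀ = x₀ := e1
      have e2' : σ y₀ = y₀ := e2
      simp only [e1', e2']

end Fermat.Agent.S13.Local2
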