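/-
S13, piece A3a-good (helper25): closeness in the good reduction case, for EVERY point.

Setting of `S05/Good.lean`: `K` a field, `v : Valuation K Γ₀`, `v 2 = 1`, curve
`W : Y² = X³ + aX² + bX` with `v a ≤ 1`, `v b = 1`, `v (a² - 4b) = 1`; `σ : K →+* K` with
(s1) `v (σ x) = v x`, (s2) `v x ≤ 1 → v (σ x - x) < 1`, `σ b = b`.
Then for every point `P = (x, y)` (no torsion hypothesis), `σ P - P` lies in the kernel of
reduction `E₁`.  This is the first half of the proof of `Good.good_fixed`, isolated.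
-/
import Fermat.Agent.S05.Good
import Fermat.Agent.S05.KernelContract

set_option autoImplicit false

open WeierstrassCurve WeierstrassCurve.Affine

namespace Fermat.Agent.S13.GoodClose

open Fermat.Agent.S05 Fermat.Agent.S05.Good Fermat.Agent.S05.ClaimC

variable {K : Type*} [Field K] [DecidableEq K] {Γ₀ : Type*} [LinearOrderedCommGroupWithZero Γ₀]
  {v : Valuation K Γ₀}

/-- **Good reduction closeness**, general `W` with `a₁ = a₃ = a₆ = 0`, kernel facts as a
hypothesis `hsub` (predicate `Good.InE1`). -/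
theorem good_close_aux (W : Affine K) (h1 : W.a₁ = 0) (h3 : W.a₃ = 0) (h6 : W.a₆ = 0)
    (hv2 : v 2 = 1) (ha : v W.a₂ ≤ 1) (hb : v W.a₄ = 1)
    (hdisc : v (W.a₂ ^ 2 - 4 * W.a₄) = 1)
    (σ : K →+* K) (hs1 : ∀ x, v (σ x) = v x) (hs2 : ∀ x, v x ≤ 1 → v (σ x - x) < 1)
    (hσb : σ W.a₄ = W.a₄)
    (hsub : ∀ P Q : W.Point, Good.InE1 v P → Good.InE1 v Q → Good.InE1 v (P - Q))
    {x y : K} (hP : W.Nonsingular x y) (hQ : W.Nonsingular (σ x) (σ y)) :
    Good.InE1 v (Point.some (σ x) (σ y) hQ - Point.some x y hP) := by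
  have hb0 : W.a₄ ≠ 0 := by
    intro h; rw [h, map_zero] at hb; exact zero_ne_one hb
  have e : y ^ 2 = x ^ 3 + W.a₂ * x ^ 2 + W.a₄ * x := by
    have := (equation_iff x y).mp hP.1
    rw [h1, h3, h6] at this; linear_combination this
  rcases lt_trichotomy (v x) 1 with hlt | heq | hgt
  · -- `v x < 1`: translate by `T₀`
    by_cases hx0 : x = 0
    · subst hx0
      have hy0 : y = 0 := by
        have : y ^ 2 = 0 := by rw [e]; ring
        exact pow_eq_zero_iff (by norm_num) |>.mp this
      subst hy0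
      left
      simp only [map_zero, sub_self]
    · have hT := nonsingular_T0 W h6 hb0
      have hσx0 : σ x ≠ 0 := by
        intro h
        have := hs1 x
        rw [h, map_zero] at this
        exact hx0 ((Valuation.zero_iff v).mp this.symm)
      obtain ⟨x', y', h', hadd, hx', -⟩ := add_T0 W h1 h3 h6 hP hx0 hT
      obtain ⟨x'', y'', h'', hadd', hx'', -⟩ := add_T0 W h1 h3 h6 hQ hσx0 hT
      have hE' : Good.InE1 v (Point.some x y hP + Point.some 0 0 hT) := by
        rw [hadd, Good.inE1_some, hx', map_div₀, hb]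
        exact (one_lt_div₀ (zero_lt_iff.mpr ((Valuation.ne_zero_iff v).mpr hx0))).mpr hlt
      have hE'' : Good.InE1 v (Point.some (σ x) (σ y) hQ + Point.some 0 0 hT) := by
        rw [hadd', Good.inE1_some, hx'', map_div₀, hb, hs1]
        exact (one_lt_div₀ (zero_lt_iff.mpr ((Valuation.ne_zero_iff v).mpr hx0))).mpr hlt
      have := hsub _ _ hE'' hE'
      rwa [add_sub_add_right_eq_sub] at this
  · -- `v x = 1`: Claim C
    have hs := val_s_le_one ha hb.le heq e
    have hns := smooth_of_disc hv2 ha hdisc e heq hs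
    have hσs : σ y / σ x = σ (y / x) := by rw [map_div₀]
    have hns' : v (σ y / σ x) = 1 ∨ v (σ x ^ 2 - W.a₄) = 1 := by
      rcases hns with h | h
      · left; rw [hσs, hs1]; exact h
      · right
        have : σ x ^ 2 - W.a₄ = σ (x ^ 2 - W.a₄) := by rw [map_sub, map_pow, hσb]
        rw [this, hs1]; exact h
    have hcl := ClaimC.claimC W h1 h3 h6 hv2 ha hb.le hQ hP (by rw [hs1]; exact heq) heq
      (hs2 x heq.le) (by rw [hσs]; exact hs2 _ hs) hns'
    rcases hcl with h0 | ⟨x', y', h', he, hv'⟩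
    · rw [h0]; exact Good.inE1_zero v
    · rw [he, Good.inE1_some]; exact hv'
  · -- `1 < v x`
    exact hsub _ _ ((Good.inE1_some v hQ).mpr (by rw [hs1]; exact hgt))
      ((Good.inE1_some v hP).mpr hgt)

variable (v) {a b : K}

/-- **Good reduction closeness** on the model curve `Wab a b`: for every point `P = (x, y)`,
`σ P - P ∈ E₁` (predicate `Fermat.Agent.S05.InE1`).  No hypotheses on the kernel of reduction:
they are discharged by `S05/KernelContract.lean`. -/
theorem good_close (h2 : v 2 = 1) (ha : v a ≤ 1) (hb : v b = 1)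
    (hd : v (a ^ 2 - 4 * b) = 1)
    (σ : K →+* K) (hσv : ∀ x, v (σ x) = v x) (hσr : ∀ x, v x ≤ 1 → v (σ x - x) < 1)
    (hσb : σ b = b)
    {x y : K} (h : (Wab a b).toAffine.Nonsingular x y)
    (h' : (Wab a b).toAffine.Nonsingular (σ x) (σ y)) :
    S05.InE1 v (Point.some (σ x) (σ y) h' - Point.some x y h) := by
  have key := good_close_aux (v := v) (Wab a b).toAffine rfl rfl rfl h2 ha hb hd σ hσv hσr hσb
    (fun P Q hP hQ => by
      rw [good_inE1_iff] at hP hQ ⊢
      rw [sub_eq_add_neg]
      exact KernelContract.inE1_add v ha hb.le _ _ hP (KernelContract.inE1_neg v _ hQ))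
    h h'
  exact (good_inE1_iff v _).mp key

/-- Point-level form: for an additive map `T` on points acting as `σ` on coordinates,
`T P - P ∈ E₁` for every point `P`. -/
theorem good_close_point (h2 : v 2 = 1) (ha : v a ≤ 1) (hb : v b = 1)
    (hd : v (a ^ 2 - 4 * b) = 1)
    (σ : K →+* K) (hσv : ∀ x, v (σ x) = v x) (hσr : ∀ x, v x ≤ 1 → v (σ x - x) < 1)
    (hσb : σ b = b)
    (T : (Wab a b).toAffine.Point →+ (Wab a b).toAffine.Point)
    (hT : ∀ x y (h : (Wab a b).toAffine.Nonsingular x y),
      ∃ h', T (.some x y h) = .some (σ x) (σ y) h')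
    (P : (Wab a b).toAffine.Point) : S05.InE1 v (T P - P) := by
  rcases P with _ | ⟨x, y, h⟩
  · have : T (Point.zero : (Wab a b).toAffine.Point) - Point.zero = 0 := by
      have h0 : (Point.zero : (Wab a b).toAffine.Point) = 0 := rfl
      rw [h0, map_zero, sub_zero]
    rw [this]; trivial
  · obtain ⟨h', e⟩ := hT x y h
    rw [e]
    exact good_close v h2 ha hb hd σ hσv hσr hσb h h'

end Fermat.Agent.S13.GoodClose
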