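/-
Program A (S13), piece A3-bridge (helper15): the kernel of reduction `E₁` on the Frey curve itself.

* the Weierstrass coefficients of the Frey curve are integers (`4 ∣ b^p - 1 - a^p`,
  `16 ∣ a^p b^p`), hence integral for every valuation subring of `ℚ̄`;
* `Kernel.InE1` on the Frey curve corresponds to `S05.InE1` on the model `Wab a b` under
  `FreyTransport.freyEquiv` (`X = 4 x - t`);
* the submodule `V1 ⊆ E[p]` of points in the kernel of reduction;
* coordinate closeness on the model `Wab a b` gives `σ • x - x ∈ V1` on `E[p]`.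
-/
import Mathlib
import Fermat.Prelude.Def_FLTPrelim_FreyPackage
import Fermat.Prelude.Def_FLTPrelim_GaloisRep
import Fermat.Prelude.Def_FLTPrelim_Ramification
import Fermat.Agent.S05.FreyTransport
import Fermat.Agent.S05.Inertia
import Fermat.Agent.S05.Kernel
import Fermat.Agent.S05.KernelContract
import Fermat.Agent.S05.FreyArith
import Fermat.Agent.S13.GoodClose
import Fermat.Agent.S13.MultClose

set_option autoImplicit false

open WeierstrassCurve WeierstrassCurve.Affine WeierstrassCurve.Affine.Point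

namespace Fermat.Agent.S13.FreyE1

open Fermat.Agent.S05 Fermat.Agent.S05.FreyTransport

local notation "Qbar" => AlgebraicClosure ℚ

/-! ### Integrality of the Frey curve -/

section Arith

variable (P : FreyPackage)

theorem two_dvd_b : (2 : ℤ) ∣ P.b := (ZMod.intCast_zmod_eq_zero_iff_dvd P.b 2).1 P.hb2

/-- `4 ∣ b ^ p - 1 - a ^ p`. -/
theorem four_dvd : (4 : ℤ) ∣ P.b ^ P.p - 1 - P.a ^ P.p := by
  have hb4 : (4 : ℤ) ∣ P.b ^ P.p := by
    obtain ⟨k, hk⟩ := two_dvd_b P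
    rw [hk, mul_pow]
    have h2 : (4 : ℤ) ∣ 2 ^ P.p := by
      have : (2 : ℤ) ^ 2 ∣ 2 ^ P.p := pow_dvd_pow 2 (by have := P.hp5; omega)
      simpa using this
    exact Dvd.dvd.mul_right h2 _
  have ha4 : (4 : ℤ) ∣ P.a ^ P.p + 1 := by
    have h := (ZMod.intCast_zmod_eq_zero_iff_dvd (P.a ^ P.p + 1) 4).mp
    apply h
    push_cast
    rw [P.ha4]
    obtain ⟨m, hm⟩ := P.hp_odd
    rw [hm, pow_succ, pow_mul]
    have h9 : (3 : ZMod 4) ^ 2 = 1 := by decide
    rw [h9, one_pow, one_mul]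
    decide
  have : P.b ^ P.p - 1 - P.a ^ P.p = P.b ^ P.p - (P.a ^ P.p + 1) := by ring
  rw [this]
  exact dvd_sub hb4 ha4

/-- `16 ∣ a ^ p * b ^ p`. -/
theorem sixteen_dvd : (16 : ℤ) ∣ P.a ^ P.p * P.b ^ P.p := by
  obtain ⟨k, hk⟩ := two_dvd_b P
  have h2 : (16 : ℤ) ∣ 2 ^ P.p := by
    have : (2 : ℤ) ^ 4 ∣ 2 ^ P.p := pow_dvd_pow 2 (by have := P.hp5; omega)
    simpa using this
  rw [hk, mul_pow]
  exact Dvd.dvd.mul_left (Dvd.dvd.mul_right h2 _) _

variable {K : Type*} [Field K] [Algebra ℚ K]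

/-- The coefficient `a₂` of the Frey curve is an integer. -/
theorem exists_a₂ : ∃ m : ℤ, 4 * m = P.b ^ P.p - 1 - P.a ^ P.p ∧ (P.freyCurve⁄K).a₂ = (m : K) := by
  obtain ⟨m, hm⟩ := four_dvd P
  refine ⟨m, hm.symm, ?_⟩
  have h1 : P.freyCurve.a₂ = ((m : ℤ) : ℚ) := by
    show ((P.b : ℚ) ^ P.p - 1 - (P.a : ℚ) ^ P.p) / 4 = (m : ℚ)
    have : ((P.b : ℚ) ^ P.p - 1 - (P.a : ℚ) ^ P.p) = ((P.b ^ P.p - 1 - P.a ^ P.p : ℤ) : ℚ) := by
      push_cast; ring
    rw [this, hm]; push_cast; ring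
  show algebraMap ℚ K P.freyCurve.a₂ = (m : K)
  rw [h1, map_intCast]

/-- The coefficient `a₄` of the Frey curve is an integer. -/
theorem exists_a₄ : ∃ m : ℤ, 16 * m = -(P.a ^ P.p * P.b ^ P.p) ∧ (P.freyCurve⁄K).a₄ = (m : K) := by
  obtain ⟨m, hm⟩ := sixteen_dvd P
  refine ⟨-m, by rw [hm]; ring, ?_⟩
  have h1 : P.freyCurve.a₄ = ((-m : ℤ) : ℚ) := by
    show -((P.a : ℚ) ^ P.p) * (P.b : ℚ) ^ P.p / 16 = ((-m : ℤ) : ℚ)
    have : ((P.a : ℚ) ^ P.p) * (P.b : ℚ) ^ P.p = ((P.a ^ P.p * P.b ^ P.p : ℤ) : ℚ) := by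
      push_cast; ring
    rw [neg_mul, this, hm]; push_cast; ring
  show algebraMap ℚ K P.freyCurve.a₄ = ((-m : ℤ) : K)
  rw [h1, map_intCast]

@[simp] theorem frey_a₁ : (P.freyCurve⁄K).a₁ = 1 := by
  show algebraMap ℚ K P.freyCurve.a₁ = 1
  rw [show P.freyCurve.a₁ = 1 from rfl, map_one]

@[simp] theorem frey_a₃ : (P.freyCurve⁄K).a₃ = 0 := by
  show algebraMap ℚ K P.freyCurve.a₃ = 0
  rw [show P.freyCurve.a₃ = 0 from rfl, _root_.map_zero]

@[simp] theorem frey_a₆ : (P.freyCurve⁄K).a₆ = 0 := by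
  show algebraMap ℚ K P.freyCurve.a₆ = 0
  rw [show P.freyCurve.a₆ = 0 from rfl, _root_.map_zero]

/-- The Frey curve has integral coefficients at every valuation subring. -/
theorem integralCoeffs_frey (A : ValuationSubring K) :
    Kernel.IntegralCoeffs A.valuation (P.freyCurve⁄K) := by
  obtain ⟨m₂, -, h₂⟩ := exists_a₂ P (K := K)
  obtain ⟨m₄, -, h₄⟩ := exists_a₄ P (K := K)
  refine ⟨?_, ?_, ?_, ?_, ?_⟩
  · rw [frey_a₁, map_one]
  · rw [h₂]; exact Inertia.valuation_intCast_le_one m₂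
  · rw [frey_a₃, _root_.map_zero]; exact zero_le
  · rw [h₄]; exact Inertia.valuation_intCast_le_one m₄
  · rw [frey_a₆, _root_.map_zero]; exact zero_le

end Arith

/-! ### The bridge between `Kernel.InE1` on the Frey curve and `S05.InE1` on the model -/

section Bridge

variable (P : FreyPackage) {K : Type*} [Field K] [Algebra ℚ K]
  {Γ₀ : Type*} [LinearOrderedCommGroupWithZero Γ₀] (v : Valuation K Γ₀)

omit [Algebra ℚ K] in
theorem val_four (h2 : v (2 : K) = 1) : v (4 : K) = 1 := by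
  have : (4 : K) = 2 * 2 := by norm_num
  rw [this, map_mul, h2, mul_one]

omit [Algebra ℚ K] in
/-- `X = 4 x - t` has a pole iff `x` has one. -/
theorem one_lt_val_iff (h2 : v (2 : K) = 1) {t : K} (hvt : v t ≤ 1) (x : K) :
    1 < v (4 * x - t) ↔ 1 < v x := by
  have h4 := val_four v h2
  constructor
  · intro h
    by_contra hx
    have hx' : v x ≤ 1 := not_lt.mp hx
    have h1 : v (4 * x) ≤ 1 := by rw [map_mul, h4, one_mul]; exact hx'
    exact absurd (lt_of_lt_of_le h (v.map_sub_le h1 hvt)) (lt_irrefl _)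
  · intro h
    have h1 : v (4 * x) = v x := by rw [map_mul, h4, one_mul]
    have hlt : v t < v (4 * x) := by rw [h1]; exact lt_of_le_of_lt hvt h
    rw [Valuation.map_sub_eq_of_lt_left v hlt, h1]
    exact h

variable [DecidableEq K]

/-- The kernels of reduction correspond under `freyEquiv`. -/
theorem inE1_freyEquiv_iff (h2 : v (2 : K) = 1) {t a b : K}
    (ht : t * (t - cA P) * (t + cB P) = 0) (ha : a = 3 * t + cB P - cA P)
    (hb : b = 3 * t ^ 2 + 2 * (cB P - cA P) * t - cA P * cB P) (hvt : v t ≤ 1)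
    (R : (P.freyCurve⁄K).Point) :
    Kernel.InE1 v R ↔ S05.InE1 v (freyEquiv P ht ha hb R) := by
  rcases R with _ | ⟨x, y, h⟩
  · have h0 : freyEquiv P ht ha hb (Point.zero : (P.freyCurve⁄K).Point) = 0 :=
      _root_.map_zero (freyEquiv P ht ha hb)
    rw [h0]
    exact ⟨fun _ => trivial, fun _ => Kernel.inE1_zero v⟩
  · obtain ⟨h', e⟩ := freyEquiv_some P ht ha hb h
    rw [e, Kernel.inE1_some, S05.InE1_some]
    exact (one_lt_val_iff v h2 hvt x).symm

/-- Coordinate closeness on the model curve `Wab a b` gives closeness on the Frey curve: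
`σ • Q - Q` lies in the kernel of reduction for every `n`-torsion point `Q`. -/
theorem smul_sub_inE1_of_coord (σ : K ≃ₐ[ℚ] K) {t a b : K}
    (ht : t * (t - cA P) * (t + cB P) = 0) (ha : a = 3 * t + cB P - cA P)
    (hb : b = 3 * t ^ 2 + 2 * (cB P - cA P) * t - cA P * cB P) (hσt : σ t = t)
    (h2 : v (2 : K) = 1) (hvt : v t ≤ 1) (n : ℕ)
    (H : ∀ (X Y : K) (h : (Wab a b).toAffine.Nonsingular X Y)
      (h' : (Wab a b).toAffine.Nonsingular (σ X) (σ Y)),
      n • (Point.some X Y h) = 0 →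
        S05.InE1 v (Point.some (σ X) (σ Y) h' - Point.some X Y h))
    (Q : (P.freyCurve⁄K).Point) (hQ : n • Q = 0) : Kernel.InE1 v (σ • Q - Q) := by
  rcases Q with _ | ⟨x₀, y₀, h₀⟩
  · have h0 : σ • (Point.zero : (P.freyCurve⁄K).Point) - Point.zero = 0 := by
      have : σ • (Point.zero : (P.freyCurve⁄K).Point) = 0 := rfl
      rw [this]; exact sub_self _
    rw [h0]; exact Kernel.inE1_zero v
  · have h₀' : (P.freyCurve⁄K).Nonsingular (σ x₀) (σ y₀) :=
      (Affine.baseChange_nonsingular (W := P.freyCurve) (f := σ.toAlgHom)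
        σ.toAlgHom.injective x₀ y₀).mpr h₀
    have hs : σ • (Point.some x₀ y₀ h₀ : (P.freyCurve⁄K).Point) =
        Point.some (σ x₀) (σ y₀) h₀' := rfl
    rw [hs, inE1_freyEquiv_iff P v h2 ht ha hb hvt, map_sub]
    obtain ⟨h1, e1⟩ := freyEquiv_some P ht ha hb h₀
    obtain ⟨h2', e2⟩ := freyEquiv_some P ht ha hb h₀'
    have hX : 4 * σ x₀ - t = σ (4 * x₀ - t) := by
      rw [map_sub, map_mul, hσt, map_ofNat]
    have hY : 8 * σ y₀ + 4 * σ x₀ = σ (8 * y₀ + 4 * x₀) := by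
      rw [map_add, map_mul, map_mul, map_ofNat, map_ofNat]
    have key : ∀ (X' Y' : K) (_ : 4 * σ x₀ - t = X') (_ : 8 * σ y₀ + 4 * σ x₀ = Y')
        (h' : (Wab a b).toAffine.Nonsingular (4 * σ x₀ - t) (8 * σ y₀ + 4 * σ x₀)),
        ∃ h'' : (Wab a b).toAffine.Nonsingular X' Y',
          (Point.some _ _ h' : (Wab a b).toAffine.Point) = Point.some X' Y' h'' := by
      rintro X' Y' rfl rfl h'
      exact ⟨h', rfl⟩
    obtain ⟨h3, e3⟩ := key _ _ hX hY h2'
    have t1 : n • (Point.some _ _ h1 : (Wab a b).toAffine.Point) = 0 := by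
      rw [← e1, ← map_nsmul, hQ, _root_.map_zero]
    rw [e1, e2, e3]
    exact H _ _ h1 h3 t1

end Bridge

/-! ### The submodule `V1` of `E[p]` -/

section V1

variable (P : FreyPackage)

/-- The `p`-torsion points of the Frey curve lying in the kernel of reduction at `A`. -/
noncomputable def V1 (A : ValuationSubring Qbar) :
    Submodule (ZMod P.p) (Submodule.torsionBy ℤ (P.freyCurve⁄Qbar).Point P.p) :=
  AddSubgroup.toZModSubmodule P.p
    ((Kernel.E1 A.valuation (P.freyCurve⁄Qbar) (integralCoeffs_frey P A)).comap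
      (Submodule.torsionBy ℤ (P.freyCurve⁄Qbar).Point P.p).subtype.toAddMonoidHom)

theorem mem_V1 {A : ValuationSubring Qbar}
    {x : Submodule.torsionBy ℤ (P.freyCurve⁄Qbar).Point P.p} :
    x ∈ V1 P A ↔ Kernel.InE1 A.valuation (x : (P.freyCurve⁄Qbar).Point) := Iff.rfl

theorem nsmul_eq_zero_of_mem (x : Submodule.torsionBy ℤ (P.freyCurve⁄Qbar).Point P.p) :
    P.p • (x : (P.freyCurve⁄Qbar).Point) = 0 := by
  have hx := x.2
  rw [Submodule.mem_torsionBy_iff] at hx
  rw [← natCast_zsmul]; exact hx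

/-- Coordinate closeness on a model curve gives `σ • x - x ∈ V1`. -/
theorem smul_sub_mem_V1_of_coord {A : ValuationSubring Qbar} (σ : Qbar ≃ₐ[ℚ] Qbar)
    {t a b : Qbar} (ht : t * (t - cA P) * (t + cB P) = 0) (ha : a = 3 * t + cB P - cA P)
    (hb : b = 3 * t ^ 2 + 2 * (cB P - cA P) * t - cA P * cB P) (hσt : σ t = t)
    (h2 : A.valuation (2 : Qbar) = 1) (hvt : A.valuation t ≤ 1)
    (H : ∀ (X Y : Qbar) (h : (Wab a b).toAffine.Nonsingular X Y)
      (h' : (Wab a b).toAffine.Nonsingular (σ X) (σ Y)),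
      P.p • (Point.some X Y h) = 0 →
        S05.InE1 A.valuation (Point.some (σ X) (σ Y) h' - Point.some X Y h))
    (x : Submodule.torsionBy ℤ (P.freyCurve⁄Qbar).Point P.p) : σ • x - x ∈ V1 P A := by
  rw [mem_V1]
  exact smul_sub_inE1_of_coord P A.valuation σ ht ha hb hσt h2 hvt P.p H x.1
    (nsmul_eq_zero_of_mem P x)

/-- A nonzero point of `V1` has a pole in its `x`-coordinate. -/
theorem one_lt_of_mem_V1 {A : ValuationSubring Qbar}
    {x : Submodule.torsionBy ℤ (P.freyCurve⁄Qbar).Point P.p} (hx : x ∈ V1 P A)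
    {x₀ y₀ : Qbar} {h : (P.freyCurve⁄Qbar).Nonsingular x₀ y₀}
    (he : (x : (P.freyCurve⁄Qbar).Point) = Point.some x₀ y₀ h) : 1 < A.valuation x₀ := by
  rw [mem_V1, he, Kernel.inE1_some] at hx
  exact hx

/-- If `V1 = ⊤` then every `p`-torsion point of the Frey curve has a pole in its
`x`-coordinate (the hypothesis `hV1` of `Supersingular.no_stable_line_nsmul`). -/
theorem one_lt_of_V1_eq_top {A : ValuationSubring Qbar} (htop : V1 P A = ⊤)
    (x₀ y₀ : Qbar) (h : (P.freyCurve⁄Qbar).Nonsingular x₀ y₀)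
    (hp : P.p • (Point.some x₀ y₀ h : (P.freyCurve⁄Qbar).Point) = 0) : 1 < A.valuation x₀ := by
  have hmem : (Point.some x₀ y₀ h : (P.freyCurve⁄Qbar).Point) ∈
      Submodule.torsionBy ℤ (P.freyCurve⁄Qbar).Point P.p := by
    rw [Submodule.mem_torsionBy_iff, natCast_zsmul]; exact hp
  have hx : (⟨_, hmem⟩ : Submodule.torsionBy ℤ (P.freyCurve⁄Qbar).Point P.p) ∈ V1 P A := by
    rw [htop]; exact Submodule.mem_top
  exact one_lt_of_mem_V1 P hx rfl

end V1

/-! ### Closeness at `p` -/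

section Close

variable (P : FreyPackage)

/-- The multiplicative case for a model `Wab a b` over `Qbar` (no hypothesis on `v p`). -/
theorem mult_case_close {A : ValuationSubring Qbar}
    {σ : Qbar ≃ₐ[ℚ] Qbar} (hσ : σ ∈ A.inertiaSubgroupIn ℚ)
    (h2 : A.valuation (2 : Qbar) = 1)
    {a b h₀ : Qbar} (ha : A.valuation a = 1) (hσb : σ b = b) (hσh : σ h₀ = h₀)
    (hbh : A.valuation b = A.valuation h₀ ^ P.p) (hlt : A.valuation h₀ < 1) (hb0 : b ≠ 0)
    (X Y : Qbar) (h : (Wab a b).toAffine.Nonsingular X Y)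
    (h' : (Wab a b).toAffine.Nonsingular (σ X) (σ Y))
    (hn : P.p • Point.some X Y h = 0) :
    S05.InE1 A.valuation (Point.some (σ X) (σ Y) h' - Point.some X Y h) := by
  have hb : A.valuation b < 1 := by
    rw [hbh]; exact pow_lt_one₀ zero_le hlt P.hp0
  obtain ⟨α, hα⟩ := IsAlgClosed.exists_pow_nat_eq a (n := 2) (by norm_num)
  exact MultClose.mult_close A.valuation h2 ha hb hb0 α hα (σ : Qbar →+* Qbar)
    (fun x => Inertia.valuation_apply_rat hσ x)
    (fun _ hx => Inertia.valuation_sub_lt_one_rat hσ hx) hσb h₀ hσh P.hp0 hbh h h' hn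

/-- **Closeness at `p`**: for `σ` in the inertia group of a valuation subring `A` of `ℚ̄` over
`p` and every `p`-torsion point `x` of the Frey curve, `σ • x - x` lies in the kernel of
reduction. -/
theorem close_at_p {A : ValuationSubring Qbar} (hA : A.LiesOverPrime P.p)
    {σ : Qbar ≃ₐ[ℚ] Qbar} (hσ : σ ∈ A.inertiaSubgroupIn ℚ)
    (x : Submodule.torsionBy ℤ (P.freyCurve⁄Qbar).Point P.p) : σ • x - x ∈ V1 P A := by
  have hq := P.pp
  have hq2 : P.p ≠ 2 := by have := P.hp5; omega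
  have hv : FreyArith.LiesOver A.valuation P.p :=
    ⟨Inertia.valuation_intCast_le_one, Inertia.valuation_intCast_lt_one_iff hq hA⟩
  have h2 : A.valuation (2 : Qbar) = 1 := Inertia.valuation_two_eq_one hq hA hq2
  have hcA : (cA P : Qbar) = (P.a : Qbar) ^ P.p := rfl
  have hcB : (cB P : Qbar) = (P.b : Qbar) ^ P.p := rfl
  rcases FreyArith.trichotomy P (q := P.p) with ⟨ha, hb, hc⟩ | hab | hc
  · -- good reduction
    refine smul_sub_mem_V1_of_coord P σ (t := 0)
      (a := (P.b : Qbar) ^ P.p - (P.a : Qbar) ^ P.p)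
      (b := -((P.a : Qbar) ^ P.p * (P.b : Qbar) ^ P.p)) (by ring) (by rw [hcA, hcB]; ring)
      (by rw [hcA, hcB]; ring) (_root_.map_zero σ) h2 (by simp) ?_ x
    intro X Y h h' _
    obtain ⟨g1, g2⟩ := FreyArith.good_val P hv hq ha hb hc
    have ha2 : A.valuation ((P.b : Qbar) ^ P.p - (P.a : Qbar) ^ P.p) ≤ 1 := by
      have := Inertia.valuation_intCast_le_one (A := A) (P.b ^ P.p - P.a ^ P.p)
      simpa using this
    exact GoodClose.good_close A.valuation h2 ha2 g1 g2 (σ : Qbar →+* Qbar)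
      (fun x => Inertia.valuation_apply_rat hσ x)
      (fun _ hx => Inertia.valuation_sub_lt_one_rat hσ hx) (by simp) h h'
  · -- `p ∣ ab`
    refine smul_sub_mem_V1_of_coord P σ (t := 0)
      (a := (P.b : Qbar) ^ P.p - (P.a : Qbar) ^ P.p)
      (b := -((P.a : Qbar) ^ P.p * (P.b : Qbar) ^ P.p)) (by ring) (by rw [hcA, hcB]; ring)
      (by rw [hcA, hcB]; ring) (_root_.map_zero σ) h2 (by simp) ?_ x
    intro X Y h h' hn
    obtain ⟨g1, g2, g3⟩ := FreyArith.mult_ab_val P hv hq hab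
    have hb0 : -((P.a : Qbar) ^ P.p * (P.b : Qbar) ^ P.p) ≠ 0 := by
      rw [← mul_pow]
      exact neg_ne_zero.mpr (pow_ne_zero _ (FreyArith.ab_ne_zero P))
    exact mult_case_close P hσ h2 g1 (by simp) (by simp) g2 g3 hb0 X Y h h' hn
  · -- `p ∣ c`
    have hcc : (P.c : Qbar) ^ P.p = (P.a : Qbar) ^ P.p + (P.b : Qbar) ^ P.p :=
      FreyArith.c_pow_eq_cast P
    have hvt : A.valuation ((P.a : Qbar) ^ P.p) ≤ 1 := by
      have := Inertia.valuation_intCast_le_one (A := A) (P.a ^ P.p)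
      simpa using this
    refine smul_sub_mem_V1_of_coord P σ (t := (P.a : Qbar) ^ P.p)
      (a := (P.a : Qbar) ^ P.p + (P.c : Qbar) ^ P.p)
      (b := (P.a : Qbar) ^ P.p * (P.c : Qbar) ^ P.p) (by rw [hcA]; ring)
      (by rw [hcA, hcB, hcc]; ring) (by rw [hcA, hcB, hcc]; ring) (by simp) h2 hvt ?_ x
    intro X Y h h' hn
    obtain ⟨g1, g2, g3⟩ := FreyArith.mult_c_val P hv hq hc
    have hb0 : (P.a : Qbar) ^ P.p * (P.c : Qbar) ^ P.p ≠ 0 := by
      rw [← mul_pow]
      exact pow_ne_zero _ (FreyArith.ac_ne_zero P)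
    exact mult_case_close P hσ h2 g1 (by simp) (by simp) g2 g3 hb0 X Y h h' hn

end Close

end Fermat.Agent.S13.FreyE1
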