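import Fermat.Agent.S05.NodeVal
import Fermat.Agent.S05.PairFormulas

/-!
# S13 (A2-N3): valuation of the `x`-coordinates of `p`-torsion points reducing to a node,
char-free version

Setting N: `W : y² + a₁xy = x³ + a₂x² + a₄x` (`a₃ = a₆ = 0`) over a valued field, `v b₂ = 1`,
`0 < v a₄ < 1`.  No hypothesis on `v 2`.  For a point `P ≠ 0` killed by an odd prime `p`, all of
whose nonzero multiples reduce to the node (`v x < 1`), we show
`v (x P) ^ p = v a₄ ^ (2 * k)` for some `1 ≤ k ≤ p - 1`.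

The abstract recurrence (`nv_inv_step`, `NVInv`, `nv_dep`) is reused from `S05/NodeVal.lean`.
-/

set_option autoImplicit false

open WeierstrassCurve WeierstrassCurve.Affine

namespace Fermat.Agent.S13.NodeVal2

open Fermat.Agent.S05 Fermat.Agent.S05.PairFormulas

section core

variable {G : Type*} [AddCommGroup G] [LinearOrder G] [IsOrderedAddMonoid G]

/-- The full profile of the depths: `c j = j i` or `c j + j i = 2 β`, and `p i = 2 β`. -/
theorem nv_profile {p : ℕ} (hp : 3 ≤ p) {i β : G} {c N D : ℕ → G} (h : NVData p i β c N D) :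
    (p : ℤ) • i = (2 : ℤ) • β ∧
      ∀ j, 1 ≤ j → j ≤ p - 1 → c j = (j : ℤ) • i ∨ c j + (j : ℤ) • i = (2 : ℤ) • β := by
  have hall : ∀ k, 1 ≤ k → k ≤ p - 1 → NVInv i β c k := by
    intro k hk1
    induction k, hk1 using Nat.le_induction with
    | base =>
      intro _
      left
      intro j hj1 hj2
      have : j = 1 := by omega
      subst this; rw [h.hc1]; simp
    | succ k hk1 ih =>
      intro hk
      exact nv_inv_step h k hk1 hk (ih (by omega))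
  refine ⟨nv_core hp h, ?_⟩
  intro j hj1 hj
  rcases hall (p - 1) (by omega) le_rfl with hph1 | ⟨f, hf1, hfk, hph1, hph2⟩
  · exact Or.inl (hph1 j hj1 hj)
  · rcases le_or_gt j f with hjf | hjf
    · exact Or.inl (hph1 j hj1 hjf)
    · exact Or.inr (hph2 j hjf hj)

end core

section val

variable {K : Type*} [Field K] {Γ₀ : Type*} [LinearOrderedCommGroupWithZero Γ₀]

lemma val_two_le_one (v : Valuation K Γ₀) : v (2 : K) ≤ 1 := by
  have : (2 : K) = 1 + 1 := by norm_num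
  rw [this]
  exact (Valuation.map_add v 1 1).trans (by simp)

lemma val_four_le_one (v : Valuation K Γ₀) : v (4 : K) ≤ 1 := by
  have : (4 : K) = 2 * 2 := by norm_num
  rw [this, map_mul]
  exact mul_le_one' (val_two_le_one v) (val_two_le_one v)

/-- The x-coordinates `x k = x (k • P')`, `1 ≤ k ≤ p - 1`, of the multiples of a point of order `p`
reducing to the node `(0,0)` of `y² + a₁xy = x³ + a₂x² + a₄x`; only `b₂ = a₁² + 4a₂` enters. -/
structure NVSeq2 (v : Valuation K Γ₀) (p : ℕ) (a4 b2 : K) (x : ℕ → K) : Prop where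
  hb2 : v b2 = 1
  ha4 : v a4 < 1
  ha40 : a4 ≠ 0
  hx1 : v (x 1) < 1
  hmin : ∀ k, 1 ≤ k → k ≤ p - 1 → v (x k) ≤ v (x 1)
  hsymm : x (p - 1) = x 1
  hdup : ∀ k, 1 ≤ k → k ≤ p - 1 → ∃ k', 1 ≤ k' ∧ k' ≤ p - 1 ∧
    x k' * (x k * (4 * x k ^ 2 + b2 * x k + 4 * a4)) = (x k ^ 2 - a4) ^ 2
  hdup1 : x 2 * (x 1 * (4 * x 1 ^ 2 + b2 * x 1 + 4 * a4)) = (x 1 ^ 2 - a4) ^ 2
  hrec : ∀ m, m + 2 ≤ p - 2 →
    x (m + 3) * x (m + 1) * (x (m + 2) - x 1) ^ 2 = (x (m + 2) * x 1 - a4) ^ 2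
  hne : ∀ m, m + 2 ≤ p - 2 → x (m + 2) ≠ x 1

variable {v : Valuation K Γ₀} {p : ℕ} {a4 b2 : K} {x : ℕ → K}

lemma NVSeq2.x_ne_zero (h : NVSeq2 v p a4 b2 x) {k : ℕ} (hk1 : 1 ≤ k) (hk : k ≤ p - 1) :
    x k ≠ 0 := by
  intro h0
  obtain ⟨k', _, _, hd⟩ := h.hdup k hk1 hk
  rw [h0] at hd
  have : a4 ^ 2 = 0 := by
    have e : (0 : K) ^ 2 - a4 = -a4 := by ring
    rw [e] at hd
    rw [← neg_sq, ← hd]; ring
  exact h.ha40 ((pow_eq_zero_iff (two_ne_zero)).1 this)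

lemma NVSeq2.val_lt_one (h : NVSeq2 v p a4 b2 x) {k : ℕ} (hk1 : 1 ≤ k) (hk : k ≤ p - 1) :
    v (x k) < 1 := lt_of_le_of_lt (h.hmin k hk1 hk) h.hx1

lemma NVSeq2.val_a4_lt (h : NVSeq2 v p a4 b2 x) {k : ℕ} (hk1 : 1 ≤ k) (hk : k ≤ p - 1) :
    v a4 < v (x k) := by
  by_contra hcon
  rw [not_lt] at hcon
  obtain ⟨k', hk'1, hk', hd⟩ := h.hdup k hk1 hk
  have hxk := h.x_ne_zero hk1 hk
  have hvk : v (x k) ≠ 0 := v.ne_zero_iff.2 hxk
  have hlt1 := h.val_lt_one hk1 hk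
  have ha4 : v a4 ≠ 0 := v.ne_zero_iff.2 h.ha40
  have h1 : v (x k ^ 2) < v a4 := by
    rw [map_pow, sq]
    calc v (x k) * v (x k) < 1 * v (x k) := by
          exact mul_lt_mul_of_pos_right hlt1 (zero_lt_iff.2 hvk)
      _ = v (x k) := one_mul _
      _ ≤ v a4 := hcon
  have h2 : v (x k ^ 2 - a4) = v a4 := by
    rw [Valuation.map_sub_swap]; exact Valuation.map_sub_eq_of_lt_left v h1
  have h3 : v (4 * x k ^ 2 + b2 * x k + 4 * a4) ≤ v a4 := by
    refine (Valuation.map_add v _ _).trans (max_le ?_ ?_)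
    · refine (Valuation.map_add v _ _).trans (max_le ?_ ?_)
      · rw [map_mul]
        calc v 4 * v (x k ^ 2) ≤ 1 * v (x k ^ 2) := by gcongr; exact val_four_le_one v
          _ = v (x k ^ 2) := one_mul _
          _ ≤ v a4 := h1.le
      · rw [map_mul, h.hb2, one_mul]; exact hcon
    · rw [map_mul]
      calc v 4 * v a4 ≤ 1 * v a4 := by gcongr; exact val_four_le_one v
        _ = v a4 := one_mul _
  have h5 := congrArg v hd
  rw [map_pow, h2, map_mul, map_mul] at h5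
  have h6 : v a4 ^ 2 ≤ v (x k') * (v a4 * v a4) := by
    rw [← h5]
    gcongr
  have h7 : v (x k') < 1 := h.val_lt_one hk'1 hk'
  have h8 : v (x k') * (v a4 * v a4) < 1 * (v a4 * v a4) :=
    mul_lt_mul_of_pos_right h7 (zero_lt_iff.2 (mul_ne_zero ha4 ha4))
  rw [one_mul] at h8
  rw [sq] at h6
  exact absurd h6 (not_le.2 h8)

lemma NVSeq2.val_quad (h : NVSeq2 v p a4 b2 x) {k : ℕ} (hk1 : 1 ≤ k) (hk : k ≤ p - 1) :
    v (4 * x k ^ 2 + b2 * x k + 4 * a4) = v (x k) := by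
  have hxk := h.x_ne_zero hk1 hk
  have hvk : v (x k) ≠ 0 := v.ne_zero_iff.2 hxk
  have hlt1 := h.val_lt_one hk1 hk
  have hbx : v (b2 * x k) = v (x k) := by rw [map_mul, h.hb2, one_mul]
  have h1 : v (4 * x k ^ 2) < v (b2 * x k) := by
    rw [hbx, map_mul, map_pow, sq]
    calc v 4 * (v (x k) * v (x k)) ≤ 1 * (v (x k) * v (x k)) := by
          gcongr; exact val_four_le_one v
      _ = v (x k) * v (x k) := one_mul _
      _ < 1 * v (x k) := mul_lt_mul_of_pos_right hlt1 (zero_lt_iff.2 hvk)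
      _ = v (x k) := one_mul _
  have h2 : v (4 * x k ^ 2 + b2 * x k) = v (b2 * x k) := by
    rw [add_comm]; exact Valuation.map_add_eq_of_lt_left v h1
  have h3 : v (4 * a4) < v (4 * x k ^ 2 + b2 * x k) := by
    rw [h2, hbx, map_mul]
    calc v 4 * v a4 ≤ 1 * v a4 := by gcongr; exact val_four_le_one v
      _ = v a4 := one_mul _
      _ < v (x k) := h.val_a4_lt hk1 hk
  rw [Valuation.map_add_eq_of_lt_left v h3, h2, hbx]

/-- The `NVData` attached to an `NVSeq2`. -/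
theorem NVSeq2.data (hp : 3 ≤ p) (h : NVSeq2 v p a4 b2 x) :
    NVData p (nv_dep v (x 1)) (nv_dep v a4) (fun k => nv_dep v (x k))
      (fun k => nv_dep v (x k * x 1 - a4)) (fun k => nv_dep v (x k - x 1)) := by
  have hx : ∀ k, 1 ≤ k → k ≤ p - 1 → x k ≠ 0 := fun k hk1 hk => h.x_ne_zero hk1 hk
  have hx1 : x 1 ≠ 0 := hx 1 le_rfl (by omega)
  have ha40 := h.ha40
  have hq : 4 * x 1 ^ 2 + b2 * x 1 + 4 * a4 ≠ 0 := by
    intro hq
    have := h.val_quad (k := 1) le_rfl (by omega)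
    rw [hq, map_zero] at this
    exact (v.ne_zero_iff.2 hx1) this.symm
  -- nonvanishing of `x k * x 1 - a4`
  have hN0 : ∀ k, 1 ≤ k → k ≤ p - 2 → x k * x 1 - a4 ≠ 0 := by
    intro k hk1 hk h0
    rcases Nat.eq_or_lt_of_le hk1 with rfl | hk2
    · have hd := h.hdup1
      have e : x 1 ^ 2 - a4 = x 1 * x 1 - a4 := by ring
      rw [e, h0] at hd
      have : x 2 * (x 1 * (4 * x 1 ^ 2 + b2 * x 1 + 4 * a4)) ≠ 0 :=
        mul_ne_zero (hx 2 (by omega) (by omega)) (mul_ne_zero hx1 hq)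
      exact this (by rw [hd]; ring)
    · obtain ⟨m, rfl⟩ : ∃ m, k = m + 2 := ⟨k - 2, by omega⟩
      have hr := h.hrec m hk
      rw [h0] at hr
      have : x (m + 3) * x (m + 1) * (x (m + 2) - x 1) ^ 2 ≠ 0 :=
        mul_ne_zero (mul_ne_zero (hx _ (by omega) (by omega)) (hx _ (by omega) (by omega)))
          (pow_ne_zero _ (sub_ne_zero.2 (h.hne m hk)))
      exact this (by rw [hr]; ring)
  refine ⟨?_, rfl, ?_, ?_, ?_, ?_, ?_, ?_, ?_⟩
  · exact (nv_dep_pos_iff v hx1).2 h.hx1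
  · intro k hk1 hk
    exact (nv_dep_le_iff v hx1 (hx k hk1 hk)).2 (h.hmin k hk1 hk)
  · intro k hk1 hk
    exact (nv_dep_lt_iff v (hx k hk1 hk) ha40).2 (h.val_a4_lt hk1 hk)
  · show nv_dep v (x (p - 1)) = _
    rw [h.hsymm]
  · -- duplication
    show nv_dep v (x 2) + (2 : ℤ) • nv_dep v (x 1) = (2 : ℤ) • nv_dep v (x 1 * x 1 - a4)
    have hd := h.hdup1
    have hx2 := hx 2 (by omega) (by omega)
    have e : x 1 ^ 2 - a4 = x 1 * x 1 - a4 := by ring
    have hN := hN0 1 le_rfl (by omega)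
    have h1 := congrArg (nv_dep v) hd
    rw [nv_dep_mul v hx2 (mul_ne_zero hx1 hq), nv_dep_mul v hx1 hq, e, nv_dep_pow v hN] at h1
    have h2 : nv_dep v (4 * x 1 ^ 2 + b2 * x 1 + 4 * a4) = nv_dep v (x 1) :=
      (nv_dep_eq_iff v hq hx1).2 (h.val_quad le_rfl (by omega))
    rw [h2] at h1
    push_cast at h1
    rw [← h1]; module
  · -- recurrence
    intro m hm
    show nv_dep v (x (m + 3)) + nv_dep v (x (m + 1)) + (2 : ℤ) • nv_dep v (x (m + 2) - x 1)
      = (2 : ℤ) • nv_dep v (x (m + 2) * x 1 - a4)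
    have hr := h.hrec m hm
    have h3 := hx (m + 3) (by omega) (by omega)
    have h1' := hx (m + 1) (by omega) (by omega)
    have hD := sub_ne_zero.2 (h.hne m hm)
    have hN := hN0 (m + 2) (by omega) hm
    have h1 := congrArg (nv_dep v) hr
    rw [nv_dep_mul v (mul_ne_zero h3 h1') (pow_ne_zero _ hD), nv_dep_mul v h3 h1',
      nv_dep_pow v hD, nv_dep_pow v hN] at h1
    push_cast at h1
    exact h1
  · -- N
    intro k hk1 hk
    have hxk := hx k hk1 (by omega)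
    have hprod : x k * x 1 ≠ 0 := mul_ne_zero hxk hx1
    have hN := hN0 k hk1 hk
    show (nv_dep v (x k) + nv_dep v (x 1) < nv_dep v a4 →
        nv_dep v (x k * x 1 - a4) = nv_dep v (x k) + nv_dep v (x 1)) ∧
      (nv_dep v (x k) + nv_dep v (x 1) = nv_dep v a4 → nv_dep v a4 ≤ nv_dep v (x k * x 1 - a4)) ∧
      (nv_dep v a4 < nv_dep v (x k) + nv_dep v (x 1) → nv_dep v (x k * x 1 - a4) = nv_dep v a4)
    rw [← nv_dep_mul v hxk hx1]
    refine ⟨fun hlt => (nv_dep_sub_of_lt v hprod ha40 hlt).2, fun heq => ?_,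
      fun hgt => (nv_dep_sub_of_gt v hprod ha40 hgt).2⟩
    have := nv_min_le_dep_sub v hprod ha40 hN
    rwa [heq, min_self] at this
  · -- D
    intro k hk2 hk
    obtain ⟨m, rfl⟩ : ∃ m, k = m + 2 := ⟨k - 2, by omega⟩
    have hxk := hx (m + 2) (by omega) (by omega)
    have hD := sub_ne_zero.2 (h.hne m hk)
    show (nv_dep v (x 1) < nv_dep v (x (m + 2)) → nv_dep v (x (m + 2) - x 1) = nv_dep v (x 1)) ∧
      (nv_dep v (x (m + 2)) = nv_dep v (x 1) → nv_dep v (x 1) ≤ nv_dep v (x (m + 2) - x 1))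
    refine ⟨fun hlt => (nv_dep_sub_of_gt v hxk hx1 hlt).2, fun heq => ?_⟩
    have := nv_min_le_dep_sub v hxk hx1 hD
    rwa [heq, min_self] at this

/-- Valuation profile: `v (x 1) ^ p = v a4 ^ 2`, and for every `j`,
`v (x j) ^ p = v a4 ^ (2 j)` or `v (x j) ^ p = v a4 ^ (2 (p - j))`. -/
theorem nv_val2 (hp : 3 ≤ p) (h : NVSeq2 v p a4 b2 x) :
    v (x 1) ^ p = v a4 ^ 2 ∧ ∀ j, 1 ≤ j → j ≤ p - 1 →
      v (x j) ^ p = v a4 ^ (2 * j) ∨ v (x j) ^ p = v a4 ^ (2 * (p - j)) := by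
  have hx : ∀ k, 1 ≤ k → k ≤ p - 1 → x k ≠ 0 := fun k hk1 hk => h.x_ne_zero hk1 hk
  have hx1 : x 1 ≠ 0 := hx 1 le_rfl (by omega)
  have ha40 := h.ha40
  obtain ⟨hcore, hprof⟩ := nv_profile hp (h.data hp)
  have key : ∀ (y : K) (hy : y ≠ 0) (m : ℕ),
      (p : ℤ) • nv_dep v y = ((2 * m : ℕ) : ℤ) • nv_dep v a4 → v y ^ p = v a4 ^ (2 * m) := by
    intro y hy m hm
    have e1 : (p : ℤ) • nv_dep v y = nv_dep v (y ^ p) := (nv_dep_pow v hy p).symm
    have e2 : ((2 * m : ℕ) : ℤ) • nv_dep v a4 = nv_dep v (a4 ^ (2 * m)) :=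
      (nv_dep_pow v ha40 (2 * m)).symm
    rw [e1, e2, nv_dep_eq_iff v (pow_ne_zero _ hy) (pow_ne_zero _ ha40), map_pow, map_pow] at hm
    exact hm
  constructor
  · have := key (x 1) hx1 1 (by rw [hcore]; norm_num)
    simpa using this
  · intro j hj1 hj
    rcases hprof j hj1 hj with hc | hc
    · left
      apply key (x j) (hx j hj1 hj) j
      show (p : ℤ) • nv_dep v (x j) = _
      have hc' : nv_dep v (x j) = (j : ℤ) • nv_dep v (x 1) := hc
      rw [hc', smul_comm, hcore]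
      push_cast
      module
    · right
      apply key (x j) (hx j hj1 hj) (p - j)
      have hc' : nv_dep v (x j) + (j : ℤ) • nv_dep v (x 1) = (2 : ℤ) • nv_dep v a4 := hc
      have hcj : nv_dep v (x j) = (2 : ℤ) • nv_dep v a4 - (j : ℤ) • nv_dep v (x 1) := by
        rw [← hc']; abel
      have hjp : j ≤ p := by omega
      rw [hcj, smul_sub, smul_comm (p : ℤ) (j : ℤ), hcore]
      push_cast [Nat.cast_sub hjp]
      module

end val


section point

variable {K : Type*} [Field K] {Γ₀ : Type*} [LinearOrderedCommGroupWithZero Γ₀]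
  {v : Valuation K Γ₀} {W : Affine K}

lemma some_of_ne_zero {P : W.Point} (hP : P ≠ 0) :
    ∃ h : W.Nonsingular (xc P) (yc P), P = Point.some (xc P) (yc P) h := by
  rcases P with _ | ⟨x, y, h⟩
  · exact absurd rfl hP
  · exact ⟨h, rfl⟩

lemma psi2sq_node (h3 : W.a₃ = 0) (h6 : W.a₆ = 0) (x : K) :
    psi2sq W x = x * (4 * x ^ 2 + W.b₂ * x + 4 * W.a₄) := by
  simp only [psi2sq, WeierstrassCurve.b₂, WeierstrassCurve.b₄, WeierstrassCurve.b₆, h3, h6]
  ring

lemma phi2_node (h3 : W.a₃ = 0) (h6 : W.a₆ = 0) (x : K) :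
    phi2 W x = (x ^ 2 - W.a₄) ^ 2 := by
  simp only [phi2, WeierstrassCurve.b₄, WeierstrassCurve.b₆, WeierstrassCurve.b₈, h3, h6]
  ring

lemma pairProd_node (h3 : W.a₃ = 0) (h6 : W.a₆ = 0) (x₁ x₂ : K) :
    pairProd W x₁ x₂ = (x₁ * x₂ - W.a₄) ^ 2 := by
  simp only [pairProd, WeierstrassCurve.b₄, WeierstrassCurve.b₆, WeierstrassCurve.b₈, h3, h6]
  ring

variable [DecidableEq K]

lemma nsmul_ne_zero_of_prime {p : ℕ} (hp : p.Prime) {P : W.Point} (hP0 : P ≠ 0) (hP : p • P = 0)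
    {k : ℕ} (hk1 : 1 ≤ k) (hk : k ≤ p - 1) : k • P ≠ 0 := by
  have := Fact.mk hp
  have hord := addOrderOf_eq_prime hP hP0
  intro h
  rw [← addOrderOf_dvd_iff_nsmul_eq_zero, hord] at h
  have := hp.one_lt
  exact Nat.not_dvd_of_pos_of_lt (by omega) (by omega) h

lemma nsmul_eq_zero_iff_of_prime {p : ℕ} (hp : p.Prime) {P : W.Point} (hP0 : P ≠ 0)
    (hP : p • P = 0) (k : ℕ) : k • P = 0 ↔ p ∣ k := by
  have := Fact.mk hp
  rw [← addOrderOf_dvd_iff_nsmul_eq_zero, addOrderOf_eq_prime hP hP0]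

/-- The sequence of `x`-coordinates of the multiples of a `p`-torsion point reducing to the node,
chosen with `v x` maximal among its multiples, satisfies the hypotheses of `nv_val2`. -/
theorem nvseq2_of_point (h3 : W.a₃ = 0) (h6 : W.a₆ = 0)
    (hb2 : v W.b₂ = 1) (hb : v W.a₄ < 1) (hb0 : W.a₄ ≠ 0)
    {p : ℕ} (hp : p.Prime) (hp2 : p ≠ 2) {P : W.Point} (hP0 : P ≠ 0) (hP : p • P = 0)
    (hmax : ∀ k, 1 ≤ k → k ≤ p - 1 → v (xc (k • P)) ≤ v (xc P)) (hx1 : v (xc P) < 1) :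
    NVSeq2 v p W.a₄ W.b₂ (fun k => xc (k • P)) := by
  have hp3 : 3 ≤ p := by
    have := hp.two_le
    omega
  have hne0 : ∀ k, 1 ≤ k → k ≤ p - 1 → k • P ≠ 0 := fun k hk1 hk =>
    nsmul_ne_zero_of_prime hp hP0 hP hk1 hk
  -- duplication at a multiple
  have hdupk : ∀ k, 1 ≤ k → k ≤ p - 1 →
      xc ((2 * k) • P) * (xc (k • P) * (4 * xc (k • P) ^ 2 + W.b₂ * xc (k • P) + 4 * W.a₄))
        = (xc (k • P) ^ 2 - W.a₄) ^ 2 := by
    intro k hk1 hk
    obtain ⟨h, e⟩ := some_of_ne_zero (hne0 k hk1 hk)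
    have h2k : (2 * k) • P = k • P + k • P := by rw [two_mul, add_nsmul]
    have h2k0 : (2 * k) • P ≠ 0 := by
      rw [Ne, nsmul_eq_zero_iff_of_prime hp hP0 hP]
      intro hd
      rcases (Nat.Prime.dvd_mul hp).1 hd with h' | h'
      · exact hp2 ((Nat.prime_dvd_prime_iff_eq hp Nat.prime_two).1 h')
      · exact Nat.not_dvd_of_pos_of_lt (by omega) (by omega) h'
    have hy : yc (k • P) ≠ W.negY (xc (k • P)) (yc (k • P)) := by
      intro hy
      apply h2k0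
      rw [h2k, e]
      exact add_self_some_eq_zero h hy
    obtain ⟨xd, yd, hd, hadd, hform⟩ := add_self_some h hy
    have : xc ((2 * k) • P) = xd := by
      rw [h2k]
      conv_lhs => rw [e]
      rw [hadd]; rfl
    rw [this, ← psi2sq_node h3 h6, hform, phi2_node h3 h6]
  have hxne : ∀ m, m + 2 ≤ p - 2 → xc ((m + 2) • P) ≠ xc P := by
    intro m hm
    obtain ⟨hR, eR⟩ := some_of_ne_zero (hne0 (m + 2) (by omega) (by omega))
    obtain ⟨hP', eP⟩ := some_of_ne_zero hP0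
    intro hx
    have := (Point.X_eq_iff (h₁ := hR) (h₂ := hP')).1 hx
    rw [← eR, ← eP] at this
    rcases this with h' | h'
    · apply hne0 (m + 1) (by omega) (by omega)
      have : (m + 2) • P = (m + 1) • P + P := succ_nsmul P (m + 1)
      rw [this] at h'
      exact add_eq_right.mp h'
    · apply hne0 (m + 3) (by omega) (by omega)
      have : (m + 3) • P = (m + 2) • P + P := succ_nsmul P (m + 2)
      rw [this, h', neg_add_cancel]
  refine ⟨hb2, hb, hb0, ?_, ?_, ?_, ?_, ?_, ?_, ?_⟩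
  · simpa using hx1
  · intro k hk1 hk
    simpa using hmax k hk1 hk
  · -- symmetry
    show xc ((p - 1) • P) = xc (1 • P)
    have : (p - 1) • P = -P := by
      apply eq_neg_of_add_eq_zero_left
      rw [← succ_nsmul, Nat.sub_add_cancel hp.one_le, hP]
    rw [this, xc_neg, one_nsmul]
  · -- duplication
    intro k hk1 hk
    refine ⟨(2 * k) % p, ?_, ?_, ?_⟩
    · rw [Nat.one_le_iff_ne_zero, Ne, ← Nat.dvd_iff_mod_eq_zero]
      intro hd
      rcases (Nat.Prime.dvd_mul hp).1 hd with h' | h'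
      · exact hp2 ((Nat.prime_dvd_prime_iff_eq hp Nat.prime_two).1 h')
      · exact Nat.not_dvd_of_pos_of_lt (by omega) (by omega) h'
    · have := Nat.mod_lt (2 * k) hp.pos
      omega
    · show xc (((2 * k) % p) • P) * _ = _
      rw [← nsmul_eq_mod_nsmul (2 * k) hP]
      exact hdupk k hk1 hk
  · show xc (2 • P) * (xc (1 • P) * (4 * xc (1 • P) ^ 2 + W.b₂ * xc (1 • P) + 4 * W.a₄))
      = (xc (1 • P) ^ 2 - W.a₄) ^ 2
    have := hdupk 1 le_rfl (by omega)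
    simpa using this
  · -- recurrence
    intro m hm
    show xc ((m + 3) • P) * xc ((m + 1) • P) * (xc ((m + 2) • P) - xc (1 • P)) ^ 2
      = (xc ((m + 2) • P) * xc (1 • P) - W.a₄) ^ 2
    rw [one_nsmul]
    obtain ⟨hR, eR⟩ := some_of_ne_zero (hne0 (m + 2) (by omega) (by omega))
    obtain ⟨hP', eP⟩ := some_of_ne_zero hP0
    obtain ⟨xp, yp, xm, ym, hp', hm', hadd, hsub, hprod, -, -, -⟩ :=
      add_sub_some hR hP' (hxne m hm)
    have e3 : xc ((m + 3) • P) = xp := by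
      have : (m + 3) • P = (m + 2) • P + P := succ_nsmul P (m + 2)
      have hsum : (m + 2) • P + P = Point.some xp yp hp' := by
        rw [← hadd]; congr 1
      rw [this, hsum]; rfl
    have e1 : xc ((m + 1) • P) = xm := by
      have : (m + 1) • P = (m + 2) • P - P := by
        rw [eq_sub_iff_add_eq]; exact (succ_nsmul P (m + 1)).symm
      have hdiff : (m + 2) • P - P = Point.some xm ym hm' := by
        rw [← hsub]; congr 1
      rw [this, hdiff]; rfl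
    rw [e3, e1, hprod, pairProd_node h3 h6]
  · -- distinct x-coordinates
    intro m hm
    show xc ((m + 2) • P) ≠ xc (1 • P)
    rw [one_nsmul]
    exact hxne m hm

/-- **(N3) Torsion depth at a node, char-free.**  `W : y² + a₁xy = x³ + a₂x² + a₄x`,
`v b₂ = 1`, `0 < v a₄ < 1`.  If `Q ≠ 0` is killed by the odd prime `p` and all its nonzero
multiples reduce to the node (`v x < 1`), then `v (x Q) ^ p = v a₄ ^ (2 k)` with `1 ≤ k ≤ p - 1`. -/
theorem node_torsion_val (h3 : W.a₃ = 0) (h6 : W.a₆ = 0)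
    (hb2 : v W.b₂ = 1) (hb : v W.a₄ < 1) (hb0 : W.a₄ ≠ 0)
    {p : ℕ} (hp : p.Prime) (hp2 : p ≠ 2) {Q : W.Point} (hQ0 : Q ≠ 0) (hQ : p • Q = 0)
    (hnode : ∀ k, 1 ≤ k → k ≤ p - 1 → v (xc (k • Q)) < 1) :
    ∃ k : ℕ, 1 ≤ k ∧ k ≤ p - 1 ∧ v (xc Q) ^ p = v W.a₄ ^ (2 * k) := by
  have hp3 : 3 ≤ p := by
    have := hp.two_le
    omega
  -- choose the multiple with maximal `v x`
  obtain ⟨k0, hk0mem, hk0max⟩ := Finset.exists_max_image (Finset.Icc 1 (p - 1))
    (fun k => v (xc (k • Q))) ⟨1, Finset.mem_Icc.2 ⟨le_rfl, by omega⟩⟩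
  have hk0 : 1 ≤ k0 ∧ k0 ≤ p - 1 := Finset.mem_Icc.1 hk0mem
  obtain ⟨P, hPdef⟩ : ∃ P, P = k0 • Q := ⟨_, rfl⟩
  have hP0 : P ≠ 0 := by rw [hPdef]; exact nsmul_ne_zero_of_prime hp hQ0 hQ hk0.1 hk0.2
  have hP : p • P = 0 := by rw [hPdef, ← mul_nsmul, mul_comm, mul_nsmul, hQ, nsmul_zero]
  have hmax : ∀ k, 1 ≤ k → k ≤ p - 1 → v (xc (k • P)) ≤ v (xc P) := by
    intro k hk1 hk
    have e : k • P = ((k0 * k) % p) • Q := by
      rw [hPdef, ← mul_nsmul]; exact nsmul_eq_mod_nsmul _ hQ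
    have hne : k • P ≠ 0 := nsmul_ne_zero_of_prime hp hP0 hP hk1 hk
    have hmem : (k0 * k) % p ∈ Finset.Icc 1 (p - 1) := by
      rw [Finset.mem_Icc]
      constructor
      · rw [Nat.one_le_iff_ne_zero]
        intro h0'
        rw [h0', zero_nsmul] at e
        exact hne e
      · have := Nat.mod_lt (k0 * k) hp.pos
        omega
    have h1' := hk0max _ hmem
    rw [e, hPdef]; exact h1'
  have hx1 : v (xc P) < 1 := by rw [hPdef]; exact hnode k0 hk0.1 hk0.2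
  have hseq := nvseq2_of_point h3 h6 hb2 hb hb0 hp hp2 hP0 hP hmax hx1
  obtain ⟨-, hprof⟩ := nv_val2 hp3 hseq
  -- `Q` is a multiple of `P`
  have hcop : Nat.Coprime k0 p := by
    apply Nat.Coprime.symm
    rw [Nat.Prime.coprime_iff_not_dvd hp]
    exact Nat.not_dvd_of_pos_of_lt (by omega) (by omega)
  obtain ⟨m, hmp, hm⟩ := Nat.exists_mul_mod_eq_one_of_coprime hcop hp.one_lt
  have hQP : Q = m • P := by
    rw [hPdef, ← mul_nsmul, nsmul_eq_mod_nsmul (k0 * m) hQ, hm, one_nsmul]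
  have hm1 : 1 ≤ m := by
    rw [Nat.one_le_iff_ne_zero]
    rintro rfl
    simp at hm
  have hmp' : m ≤ p - 1 := by omega
  rcases hprof m hm1 hmp' with h' | h'
  · exact ⟨m, hm1, hmp', by rw [hQP]; exact h'⟩
  · exact ⟨p - m, by omega, by omega, by rw [hQP]; exact h'⟩

/-- `node_torsion_val` in the shape of `comp_torsion` (integer exponent, affine point). -/
theorem node_torsion_val_some (h3 : W.a₃ = 0) (h6 : W.a₆ = 0)
    (hb2 : v W.b₂ = 1) (hb : v W.a₄ < 1) (hb0 : W.a₄ ≠ 0)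
    {p : ℕ} (hp : p.Prime) (hp2 : p ≠ 2) {x y : K} (h : W.Nonsingular x y)
    (hn : p • Point.some x y h = 0)
    (hnode : ∀ k, 1 ≤ k → k ≤ p - 1 → v (xc (k • Point.some x y h)) < 1) :
    ∃ k : ℤ, v x ^ p = v W.a₄ ^ (2 * k) := by
  obtain ⟨k, -, -, hk⟩ := node_torsion_val h3 h6 hb2 hb hb0 hp hp2 (Point.some_ne_zero h) hn hnode
  refine ⟨k, ?_⟩
  rw [show (2 * (k : ℤ)) = ((2 * k : ℕ) : ℤ) by push_cast; ring, zpow_natCast]
  exact hk

end point

end Fermat.Agent.S13.NodeVal2
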