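/-
Program A (S13), piece A2b (helper13): the Frey curve has no rational point of order `p`.

`K = ℚ` with the `2`-adic valuation `v2`.  The Frey curve
`y² + x y = x³ + ((bᵖ - 1 - aᵖ)/4) x² - (aᵖ bᵖ / 16) x` has node shape at `2`
(`a₃ = a₆ = 0`, `b₂ = bᵖ - aᵖ` odd, `v2 a₄ = v2 2 ^ (p m - 4) < 1`).  Let `Q = (x, y)` be a rational
point with `p • Q = 0`.
* If `v2 x < 1` (`Q` reduces to the node) then all nonzero multiples of `Q` reduce to the node
  (`NodeBasic.typeN_nsmul_of_prime`) and `v2 x ^ p = v2 a₄ ^ (2 k)` with `1 ≤ k ≤ p - 1`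
  (`NodeVal2.node_torsion_val`).  All values are integral powers of `v2 2`, so
  `p d = 2 k (p m - 4)`, hence `p ∣ 8 k`: impossible.
* Otherwise `v2 x = 1`, and the same holds for `2 • Q`.  The residue field is `𝔽₂`, so `2 • Q`
  is congruent to `Q` or to `-Q`; smooth closeness (`Closeness.sub_inE1_of_close`) puts `Q` or
  `3 • Q` into the kernel of reduction, which has no `p`-torsion.
-/
import Mathlib
import Fermat.Prelude.Def_FLTPrelim_FreyPackage
import Fermat.Agent.S13.NodeBasic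
import Fermat.Agent.S13.NodeVal2
import Fermat.Agent.S13.Closeness

set_option autoImplicit false

open WeierstrassCurve WeierstrassCurve.Affine

namespace Fermat.Agent.S13.RatTors2

open WithZero Fermat.Agent.S05 Fermat.Agent.S05.PairFormulas

/-! ### The `2`-adic valuation on `ℚ` -/

/-- The `2`-adic valuation on `ℚ`. -/
noncomputable abbrev v2 : Valuation ℚ ℤᵐ⁰ := Rat.padicValuation 2

lemma v2_two : v2 (2 : ℚ) = exp (-1 : ℤ) := by
  have := Rat.padicValuation_self 2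
  simpa using this

lemma v2_two_pos : 0 < v2 (2 : ℚ) := by
  rw [v2_two]; exact zero_lt_iff.mpr exp_ne_zero

lemma v2_two_lt_one : v2 (2 : ℚ) < 1 := by
  rw [v2_two, ← exp_zero, exp_lt_exp]; norm_num

lemma v2_two_ne_one : v2 (2 : ℚ) ≠ 1 := v2_two_lt_one.ne

lemma v2_intCast_le_one (n : ℤ) : v2 (n : ℚ) ≤ 1 := by
  rw [show v2 (n : ℚ) = Int.padicValuation 2 n from rfl]
  exact Int.padicValuation_le_one 2 n

lemma v2_intCast_lt_one_iff (n : ℤ) : v2 (n : ℚ) < 1 ↔ (2 : ℤ) ∣ n := by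
  rw [show v2 (n : ℚ) = Int.padicValuation 2 n from rfl]
  exact Int.padicValuation_lt_one_iff

lemma v2_intCast_eq_one_iff (n : ℤ) : v2 (n : ℚ) = 1 ↔ ¬ (2 : ℤ) ∣ n := by
  rw [show v2 (n : ℚ) = Int.padicValuation 2 n from rfl]
  exact Int.padicValuation_eq_one_iff

/-- Every nonzero value is an integral power of `v2 2`. -/
lemma v2_eq_zpow {q : ℚ} (hq : q ≠ 0) : ∃ d : ℤ, v2 q = v2 (2 : ℚ) ^ d := by
  refine ⟨padicValRat 2 q, ?_⟩
  rw [v2_two, ← exp_zsmul]
  simp [v2, Rat.padicValuation, hq]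

/-- The residue field of `v2` is `𝔽₂`. -/
lemma v2_lt_one_or (t : ℚ) (ht : v2 t ≤ 1) : v2 t < 1 ∨ v2 (t - 1) < 1 := by
  have hden : ¬ 2 ∣ t.den := Rat.padicValuation_le_one_iff.mp ht
  have hden' : ¬ (2 : ℤ) ∣ (t.den : ℤ) := by
    intro h; exact hden (by exact_mod_cast h)
  have hvden : v2 ((t.den : ℤ) : ℚ) = 1 := (v2_intCast_eq_one_iff _).mpr hden'
  have hden0 : ((t.den : ℤ) : ℚ) ≠ 0 := by exact_mod_cast t.den_ne_zero
  by_cases hnum : (2 : ℤ) ∣ t.num
  · left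
    have : t = (t.num : ℚ) / ((t.den : ℤ) : ℚ) := by
      simpa using (Rat.num_div_den t).symm
    rw [this, map_div₀, hvden, div_one]
    exact (v2_intCast_lt_one_iff _).mpr hnum
  · right
    have : t - 1 = ((t.num - t.den : ℤ) : ℚ) / ((t.den : ℤ) : ℚ) := by
      rw [eq_div_iff hden0]
      push_cast
      have := Rat.mul_den_eq_num t
      linear_combination this
    rw [this, map_div₀, hvden, div_one]
    refine (v2_intCast_lt_one_iff _).mpr ?_
    omega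

/-! ### Arithmetic of the Frey package at `2` -/

section Arith

variable (P : FreyPackage)

lemma two_dvd_b : (2 : ℤ) ∣ P.b := (ZMod.intCast_zmod_eq_zero_iff_dvd P.b 2).1 P.hb2

lemma four_dvd_a_add_one : (4 : ℤ) ∣ P.a + 1 := by
  have h := P.ha4
  have h4 : ((P.a + 1 : ℤ) : ZMod 4) = 0 := by
    push_cast
    rw [h]
    decide
  exact (ZMod.intCast_zmod_eq_zero_iff_dvd _ 4).1 h4

lemma not_two_dvd_a : ¬ (2 : ℤ) ∣ P.a := by
  have := four_dvd_a_add_one P
  omega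

lemma not_two_dvd_a_pow : ¬ (2 : ℤ) ∣ P.a ^ P.p := fun h =>
  not_two_dvd_a P (Int.prime_two.dvd_of_dvd_pow h)

/-- `aᵖ + 1 = 4 s`. -/
lemma exists_a_pow : ∃ s : ℤ, P.a ^ P.p + 1 = 4 * s := by
  have h1 : P.a + 1 ∣ P.a ^ P.p + 1 ^ P.p := Odd.add_dvd_pow_add_pow _ _ P.hp_odd
  rw [one_pow] at h1
  exact (four_dvd_a_add_one P).trans h1

/-- `bᵖ = 32 r`. -/
lemma exists_b_pow : ∃ r : ℤ, P.b ^ P.p = 32 * r := by
  have h1 : (2 : ℤ) ^ P.p ∣ P.b ^ P.p := pow_dvd_pow_of_dvd (two_dvd_b P) _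
  have h2 : (2 : ℤ) ^ 5 ∣ 2 ^ P.p := pow_dvd_pow _ P.hp5
  have h3 : (32 : ℤ) ∣ P.b ^ P.p := by
    have : (32 : ℤ) = 2 ^ 5 := by norm_num
    rw [this]; exact h2.trans h1
  exact h3

end Arith

/-! ### The Frey curve at `2` -/

section Frey

variable (P : FreyPackage)

lemma frey_a₂_eq : ∃ m : ℤ, P.freyCurve.toAffine.a₂ = (m : ℚ) := by
  obtain ⟨s, hs⟩ := exists_a_pow P
  obtain ⟨r, hr⟩ := exists_b_pow P
  refine ⟨8 * r - s, ?_⟩
  have hs' : (P.a : ℚ) ^ P.p + 1 = 4 * (s : ℚ) := by exact_mod_cast hs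
  have hr' : (P.b : ℚ) ^ P.p = 32 * (r : ℚ) := by exact_mod_cast hr
  show ((P.b : ℚ) ^ P.p - 1 - (P.a : ℚ) ^ P.p) / 4 = ((8 * r - s : ℤ) : ℚ)
  push_cast
  linear_combination (1 / 4 : ℚ) * hr' - (1 / 4 : ℚ) * hs'

lemma frey_a₄_eq : ∃ r : ℤ, P.freyCurve.toAffine.a₄ = (2 : ℚ) * ((-(P.a ^ P.p) * r : ℤ) : ℚ) := by
  obtain ⟨r, hr⟩ := exists_b_pow P
  refine ⟨r, ?_⟩
  have hr' : (P.b : ℚ) ^ P.p = 32 * (r : ℚ) := by exact_mod_cast hr
  show -((P.a : ℚ) ^ P.p) * ((P.b : ℚ) ^ P.p) / 16 = (2 : ℚ) * ((-(P.a ^ P.p) * r : ℤ) : ℚ)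
  push_cast
  rw [hr']
  ring

lemma frey_a₄_ne_zero : P.freyCurve.toAffine.a₄ ≠ 0 := by
  show -((P.a : ℚ) ^ P.p) * ((P.b : ℚ) ^ P.p) / 16 ≠ 0
  have ha : (P.a : ℚ) ≠ 0 := by exact_mod_cast P.ha0
  have hb : (P.b : ℚ) ≠ 0 := by exact_mod_cast P.hb0
  have : (16 : ℚ) ≠ 0 := by norm_num
  exact div_ne_zero (mul_ne_zero (neg_ne_zero.mpr (pow_ne_zero _ ha)) (pow_ne_zero _ hb)) this

lemma frey_b₂_eq : P.freyCurve.toAffine.b₂ = ((P.b ^ P.p - P.a ^ P.p : ℤ) : ℚ) := by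
  show (1 : ℚ) ^ 2 + 4 * (((P.b : ℚ) ^ P.p - 1 - (P.a : ℚ) ^ P.p) / 4) = _
  push_cast
  ring

lemma frey_v_a₄_lt : v2 P.freyCurve.toAffine.a₄ < 1 := by
  obtain ⟨r, hr⟩ := frey_a₄_eq P
  rw [hr, map_mul]
  calc v2 (2 : ℚ) * v2 ((-(P.a ^ P.p) * r : ℤ) : ℚ) ≤ v2 (2 : ℚ) * 1 :=
        mul_le_mul' le_rfl (v2_intCast_le_one _)
    _ = v2 (2 : ℚ) := mul_one _
    _ < 1 := v2_two_lt_one

lemma frey_integralCoeffs : Kernel.IntegralCoeffs v2 P.freyCurve.toAffine := by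
  refine ⟨?_, ?_, ?_, (frey_v_a₄_lt P).le, ?_⟩
  · show v2 (1 : ℚ) ≤ 1
    rw [map_one]
  · obtain ⟨m, hm⟩ := frey_a₂_eq P
    rw [hm]; exact v2_intCast_le_one m
  · show v2 (0 : ℚ) ≤ 1
    rw [map_zero]; exact zero_le
  · show v2 (0 : ℚ) ≤ 1
    rw [map_zero]; exact zero_le

lemma frey_nodeShape : Node.NodeShape v2 P.freyCurve.toAffine where
  a₃ := rfl
  a₆ := rfl
  a₁ := (frey_integralCoeffs P).1
  a₂ := (frey_integralCoeffs P).2.1
  a₄ := frey_v_a₄_lt P
  a₄0 := frey_a₄_ne_zero P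
  b₂ := by
    rw [frey_b₂_eq, v2_intCast_eq_one_iff]
    intro h
    have hb : (2 : ℤ) ∣ P.b ^ P.p := dvd_pow (two_dvd_b P) P.hp0
    exact not_two_dvd_a_pow P ((dvd_sub_right hb).mp h)

/-- `v2 a₄ = v2 2 ^ (p m - 4)`. -/
lemma frey_v_a₄_eq : ∃ m : ℤ, v2 P.freyCurve.toAffine.a₄ = v2 (2 : ℚ) ^ ((P.p : ℤ) * m - 4) := by
  have hb : (P.b : ℚ) ≠ 0 := by exact_mod_cast P.hb0
  obtain ⟨m, hm⟩ := v2_eq_zpow hb
  refine ⟨m, ?_⟩
  have ha : v2 ((P.a : ℤ) : ℚ) = 1 := (v2_intCast_eq_one_iff _).mpr (not_two_dvd_a P)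
  have h16 : v2 (16 : ℚ) = v2 (2 : ℚ) ^ (4 : ℤ) := by
    rw [show (16 : ℚ) = 2 ^ 4 by norm_num, map_pow]
    norm_cast
  show v2 (-((P.a : ℚ) ^ P.p) * ((P.b : ℚ) ^ P.p) / 16) = _
  rw [map_div₀, map_mul, Valuation.map_neg, map_pow, map_pow, ha, one_pow, one_mul, hm, h16,
    ← zpow_natCast, ← zpow_mul, ← zpow_sub₀ v2_two_pos.ne', mul_comm]

end Frey

/-! ### No rational `p`-torsion -/

section Main

variable (P : FreyPackage)

lemma v2_p_eq_one : v2 ((P.p : ℕ) : ℚ) = 1 := by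
  have h : ¬ (2 : ℤ) ∣ (P.p : ℤ) := by
    have := P.hp_odd
    intro hd
    have h2 : 2 ∣ P.p := by exact_mod_cast hd
    exact (Nat.not_even_iff_odd.mpr this) (even_iff_two_dvd.mpr h2)
  have := (v2_intCast_eq_one_iff (P.p : ℤ)).mpr h
  simpa using this

/-- The arithmetic contradiction in the node case. -/
lemma arith_contra {p k : ℕ} (hp : p.Prime) (hp5 : 5 ≤ p) (hk1 : 1 ≤ k) (hk : k ≤ p - 1)
    {d m : ℤ} (h : d * (p : ℤ) = ((p : ℤ) * m - 4) * (2 * (k : ℤ))) : False := by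
  have hdvd : (p : ℤ) ∣ ((8 * k : ℕ) : ℤ) := by
    refine ⟨2 * k * m - d, ?_⟩
    push_cast
    linear_combination h
  have hdvd' : p ∣ 8 * k := by exact_mod_cast hdvd
  rcases (Nat.Prime.dvd_mul hp).mp hdvd' with h8 | hkd
  · have : p ∣ 2 := by
      have h8' : p ∣ 2 ^ 3 := by norm_num; exact h8
      exact hp.dvd_of_dvd_pow h8'
    have := Nat.le_of_dvd (by norm_num) this
    omega
  · have := Nat.le_of_dvd (by omega) hkd
    omega

lemma exists_some_of_ne_zero {W : Affine ℚ} {Q : W.Point} (hQ : Q ≠ 0) :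
    ∃ (x y : ℚ) (h : W.Nonsingular x y), Q = Point.some x y h := by
  rcases Q with _ | ⟨x, y, h⟩
  · exact absurd rfl hQ
  · exact ⟨x, y, h, rfl⟩

/-- **A2b (coordinate form)**: the Frey curve has no rational point of order `p`. -/
theorem no_rational_torsion_coord (x y : ℚ) (h : P.freyCurve.toAffine.Nonsingular x y) :
    P.p • Point.some x y h ≠ 0 := by
  intro hQ
  have hp : P.p.Prime := P.pp
  have hp5 : 5 ≤ P.p := P.hp5
  have hp2 : P.p ≠ 2 := by omega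
  have hvp : v2 ((P.p : ℕ) : ℚ) = 1 := v2_p_eq_one P
  have hW : Kernel.IntegralCoeffs v2 P.freyCurve.toAffine := frey_integralCoeffs P
  have hN : Node.NodeShape v2 P.freyCurve.toAffine := frey_nodeShape P
  rcases lt_or_ge (v2 x) 1 with hlt | hge
  · -- `Q` reduces to the node
    have hT : Node.TypeN v2 (Point.some x y h) := (Node.typeN_some h).mpr hlt
    have hnode : ∀ k, 1 ≤ k → k ≤ P.p - 1 → v2 (xc (k • Point.some x y h)) < 1 := by
      intro k hk1 hk2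
      have hk : ¬ P.p ∣ k := Nat.not_dvd_of_pos_of_lt (by omega) (by omega)
      obtain ⟨x', y', h', he, -, hx'⟩ := Node.typeN_nsmul_of_prime hN hp hp2 hT hQ hk
      rw [he]; exact hx'
    obtain ⟨k, hk1, hk2, hk⟩ := NodeVal2.node_torsion_val hN.a₃ hN.a₆ hN.b₂ hN.a₄ hN.a₄0 hp hp2
      (Point.some_ne_zero h) hQ hnode
    rw [xc_some] at hk
    have hx0 : x ≠ 0 := by
      rintro rfl
      rw [map_zero, zero_pow hp.ne_zero] at hk
      exact pow_ne_zero _ hN.val_a₄_ne_zero hk.symm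
    obtain ⟨d, hd⟩ := v2_eq_zpow hx0
    obtain ⟨m, hm⟩ := frey_v_a₄_eq P
    rw [hd, hm, ← zpow_natCast, ← zpow_natCast, ← zpow_mul, ← zpow_mul,
      zpow_right_inj₀ v2_two_pos v2_two_ne_one] at hk
    push_cast at hk
    exact arith_contra hp hp5 hk1 hk2 hk
  · -- `Q` does not reduce to the node
    have hx1 : v2 x ≤ 1 := Kernel.x_integral_of_nsmul_eq_zero hW h hvp hQ
    have hx : v2 x = 1 := le_antisymm hx1 hge
    have hy1 : v2 y ≤ 1 := Closeness.vy_le_one hW h.1 hx1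
    -- the point `2 • Q`
    have h2Q0 : 2 • Point.some x y h ≠ 0 := by
      intro h2
      obtain ⟨j, hj⟩ := P.hp_odd
      have h3 := hQ
      rw [hj, add_nsmul, mul_nsmul, h2, nsmul_zero, zero_add, one_nsmul] at h3
      exact Point.some_ne_zero h h3
    obtain ⟨x2, y2, h2, he2⟩ := exists_some_of_ne_zero h2Q0
    have hp2Q : P.p • Point.some x2 y2 h2 = 0 := by
      rw [← he2, nsmul_left_comm, hQ, nsmul_zero]
    have hx2le : v2 x2 ≤ 1 := Kernel.x_integral_of_nsmul_eq_zero hW h2 hvp hp2Q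
    have hE0 : Node.InE0 v2 (2 • Point.some x y h) :=
      Node.inE0_nsmul hN ((Node.inE0_some h).mpr hge) 2
    rw [he2, Node.inE0_some] at hE0
    have hx2 : v2 x2 = 1 := le_antisymm hx2le hE0
    have hy2 : v2 y2 ≤ 1 := Closeness.vy_le_one hW h2.1 hx2le
    -- residue classes of the `x`-coordinates
    have hxc : v2 (x - 1) < 1 :=
      (v2_lt_one_or x hx1).resolve_left (by rw [hx]; exact lt_irrefl _)
    have hx2c : v2 (x2 - 1) < 1 :=
      (v2_lt_one_or x2 hx2le).resolve_left (by rw [hx2]; exact lt_irrefl _)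
    have hxx : v2 (x2 - x) < 1 := by
      have e : x2 - x = (x2 - 1) - (x - 1) := by ring
      rw [e]; exact lt_of_le_of_lt (v2.map_sub _ _) (max_lt hx2c hxc)
    by_cases hyy : v2 (y2 - y) < 1
    · -- `2 • Q ≡ Q`: then `Q = 2 • Q - Q` lies in the kernel of reduction
      have hns := Closeness.unit_partial_of_node_shape hW hN.a₃ hN.a₆ hN.a₄ h.1 hx
      have hE1 := Closeness.sub_inE1_of_close hW h h2 hx1 hy1 hxx hyy hns
      rw [← he2, two_nsmul, add_sub_cancel_right, Kernel.inE1_some, hx] at hE1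
      exact lt_irrefl _ hE1
    · -- `2 • Q ≡ -Q`: then `3 • Q = 2 • Q - (-Q)` lies in the kernel of reduction
      have hnegY : P.freyCurve.toAffine.negY x y = -y - x := by
        show -y - (1 : ℚ) * x - 0 = -y - x
        ring
      have hnN : P.freyCurve.toAffine.Nonsingular x (P.freyCurve.toAffine.negY x y) :=
        (nonsingular_neg x y).mpr h
      have hv2 : v2 (2 : ℚ) < 1 := v2_two_lt_one
      have hyy' : v2 (y2 - P.freyCurve.toAffine.negY x y) < 1 := by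
        rw [hnegY]
        rcases v2_lt_one_or y hy1 with hya | hyb <;> rcases v2_lt_one_or y2 hy2 with hy2a | hy2b
        · exact absurd (lt_of_le_of_lt (v2.map_sub _ _) (max_lt hy2a hya)) hyy
        · have e : y2 - (-y - x) = ((y2 - 1) + y) + ((x - 1) + 2) := by ring
          rw [e]
          exact lt_of_le_of_lt (v2.map_add _ _) (max_lt
            (lt_of_le_of_lt (v2.map_add _ _) (max_lt hy2b hya))
            (lt_of_le_of_lt (v2.map_add _ _) (max_lt hxc hv2)))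
        · have e : y2 - (-y - x) = (y2 + (y - 1)) + ((x - 1) + 2) := by ring
          rw [e]
          exact lt_of_le_of_lt (v2.map_add _ _) (max_lt
            (lt_of_le_of_lt (v2.map_add _ _) (max_lt hy2a hyb))
            (lt_of_le_of_lt (v2.map_add _ _) (max_lt hxc hv2)))
        · have e : y2 - y = (y2 - 1) - (y - 1) := by ring
          exact absurd (by rw [e]; exact lt_of_le_of_lt (v2.map_sub _ _) (max_lt hy2b hyb)) hyy
      have hnegy1 : v2 (P.freyCurve.toAffine.negY x y) ≤ 1 := Closeness.vy_le_one hW hnN.1 hx1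
      have hns := Closeness.unit_partial_of_node_shape hW hN.a₃ hN.a₆ hN.a₄ hnN.1 hx
      have hE1 := Closeness.sub_inE1_of_close hW hnN h2 hx1 hnegy1 hxx hyy' hns
      rw [← he2, ← Point.neg_some h, sub_neg_eq_add] at hE1
      have h3Q : 3 • Point.some x y h = 2 • Point.some x y h + Point.some x y h := by
        rw [succ_nsmul]
      rw [← h3Q] at hE1
      have hp3Q : P.p • (3 • Point.some x y h) = 0 := by
        rw [nsmul_left_comm, hQ, nsmul_zero]
      have h30 := Kernel.eq_zero_of_nsmul_eq_zero hW hE1 hvp hp3Q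
      -- `3 • Q = 0` and `p • Q = 0` with `p` prime, `p ≥ 5`
      have hcop : Nat.Coprime 3 P.p := by
        rw [Nat.coprime_comm, Nat.Prime.coprime_iff_not_dvd hp]
        intro hd
        have := Nat.le_of_dvd (by norm_num) hd
        omega
      have hord : addOrderOf (Point.some x y h) ∣ Nat.gcd 3 P.p :=
        Nat.dvd_gcd (addOrderOf_dvd_of_nsmul_eq_zero h30) (addOrderOf_dvd_of_nsmul_eq_zero hQ)
      rw [hcop.gcd_eq_one, Nat.dvd_one, AddMonoid.addOrderOf_eq_one_iff] at hord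
      exact Point.some_ne_zero h hord

end Main

end Fermat.Agent.S13.RatTors2
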