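/-
A3e (helper28): exclusion of the "supersingular" case at `p`.

If every nonzero `p`-torsion point of the Frey curve lies in the kernel of reduction at a place
above `p` (`1 < v x`), then there is no `G_ℚ`-stable line `N` in `E[p]`.

Proof: `g := preΨ_p` has leading coefficient `p`, constant term in the valuation ring, and all its
roots are `x`-coordinates of nonzero `p`-torsion points (A1b, taken as a hypothesis), so they all
have `1 < v`.  The set `T` of roots which are `x`-coordinates of points of `N` is Galois stable, so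
`c := ∏_{r ∈ T} r` is rational, and `1 < v c` forces `v p⁻¹ ≤ v c`.  A point outside `N` gives a
further root `r₀ ∉ T`, whence `v (g 0) = v p * ∏_{roots} v r ≥ v p * v r₀ * v c > 1`, contradiction.
-/
import Mathlib
import Fermat.Prelude.Def_FLTPrelim_FreyPackage
import Fermat.Prelude.Def_FLTPrelim_GaloisRep
import Fermat.Prelude.Def_FLTPrelim_Ramification
import Fermat.Prelude.Def_FLTPrelim_CofixedLine
import Fermat.Agent.S05.Inertia

set_option autoImplicit false

open WeierstrassCurve WeierstrassCurve.Affine WeierstrassCurve.Affine.Point Polynomial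

namespace Fermat.Agent.S13.Supersingular

open Fermat.Agent.S05.Inertia

local notation "Qbar" => AlgebraicClosure ℚ

/-! ### Galois-fixed elements of `Qbar` are rational -/

theorem isGalois_rat_Qbar : IsGalois ℚ Qbar := by
  have h : (DivisionRing.toRatAlgebra : Algebra ℚ Qbar) = AlgebraicClosure.instAlgebra ℚ :=
    Subsingleton.elim _ _
  rw [h]; infer_instance

theorem rat_of_fixed (x : Qbar) (hx : ∀ σ : Qbar ≃ₐ[ℚ] Qbar, σ x = x) :
    ∃ q : ℚ, (q : Qbar) = x := by
  have := isGalois_rat_Qbar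
  obtain ⟨q, hq⟩ := (InfiniteGalois.mem_range_algebraMap_iff_fixed (k := ℚ) (K := Qbar) x).mpr hx
  exact ⟨q, by rw [← hq]; exact (eq_ratCast _ q).symm⟩

/-! ### Valuation of rational numbers -/

section Val

variable {L : Type*} [Field L] [CharZero L] {A : ValuationSubring L} {p : ℕ}

/-- A rational number of valuation `> 1` at a place above `p` has valuation at least `(v p)⁻¹`. -/
theorem inv_le_valuation_ratCast (hp : p.Prime) (hA : A.LiesOverPrime p) (q : ℚ)
    (h : 1 < A.valuation (q : L)) : (A.valuation (p : L))⁻¹ ≤ A.valuation (q : L) := by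
  have hcast : (q : L) = (q.num : L) / (q.den : L) := by
    rw [Rat.cast_def]
  have hden0 : (q.den : L) ≠ 0 := by exact_mod_cast q.den_nz
  have hvden0 : A.valuation (q.den : L) ≠ 0 := (Valuation.ne_zero_iff _).mpr hden0
  have hp0 : (p : L) ≠ 0 := by exact_mod_cast hp.ne_zero
  have hvp0 : A.valuation (p : L) ≠ 0 := (Valuation.ne_zero_iff _).mpr hp0
  by_cases hd : p ∣ q.den
  · -- `p ∤ num`
    have hnum : ¬ (p : ℤ) ∣ q.num := by
      intro hn
      have h1 : p ∣ q.num.natAbs := Int.natCast_dvd.mp hn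
      have := Nat.Coprime.eq_one_of_dvd (Nat.Coprime.coprime_dvd_left h1 q.reduced) hd
      exact hp.one_lt.ne' this
    have hvnum : A.valuation (q.num : L) = 1 := valuation_intCast_eq_one hp hA hnum
    obtain ⟨d, hd'⟩ := hd
    have hvden : A.valuation (q.den : L) ≤ A.valuation (p : L) := by
      rw [hd']; push_cast; rw [map_mul]
      calc A.valuation (p : L) * A.valuation (d : L) ≤ A.valuation (p : L) * 1 := by
            gcongr; exact valuation_natCast_le_one d
        _ = _ := mul_one _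
    rw [hcast, map_div₀, hvnum, one_div]
    exact (inv_le_inv₀ (zero_lt_iff.mpr hvp0) (zero_lt_iff.mpr hvden0)).mpr hvden
  · exfalso
    have hvden : A.valuation (q.den : L) = 1 := valuation_natCast_eq_one hp hA hd
    rw [hcast, map_div₀, hvden, div_one] at h
    exact absurd (valuation_intCast_le_one q.num) (not_le.mpr h)

end Val

/-! ### The abstract core -/

section Core

variable {A : ValuationSubring Qbar} {p : ℕ}

/-- The product over a Galois-stable finite set is rational. -/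
theorem prod_rat_of_stable (T : Finset Qbar)
    (hstable : ∀ σ : Qbar ≃ₐ[ℚ] Qbar, ∀ r ∈ T, σ r ∈ T) :
    ∃ q : ℚ, (q : Qbar) = ∏ r ∈ T, r := by
  apply rat_of_fixed
  intro σ
  have himg : T.image σ = T := by
    apply Finset.eq_of_subset_of_card_le
    · intro s hs
      obtain ⟨r, hr, rfl⟩ := Finset.mem_image.mp hs
      exact hstable σ r hr
    · rw [Finset.card_image_of_injective _ σ.injective]
  rw [map_prod]
  conv_rhs => rw [← himg]
  rw [Finset.prod_image (fun a _ b _ h => σ.injective h)]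

theorem one_le_multiset_prod {Γ : Type*} [LinearOrderedCommGroupWithZero Γ] (s : Multiset Γ)
    (h : ∀ x ∈ s, 1 ≤ x) : 1 ≤ s.prod := by
  induction s using Multiset.induction_on with
  | empty => simp
  | cons a s ih =>
    rw [Multiset.prod_cons]
    have ha : 1 ≤ a := h a (Multiset.mem_cons_self a s)
    have hs : 1 ≤ s.prod := ih fun x hx => h x (Multiset.mem_cons_of_mem hx)
    calc (1 : Γ) = 1 * 1 := (mul_one 1).symm
      _ ≤ a * s.prod := mul_le_mul' ha hs

theorem core (hp : p.Prime) (hA : A.LiesOverPrime p) (g : Qbar[X])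
    (hlc : g.leadingCoeff = (p : Qbar)) (h0 : A.valuation (g.eval 0) ≤ 1)
    (hroots : ∀ r ∈ g.roots, 1 < A.valuation r)
    (T : Finset Qbar) (hT : ∀ r ∈ T, r ∈ g.roots) (hTne : T.Nonempty)
    (hstable : ∀ σ : Qbar ≃ₐ[ℚ] Qbar, ∀ r ∈ T, σ r ∈ T)
    (r₀ : Qbar) (hr₀ : r₀ ∈ g.roots) (hr₀T : r₀ ∉ T) : False := by
  classical
  set v := A.valuation with hv
  obtain ⟨q, hq⟩ := prod_rat_of_stable T hstable
  -- `1 < v c`
  have hvc : v (∏ r ∈ T, r) = ∏ r ∈ T, v r := map_prod v _ _
  have hc1 : 1 < v (∏ r ∈ T, r) := by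
    rw [hvc]
    obtain ⟨t, ht⟩ := hTne
    rw [← Finset.mul_prod_erase T _ ht]
    have h1 : 1 < v t := hroots t (hT t ht)
    have h2 : 1 ≤ ∏ r ∈ T.erase t, v r := by
      rw [Finset.prod_eq_multiset_prod]
      apply one_le_multiset_prod
      intro x hx
      obtain ⟨r, hr, rfl⟩ := Multiset.mem_map.mp hx
      exact (hroots r (hT r (Finset.mem_of_mem_erase hr))).le
    calc (1 : A.ValueGroup) < v t := h1
      _ = v t * 1 := (mul_one _).symm
      _ ≤ v t * ∏ r ∈ T.erase t, v r := mul_le_mul' le_rfl h2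
  have hcp : (v (p : Qbar))⁻¹ ≤ v (∏ r ∈ T, r) := by
    rw [← hq] at hc1 ⊢
    exact inv_le_valuation_ratCast hp hA q hc1
  have hp0 : (p : Qbar) ≠ 0 := by exact_mod_cast hp.ne_zero
  have hvp0 : v (p : Qbar) ≠ 0 := (Valuation.ne_zero_iff _).mpr hp0
  -- the roots split off `insert r₀ T`
  have hle : (insert r₀ T).val ≤ g.roots := by
    rw [Multiset.le_iff_subset (insert r₀ T).nodup]
    intro x hx
    rcases Finset.mem_insert.mp (Finset.mem_val.mp hx) with rfl | hx
    · exact hr₀
    · exact hT x hx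
  have hsplit : g.roots = (g.roots - (insert r₀ T).val) + (insert r₀ T).val :=
    (tsub_add_cancel_of_le hle).symm
  have heval : g.eval 0 = g.leadingCoeff * (g.roots.map (0 - ·)).prod :=
    (IsAlgClosed.splits g).eval_eq_prod_roots 0
  have hvg : v (g.eval 0) = v (p : Qbar) * (g.roots.map v).prod := by
    rw [heval, map_mul, hlc, map_multiset_prod, Multiset.map_map]
    congr 2
    apply Multiset.map_congr rfl
    intro x _
    simp
  have hM : v r₀ * v (∏ r ∈ T, r) ≤ (g.roots.map v).prod := by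
    rw [hsplit, Multiset.map_add, Multiset.prod_add]
    have h1 : 1 ≤ ((g.roots - (insert r₀ T).val).map v).prod := by
      apply one_le_multiset_prod
      intro x hx
      obtain ⟨r, hr, rfl⟩ := Multiset.mem_map.mp hx
      exact (hroots r (Multiset.mem_of_le (Multiset.sub_le_self _ _) hr)).le
    have h2 : ((insert r₀ T).val.map v).prod = v r₀ * v (∏ r ∈ T, r) := by
      rw [hvc, ← Finset.prod_insert hr₀T]
      rfl
    rw [h2]
    calc v r₀ * v (∏ r ∈ T, r) = 1 * (v r₀ * v (∏ r ∈ T, r)) := (one_mul _).symm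
      _ ≤ _ := mul_le_mul' h1 le_rfl
  have hfin : 1 < v (g.eval 0) := by
    rw [hvg]
    calc (1 : A.ValueGroup) < v r₀ := hroots r₀ hr₀
      _ = v (p : Qbar) * (v r₀ * (v (p : Qbar))⁻¹) := by
          rw [mul_comm (v r₀), ← mul_assoc, mul_inv_cancel₀ hvp0, one_mul]
      _ ≤ v (p : Qbar) * (v r₀ * v (∏ r ∈ T, r)) :=
          mul_le_mul' le_rfl (mul_le_mul' le_rfl hcp)
      _ ≤ v (p : Qbar) * (g.roots.map v).prod := mul_le_mul' le_rfl hM
  exact absurd h0 (not_le.mpr hfin)

end Core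

/-! ### Integrality of the constant term of `preΨ` -/

theorem eval_zero_preΨ_mem {K : Type*} [Field K] (A : Subring K) (W : WeierstrassCurve K)
    (h₁ : W.a₁ ∈ A) (h₂ : W.a₂ ∈ A) (h₃ : W.a₃ ∈ A) (h₄ : W.a₄ ∈ A) (h₆ : W.a₆ ∈ A) (n : ℤ) :
    (W.preΨ n).eval 0 ∈ A := by
  let WA : WeierstrassCurve A := ⟨⟨_, h₁⟩, ⟨_, h₂⟩, ⟨_, h₃⟩, ⟨_, h₄⟩, ⟨_, h₆⟩⟩
  have hW : W = WA.map A.subtype := by ext <;> rfl
  rw [hW, map_preΨ, Polynomial.eval_zero_map]
  exact ((WA.preΨ n).eval 0).2

/-! ### Existence of a point with a given `x`-coordinate -/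

theorem exists_equation {K : Type*} [Field K] [IsAlgClosed K] (W : Affine K) (x : K) :
    ∃ y : K, W.Equation x y := by
  let q : K[X] := X ^ 2 + C (W.a₁ * x + W.a₃) * X - C (x ^ 3 + W.a₂ * x ^ 2 + W.a₄ * x + W.a₆)
  have hq : q.degree ≠ 0 := by
    have : q.degree = 2 := by
      dsimp only [q]
      compute_degree!
    rw [this]; norm_num
  obtain ⟨y, hy⟩ := IsAlgClosed.exists_root q hq
  refine ⟨y, ?_⟩
  rw [Affine.equation_iff]
  have : q.eval y = 0 := hy
  simp only [q, eval_sub, eval_add, eval_pow, eval_X, eval_mul, eval_C] at this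
  linear_combination this

/-! ### The Frey curve -/

section Frey

variable (P : FreyPackage)

theorem freyCurve_Δ : P.freyCurve.Δ = ((P.a : ℚ) ^ P.p * (P.b : ℚ) ^ P.p * (P.c : ℚ) ^ P.p) ^ 2 / 256 := by
  have hc : (P.c : ℚ) ^ P.p = (P.a : ℚ) ^ P.p + (P.b : ℚ) ^ P.p := by
    have := P.hFLT
    exact_mod_cast this.symm
  rw [hc]
  simp only [WeierstrassCurve.Δ, WeierstrassCurve.b₂, WeierstrassCurve.b₄, WeierstrassCurve.b₆,
    WeierstrassCurve.b₈, FreyPackage.freyCurve]
  ring

theorem freyCurve_Δ_ne_zero : P.freyCurve.Δ ≠ 0 := by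
  rw [freyCurve_Δ]
  have ha : (P.a : ℚ) ≠ 0 := by exact_mod_cast P.ha0
  have hb : (P.b : ℚ) ≠ 0 := by exact_mod_cast P.hb0
  have hc : (P.c : ℚ) ≠ 0 := by exact_mod_cast P.hc0
  positivity

theorem freyCurve_baseChange_Δ_ne_zero : (P.freyCurve⁄Qbar).Δ ≠ 0 := by
  show (P.freyCurve.map (algebraMap ℚ Qbar)).Δ ≠ 0
  rw [WeierstrassCurve.map_Δ]
  exact (_root_.map_ne_zero _).mpr (freyCurve_Δ_ne_zero P)

theorem valuation_ofNat_eq_one {A : ValuationSubring Qbar} (hA : A.LiesOverPrime P.p) (n : ℕ)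
    (hn : n ≠ 0) (hn5 : n < 5 ∨ n = 16) : A.valuation (n : Qbar) = 1 := by
  apply valuation_natCast_eq_one P.pp hA
  intro h
  have h5 := P.hp5
  rcases hn5 with h' | rfl
  · have := Nat.le_of_dvd (Nat.pos_of_ne_zero hn) h
    omega
  · have h2 : P.p ∣ 2 := by
      have : P.p ∣ 2 ^ 4 := by simpa using h
      exact P.pp.dvd_of_dvd_pow this
    have := Nat.le_of_dvd (by norm_num) h2
    omega

theorem frey_const_le_one {A : ValuationSubring Qbar} (hA : A.LiesOverPrime P.p) (n : ℤ) :
    A.valuation (((P.freyCurve⁄Qbar).preΨ n).eval 0) ≤ 1 := by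
  rw [ValuationSubring.valuation_le_one_iff]
  have h4 : A.valuation (4 : Qbar) = 1 := by
    have := valuation_ofNat_eq_one P hA 4 (by norm_num) (Or.inl (by norm_num))
    simpa using this
  have h16 : A.valuation (16 : Qbar) = 1 := by
    have := valuation_ofNat_eq_one P hA 16 (by norm_num) (Or.inr rfl)
    simpa using this
  apply eval_zero_preΨ_mem A.toSubring
  · show (P.freyCurve.map (algebraMap ℚ Qbar)).a₁ ∈ A
    simp only [WeierstrassCurve.map_a₁, FreyPackage.freyCurve, map_one]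
    exact A.one_mem
  · show (P.freyCurve.map (algebraMap ℚ Qbar)).a₂ ∈ A
    simp only [WeierstrassCurve.map_a₂, FreyPackage.freyCurve, map_div₀, map_sub, map_pow,
      map_intCast, map_one, map_ofNat]
    rw [← ValuationSubring.valuation_le_one_iff, map_div₀, h4, div_one]
    have : ((P.b : Qbar) ^ P.p - 1 - (P.a : Qbar) ^ P.p) = ((P.b ^ P.p - 1 - P.a ^ P.p : ℤ) : Qbar) := by
      push_cast; ring
    rw [this]
    exact valuation_intCast_le_one _
  · show (P.freyCurve.map (algebraMap ℚ Qbar)).a₃ ∈ A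
    simp only [WeierstrassCurve.map_a₃, FreyPackage.freyCurve, _root_.map_zero]
    exact A.zero_mem
  · show (P.freyCurve.map (algebraMap ℚ Qbar)).a₄ ∈ A
    simp only [WeierstrassCurve.map_a₄, FreyPackage.freyCurve, map_div₀, map_mul, map_neg, map_pow,
      map_intCast, map_ofNat]
    rw [← ValuationSubring.valuation_le_one_iff, map_div₀, h16, div_one]
    have : (-(P.a : Qbar) ^ P.p * (P.b : Qbar) ^ P.p) = ((-(P.a ^ P.p) * P.b ^ P.p : ℤ) : Qbar) := by
      push_cast; ring
    rw [this]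
    exact valuation_intCast_le_one _
  · show (P.freyCurve.map (algebraMap ℚ Qbar)).a₆ ∈ A
    simp only [WeierstrassCurve.map_a₆, FreyPackage.freyCurve, _root_.map_zero]
    exact A.zero_mem

/-- **Supersingular exclusion.** If all nonzero `p`-torsion points of the Frey curve lie in the
kernel of reduction at a place `A` above `p`, there is no proper nonzero Galois-stable submodule
of `E[p]`.  The link between `p`-torsion and `preΨ_p` (A1b) is a hypothesis. -/
theorem no_stable_line {A : ValuationSubring Qbar} (hA : A.LiesOverPrime P.p)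
    (hA1b : ∀ (x y : Qbar) (h : (P.freyCurve⁄Qbar).Nonsingular x y),
      (P.p : ℤ) • (Point.some x y h) = 0 ↔ ((P.freyCurve⁄Qbar).preΨ (P.p : ℤ)).eval x = 0)
    (hV1 : ∀ (x y : Qbar) (h : (P.freyCurve⁄Qbar).Nonsingular x y),
      (P.p : ℤ) • (Point.some x y h) = 0 → 1 < A.valuation x)
    (N : Submodule (ZMod P.p) (Submodule.torsionBy ℤ (P.freyCurve⁄Qbar).Point P.p))
    (hN : IsGaloisStable ℚ N) (hbot : N ≠ ⊥) (htop : N ≠ ⊤) : False := by
  classical
  set g : Qbar[X] := (P.freyCurve⁄Qbar).preΨ (P.p : ℤ) with hg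
  have hpQ : ((P.p : ℤ) : Qbar) ≠ 0 := by
    have := P.pp.ne_zero
    exact_mod_cast this
  have hg0 : g ≠ 0 := (P.freyCurve⁄Qbar).preΨ_ne_zero hpQ
  have hodd : ¬ Even (P.p : ℤ) := by
    rw [Int.not_even_iff_odd]
    exact_mod_cast P.hp_odd
  have hlc : g.leadingCoeff = (P.p : Qbar) := by
    rw [hg, WeierstrassCurve.leadingCoeff_preΨ _ hpQ, if_neg hodd]
    simp
  -- every nonzero torsion point gives a root
  have hroot_of : ∀ (x y : Qbar) (h : (P.freyCurve⁄Qbar).Nonsingular x y),
      (Point.some x y h) ∈ Submodule.torsionBy ℤ (P.freyCurve⁄Qbar).Point P.p → x ∈ g.roots := by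
    intro x y h hm
    rw [Polynomial.mem_roots hg0]
    exact (hA1b x y h).mp ((Submodule.mem_torsionBy_iff _ _).mp hm)
  -- every root is large
  have hroots : ∀ r ∈ g.roots, 1 < A.valuation r := by
    intro r hr
    obtain ⟨y, hy⟩ := exists_equation (P.freyCurve⁄Qbar) r
    have hns : (P.freyCurve⁄Qbar).Nonsingular r y :=
      ((P.freyCurve⁄Qbar).equation_iff_nonsingular_of_Δ_ne_zero
        (freyCurve_baseChange_Δ_ne_zero P)).mp hy
    exact hV1 r y hns ((hA1b r y hns).mpr ((Polynomial.mem_roots hg0).mp hr))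
  -- the set `T`
  let T : Finset Qbar := g.roots.toFinset.filter fun r =>
    ∃ (y : Qbar) (h : (P.freyCurve⁄Qbar).Nonsingular r y)
      (hm : Point.some r y h ∈ Submodule.torsionBy ℤ (P.freyCurve⁄Qbar).Point P.p),
      (⟨Point.some r y h, hm⟩ : Submodule.torsionBy ℤ (P.freyCurve⁄Qbar).Point P.p) ∈ N
  have hTmem : ∀ r, r ∈ T ↔ r ∈ g.roots ∧
      ∃ (y : Qbar) (h : (P.freyCurve⁄Qbar).Nonsingular r y)
      (hm : Point.some r y h ∈ Submodule.torsionBy ℤ (P.freyCurve⁄Qbar).Point P.p),
      (⟨Point.some r y h, hm⟩ : Submodule.torsionBy ℤ (P.freyCurve⁄Qbar).Point P.p) ∈ N := by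
    intro r
    simp only [T, Finset.mem_filter, Multiset.mem_toFinset]
  -- a point of `N` gives an element of `T`
  have hT_of : ∀ (x y : Qbar) (h : (P.freyCurve⁄Qbar).Nonsingular x y)
      (hm : Point.some x y h ∈ Submodule.torsionBy ℤ (P.freyCurve⁄Qbar).Point P.p),
      (⟨Point.some x y h, hm⟩ : Submodule.torsionBy ℤ (P.freyCurve⁄Qbar).Point P.p) ∈ N →
      x ∈ T := by
    intro x y h hm hmem
    exact (hTmem x).mpr ⟨hroot_of x y h hm, y, h, hm, hmem⟩
  -- `T` is nonempty
  have hTne : T.Nonempty := by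
    obtain ⟨Q, hQN, hQ0⟩ := Submodule.exists_mem_ne_zero_of_ne_bot hbot
    obtain ⟨Q, hQm⟩ := Q
    cases Q with
    | zero => exact absurd rfl hQ0
    | some x y h => exact ⟨x, hT_of x y h hQm hQN⟩
  -- `T` is Galois stable
  have hstable : ∀ σ : Qbar ≃ₐ[ℚ] Qbar, ∀ r ∈ T, σ r ∈ T := by
    intro σ r hr
    obtain ⟨_, y, h, hm, hmem⟩ := (hTmem r).mp hr
    have h1 := hN σ _ hmem
    exact hT_of (σ r) (σ y) _ _ h1
  -- a root outside `T`
  obtain ⟨r₀, hr₀, hr₀T⟩ : ∃ r₀ ∈ g.roots, r₀ ∉ T := by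
    obtain ⟨Q, hQ⟩ : ∃ Q : Submodule.torsionBy ℤ (P.freyCurve⁄Qbar).Point P.p, Q ∉ N := by
      by_contra hcon
      push Not at hcon
      exact htop (eq_top_iff.mpr fun Q _ => hcon Q)
    obtain ⟨Q, hQm⟩ := Q
    cases Q with
    | zero => exact absurd N.zero_mem hQ
    | some x y h =>
      refine ⟨x, hroot_of x y h hQm, fun hxT => hQ ?_⟩
      obtain ⟨_, y', h', hm', hmem'⟩ := (hTmem x).mp hxT
      rcases Affine.Y_eq_of_X_eq h'.left h.left rfl with hy | hy
      · subst hy
        exact hmem'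
      · subst hy
        have hneg : (⟨Point.some x y h, hQm⟩ :
            Submodule.torsionBy ℤ (P.freyCurve⁄Qbar).Point P.p) =
            -⟨Point.some x _ h', hm'⟩ := by
          apply Subtype.ext
          show Point.some x y h = -Point.some x _ h'
          rw [Point.neg_some]
          congr 1
          exact ((P.freyCurve⁄Qbar).negY_negY x y).symm
        rw [hneg]
        exact N.neg_mem hmem'
  exact core P.pp hA g hlc (frey_const_le_one P hA _) hroots T
    (fun r hr => ((hTmem r).mp hr).1) hTne hstable r₀ hr₀ hr₀T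

/-- Variant of `no_stable_line` with the torsion conditions phrased with `ℕ`-multiples. -/
theorem no_stable_line_nsmul {A : ValuationSubring Qbar} (hA : A.LiesOverPrime P.p)
    (hA1b : ∀ (x y : Qbar) (h : (P.freyCurve⁄Qbar).Nonsingular x y),
      P.p • (Point.some x y h) = 0 ↔ ((P.freyCurve⁄Qbar).preΨ (P.p : ℤ)).eval x = 0)
    (hV1 : ∀ (x y : Qbar) (h : (P.freyCurve⁄Qbar).Nonsingular x y),
      P.p • (Point.some x y h) = 0 → 1 < A.valuation x)
    (N : Submodule (ZMod P.p) (Submodule.torsionBy ℤ (P.freyCurve⁄Qbar).Point P.p))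
    (hN : IsGaloisStable ℚ N) (hbot : N ≠ ⊥) (htop : N ≠ ⊤) : False :=
  no_stable_line P hA (fun x y h => by rw [natCast_zsmul]; exact hA1b x y h)
    (fun x y h hx => hV1 x y h (by rwa [natCast_zsmul] at hx)) N hN hbot htop

end Frey

end Fermat.Agent.S13.Supersingular
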