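import Fermat.Statements.S13
import Fermat.Agent.S51.GaloisDescent

/-!
# S13 endgame

`result_of` : the statement of S13 from the local/global inputs of Program A, all taken as explicit
hypotheses:

* `hnt`          (A1c)  : `E[p](ℚ̄)` is nonzero;
* `hex`          (A4)   : every prime has a valuation subring of `ℚ̄` above it;
* `hOn`, `hQuot` (A4)   : a Galois-stable submodule on which (resp. modulo which) one inertia group
  per prime acts trivially is fixed (resp. cofixed) by the whole Galois group;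
* `hodd`         (S05)  : `E[p]` is unramified at the odd primes `q ≠ p`;
* `h2`           (A2)   : inertia at `2` acts trivially on a stable line and on its quotient;
* `hp`           (A3)   : inertia at `p` acts trivially on a stable line or on its quotient;
* `hrat`         (A2b)  : there is no nonzero Galois-fixed point of order `p`.
-/

set_option autoImplicit false

open WeierstrassCurve WeierstrassCurve.Affine WeierstrassCurve.Affine.Point

namespace Fermat.Agent.S13.Endgame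

local notation "Kb" => AlgebraicClosure ℚ

/-- The endgame of S13 for an arbitrary Weierstrass curve over `ℚ` and a prime `p`. -/
theorem cofixed_of_local (E : Affine ℚ) (p : ℕ) (hpp : p.Prime)
    (hnt : ∃ Q : (E⁄Kb).Point, Q ≠ 0 ∧ p • Q = 0)
    (hex : ∀ q : ℕ, q.Prime → ∃ A : ValuationSubring Kb, A.LiesOverPrime q)
    (hOn : ∀ M : Submodule (ZMod p) (Submodule.torsionBy ℤ (E⁄Kb).Point p),
      IsGaloisStable ℚ M →
      (∀ q : ℕ, q.Prime → ∃ A : ValuationSubring Kb, A.LiesOverPrime q ∧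
        ∀ σ ∈ A.inertiaSubgroupIn ℚ, ∀ x ∈ M, σ • x = x) →
      ∀ (σ : Kb ≃ₐ[ℚ] Kb), ∀ x ∈ M, σ • x = x)
    (hQuot : ∀ M : Submodule (ZMod p) (Submodule.torsionBy ℤ (E⁄Kb).Point p),
      IsGaloisStable ℚ M →
      (∀ q : ℕ, q.Prime → ∃ A : ValuationSubring Kb, A.LiesOverPrime q ∧
        ∀ σ ∈ A.inertiaSubgroupIn ℚ,
          ∀ x : Submodule.torsionBy ℤ (E⁄Kb).Point p, σ • x - x ∈ M) →
      ∀ (σ : Kb ≃ₐ[ℚ] Kb) (x : Submodule.torsionBy ℤ (E⁄Kb).Point p), σ • x - x ∈ M)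
    (hodd : ∀ q : ℕ, q.Prime → q ≠ 2 → q ≠ p →
      ∀ A : ValuationSubring Kb, A.LiesOverPrime q → ∀ σ ∈ A.inertiaSubgroupIn ℚ,
        ∀ x : Submodule.torsionBy ℤ (E⁄Kb).Point p, σ • x = x)
    (h2 : ∀ N : Submodule (ZMod p) (Submodule.torsionBy ℤ (E⁄Kb).Point p),
      IsGaloisStable ℚ N → N ≠ ⊥ → N ≠ ⊤ →
      ∀ A : ValuationSubring Kb, A.LiesOverPrime 2 → ∀ σ ∈ A.inertiaSubgroupIn ℚ,
        (∀ x ∈ N, σ • x = x) ∧
          ∀ x : Submodule.torsionBy ℤ (E⁄Kb).Point p, σ • x - x ∈ N)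
    (hp : ∀ N : Submodule (ZMod p) (Submodule.torsionBy ℤ (E⁄Kb).Point p),
      IsGaloisStable ℚ N → N ≠ ⊥ → N ≠ ⊤ →
      ∀ A : ValuationSubring Kb, A.LiesOverPrime p →
        (∀ σ ∈ A.inertiaSubgroupIn ℚ,
          ∀ x : Submodule.torsionBy ℤ (E⁄Kb).Point p, σ • x - x ∈ N) ∨
        (∀ σ ∈ A.inertiaSubgroupIn ℚ, ∀ x ∈ N, σ • x = x))
    (hrat : ∀ Q : Submodule.torsionBy ℤ (E⁄Kb).Point p,
      (∀ σ : Kb ≃ₐ[ℚ] Kb, σ • Q = Q) → Q = 0)
    (hred : ¬ GaloisRepIsIrreducible (K := Kb) ℚ E p) :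
    HasGaloisStableCofixedLine (K := Kb) ℚ E p := by
  classical
  -- the torsion module is nontrivial
  have hnt' : Nontrivial (Submodule.torsionBy ℤ (E⁄Kb).Point p) := by
    obtain ⟨Q, hQ0, hQp⟩ := hnt
    exact ⟨⟨⟨Q, (Fermat.Agent.S51.Galois.mem_torsion_iff E p Q).mpr hQp⟩, 0,
      fun h => hQ0 (congrArg Subtype.val h)⟩⟩
  -- a stable line
  unfold GaloisRepIsIrreducible at hred
  rw [not_and] at hred
  have h' := hred hnt'
  push Not at h'
  obtain ⟨N, hstab, hbot, htop⟩ := h'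
  obtain ⟨Ap, hAp⟩ := hex p hpp
  obtain ⟨A2, hA2⟩ := hex 2 Nat.prime_two
  rcases hp N hstab hbot htop Ap hAp with hcase | hcase
  · -- inertia at `p` acts trivially on the quotient: the line is cofixed
    refine ⟨N, hstab, hbot, htop, hQuot N hstab ?_⟩
    intro q hq
    by_cases hqp : q = p
    · subst hqp
      exact ⟨Ap, hAp, hcase⟩
    by_cases hq2 : q = 2
    · subst hq2
      exact ⟨A2, hA2, fun σ hσ => (h2 N hstab hbot htop A2 hA2 σ hσ).2⟩
    · obtain ⟨A, hA⟩ := hex q hq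
      refine ⟨A, hA, fun σ hσ x => ?_⟩
      rw [hodd q hq hq2 hqp A hA σ hσ x, sub_self]
      exact N.zero_mem
  · -- inertia at `p` acts trivially on the line: a rational point of order `p`
    exfalso
    have hfix : ∀ (σ : Kb ≃ₐ[ℚ] Kb), ∀ x ∈ N, σ • x = x := by
      refine hOn N hstab ?_
      intro q hq
      by_cases hqp : q = p
      · subst hqp
        exact ⟨Ap, hAp, hcase⟩
      by_cases hq2 : q = 2
      · subst hq2
        exact ⟨A2, hA2, fun σ hσ => (h2 N hstab hbot htop A2 hA2 σ hσ).1⟩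
      · obtain ⟨A, hA⟩ := hex q hq
        exact ⟨A, hA, fun σ hσ x _ => hodd q hq hq2 hqp A hA σ hσ x⟩
    obtain ⟨x, hxN, hx0⟩ := (Submodule.ne_bot_iff N).mp hbot
    exact hx0 (hrat x fun σ => hfix σ x hxN)

/-- A Galois-fixed point of `E(ℚ̄)[n]` is zero or has rational coordinates. -/
theorem rational_of_fixed (E : Affine ℚ) (n : ℕ)
    (Q : Submodule.torsionBy ℤ (E⁄Kb).Point n) (hQ : ∀ σ : Kb ≃ₐ[ℚ] Kb, σ • Q = Q) :
    Q = 0 ∨ ∃ (x y : Kb) (h : (E⁄Kb).Nonsingular x y),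
      (Q : (E⁄Kb).Point) = Point.some x y h ∧ n • (Point.some x y h : (E⁄Kb).Point) = 0 ∧
      (∃ q : ℚ, algebraMap ℚ Kb q = x) ∧ ∃ q : ℚ, algebraMap ℚ Kb q = y := by
  obtain ⟨Qv, hQv⟩ := Q
  have hn : n • Qv = 0 := (Fermat.Agent.S51.Galois.mem_torsion_iff E n Qv).mp hQv
  cases Qv with
  | zero => exact Or.inl rfl
  | some x y h =>
    right
    have hfix : ∀ σ : Kb ≃ₐ[ℚ] Kb, σ x = x ∧ σ y = y := by
      intro σ
      have h1 := congrArg Subtype.val (hQ σ)
      obtain ⟨h', he⟩ := Fermat.Agent.S51.Galois.smul_some E σ h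
      have h2 : (Point.some (σ x) (σ y) h' : (E⁄Kb).Point) = Point.some x y h := by
        rw [← he]; exact h1
      exact Point.some.inj h2
    exact ⟨x, y, h, rfl, hn,
      Fermat.Agent.S51.Galois.exists_rat_of_fixed x fun σ => (hfix σ).1,
      Fermat.Agent.S51.Galois.exists_rat_of_fixed y fun σ => (hfix σ).2⟩

end Fermat.Agent.S13.Endgame
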