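/-
Program A (S13), piece A3-ASM (helper15): the local behaviour of `E[p]` at the prime `p`.

For a valuation subring `A` of `ℚ̄` over `p` and a Galois-stable line `N ⊆ V = E[p]` of the Frey
curve, the inertia group of `A` acts trivially on `V / N` or on `N`.

Inputs: closeness at `p` (`FreyE1.close_at_p`: `σ x - x ∈ V1`, the `p`-torsion in the kernel of
reduction), supersingular exclusion (`Supersingular.no_stable_line_nsmul`: `V1 ≠ ⊤`), and linear
algebra (`AtPLin.trivial_of_sub_mem`). The torsion criterion `hA1b` (A1b) and the count `hcard`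
(A1c) are explicit hypotheses.
-/
import Fermat.Agent.S13.FreyE1
import Fermat.Agent.S13.Supersingular
import Fermat.Agent.S13.AtPLin

set_option autoImplicit false

open WeierstrassCurve WeierstrassCurve.Affine WeierstrassCurve.Affine.Point

namespace Fermat.Agent.S13.LocalP

local notation "Qbar" => AlgebraicClosure ℚ

open Fermat.Agent.S13

/-- **Local behaviour at `p`.** -/
theorem local_at_p (P : FreyPackage)
    [Finite (Submodule.torsionBy ℤ (P.freyCurve⁄Qbar).Point P.p)]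
    (hcard : Nat.card (Submodule.torsionBy ℤ (P.freyCurve⁄Qbar).Point P.p) ≤ P.p ^ 2)
    (hA1b : ∀ (x y : Qbar) (h : (P.freyCurve⁄Qbar).Nonsingular x y),
      P.p • (Point.some x y h) = 0 ↔ ((P.freyCurve⁄Qbar).preΨ (P.p : ℤ)).eval x = 0)
    (N : Submodule (ZMod P.p) (Submodule.torsionBy ℤ (P.freyCurve⁄Qbar).Point P.p))
    (hN : IsGaloisStable ℚ N) (hbot : N ≠ ⊥) (htop : N ≠ ⊤)
    (A : ValuationSubring Qbar) (hA : A.LiesOverPrime P.p) :
    (∀ σ ∈ A.inertiaSubgroupIn ℚ,
      ∀ x : Submodule.torsionBy ℤ (P.freyCurve⁄Qbar).Point P.p, σ • x - x ∈ N) ∨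
    (∀ σ ∈ A.inertiaSubgroupIn ℚ, ∀ x ∈ N, σ • x = x) := by
  have : Fact P.p.Prime := ⟨P.pp⟩
  have : Module.Finite (ZMod P.p) (Submodule.torsionBy ℤ (P.freyCurve⁄Qbar).Point P.p) :=
    Module.Finite.of_finite
  have hdim := AtPLin.finrank_le_two_of_card_le (p := P.p) hcard
  have hV1 : FreyE1.V1 P A ≠ ⊤ := by
    intro h
    exact Supersingular.no_stable_line_nsmul P hA hA1b (FreyE1.one_lt_of_V1_eq_top P h)
      N hN hbot htop
  have key := AtPLin.trivial_of_sub_mem hdim N (FreyE1.V1 P A) hbot htop hV1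
    {g | ∃ σ ∈ A.inertiaSubgroupIn ℚ, g = fun x => σ • x}
    (by
      rintro g ⟨σ, -, rfl⟩ x hx
      exact hN σ x hx)
    (by
      rintro g ⟨σ, hσ, rfl⟩ x
      exact FreyE1.close_at_p P hA hσ x)
  rcases key with h | h
  · exact Or.inr fun σ hσ x hx => h _ ⟨σ, hσ, rfl⟩ x hx
  · exact Or.inl fun σ hσ x => h _ ⟨σ, hσ, rfl⟩ x

end Fermat.Agent.S13.LocalP
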