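import Fermat.Agent.S13.Endgame

/-!
# S13: torsion points of `E(ℚ̄)` with rational coordinates come from `E(ℚ)`

`torsion_descends` : a point of `(E⁄ℚ̄)` killed by `n` whose coordinates are rational gives a point
of `E` (over `ℚ`) killed by `n`.

`no_fixed_torsion_of_no_rational` : if `E(ℚ)` has no affine point killed by `n`, then `E(ℚ̄)[n]` has no
nonzero Galois-fixed point.
-/

set_option autoImplicit false

open WeierstrassCurve WeierstrassCurve.Affine WeierstrassCurve.Affine.Point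

namespace Fermat.Agent.S13.RatBridge

local notation "Kb" => AlgebraicClosure ℚ

theorem baseChange_self (E : Affine ℚ) : (E⁄ℚ) = E := by
  change E.map (algebraMap ℚ ℚ) = E
  rw [Algebra.algebraMap_self]
  exact WeierstrassCurve.map_id E

/-- transport of a torsion statement along an equality of curves -/
theorem transport (E : Affine ℚ) (n : ℕ) (qx qy : ℚ) :
    ∀ (W : Affine ℚ), W = E → ∀ (h1 : W.Nonsingular qx qy),
      n • (Point.some qx qy h1 : W.Point) = 0 →
      ∃ h0 : E.Nonsingular qx qy, n • (Point.some qx qy h0 : E.Point) = 0 := by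
  rintro _ rfl h1 hh
  exact ⟨h1, hh⟩

theorem torsion_descends (E : Affine ℚ) (n : ℕ) {x y : Kb} (h : (E⁄Kb).Nonsingular x y)
    (hn : n • (Point.some x y h : (E⁄Kb).Point) = 0)
    (hx : ∃ q : ℚ, algebraMap ℚ Kb q = x) (hy : ∃ q : ℚ, algebraMap ℚ Kb q = y) :
    ∃ (qx qy : ℚ) (h0 : E.Nonsingular qx qy), n • (Point.some qx qy h0 : E.Point) = 0 := by
  obtain ⟨qx, rfl⟩ := hx
  obtain ⟨qy, rfl⟩ := hy
  refine ⟨qx, qy, ?_⟩
  -- nonsingularity over `ℚ`
  have h1 : (E⁄ℚ).Nonsingular qx qy := by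
    have := (E.baseChange_nonsingular (A := ℚ) (B := Kb) (f := Algebra.ofId ℚ Kb)
      (Algebra.ofId ℚ Kb).injective qx qy).mp
    exact this h
  apply transport E n qx qy (E⁄ℚ) (baseChange_self E) h1
  apply Point.map_injective (W' := E) (Algebra.ofId ℚ Kb)
  rw [map_nsmul, Point.map_zero]
  exact hn

/-- If `E(ℚ)` has no affine point killed by `n`, then `E(ℚ̄)[n]` has no nonzero Galois-fixed
point. -/
theorem no_fixed_torsion_of_no_rational (E : Affine ℚ) (n : ℕ)
    (hno : ∀ (x y : ℚ) (h : E.Nonsingular x y), n • (Point.some x y h : E.Point) ≠ 0)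
    (Q : Submodule.torsionBy ℤ (E⁄Kb).Point n) (hQ : ∀ σ : Kb ≃ₐ[ℚ] Kb, σ • Q = Q) : Q = 0 := by
  rcases Fermat.Agent.S13.Endgame.rational_of_fixed E n Q hQ with h0 | ⟨x, y, h, -, hn, hx, hy⟩
  · exact h0
  · obtain ⟨qx, qy, h0, hh⟩ := torsion_descends E n h hn hx hy
    exact absurd hh (hno qx qy h0)

end Fermat.Agent.S13.RatBridge
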