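import Fermat.Agent.DivPoly.A1Final
import Fermat.Agent.S13.Supersingular

/-!
# A1 for the consumers of Program A

The `p`-torsion of an elliptic curve over `ℚ`, base changed to `ℚ̄`, in the exact shapes used by
the endgame of S13 (`hnt`), by `Local2.local_at_2` (`Finite`, `hcard`) and by
`Supersingular.no_stable_line` (`hA1b`).
-/

set_option autoImplicit false

open WeierstrassCurve WeierstrassCurve.Affine WeierstrassCurve.Affine.Point Polynomial

namespace Fermat.Agent.S13.A1Frey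

open Fermat.Agent.DivPoly

local notation "Qbar" => AlgebraicClosure ℚ

section general

variable (E : WeierstrassCurve ℚ)

theorem baseChange_Δ_ne_zero (hΔ : E.Δ ≠ 0) : (E⁄Qbar).Δ ≠ 0 := by
  show (E.map (algebraMap ℚ Qbar)).Δ ≠ 0
  rw [WeierstrassCurve.map_Δ]
  exact (_root_.map_ne_zero _).mpr hΔ

/-- (A1b) `n • P = 0 ↔ preΨ_n(x(P)) = 0`, `n` odd. -/
theorem nsmul_eq_zero_iff {n : ℕ} (hn : Odd n) (x y : Qbar) (h : (E⁄Qbar).Nonsingular x y) :
    n • Point.some x y h = 0 ↔ ((E⁄Qbar).preΨ (n : ℤ)).eval x = 0 := by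
  classical
  exact A1Final.nsmul_eq_zero_iff_preΨ h hn

/-- (A1b) the same with integer multiples. -/
theorem zsmul_eq_zero_iff {n : ℕ} (hn : Odd n) (x y : Qbar) (h : (E⁄Qbar).Nonsingular x y) :
    (n : ℤ) • Point.some x y h = 0 ↔ ((E⁄Qbar).preΨ (n : ℤ)).eval x = 0 := by
  classical
  exact A1Final.zsmul_natCast_eq_zero_iff_preΨ h hn

/-- (A1c) existence of a nonzero point of order dividing `n`, `n > 2` odd. -/
theorem exists_torsion_point (hΔ : E.Δ ≠ 0) {n : ℕ} (hn : Odd n) (h2 : 2 < n) :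
    ∃ Q : (E⁄Qbar).Point, Q ≠ 0 ∧ n • Q = 0 := by
  classical
  have hnF : ((n : ℕ) : Qbar) ≠ 0 := Nat.cast_ne_zero.mpr (by omega)
  exact A1Final.exists_torsion_point hn h2 hnF (baseChange_Δ_ne_zero E hΔ)

/-- (A1c) finiteness of `E[n]`, `n` odd. -/
theorem finite_torsionBy {n : ℕ} (hn : Odd n) :
    Finite (Submodule.torsionBy ℤ (E⁄Qbar).Point (n : ℤ)) := by
  classical
  have hnF : ((n : ℕ) : Qbar) ≠ 0 := Nat.cast_ne_zero.mpr hn.pos.ne'
  exact A1Final.finite_torsionBy hn hnF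

/-- (A1c) `#E[n] ≤ n²`, `n` odd. -/
theorem card_torsionBy_le {n : ℕ} (hn : Odd n) :
    Nat.card (Submodule.torsionBy ℤ (E⁄Qbar).Point (n : ℤ)) ≤ n ^ 2 := by
  classical
  have hnF : ((n : ℕ) : Qbar) ≠ 0 := Nat.cast_ne_zero.mpr hn.pos.ne'
  exact A1Final.card_torsionBy_le hn hnF

end general

section Frey

variable (P : FreyPackage)

/-- `hnt` of `Endgame.cofixed_of_local`. -/
theorem frey_exists_torsion_point :
    ∃ Q : (P.freyCurve⁄Qbar).Point, Q ≠ 0 ∧ P.p • Q = 0 :=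
  exists_torsion_point P.freyCurve (Supersingular.freyCurve_Δ_ne_zero P) P.hp_odd
    (by have := P.hp5; omega)

/-- `hA1b` of `Supersingular.no_stable_line_nsmul`. -/
theorem frey_nsmul_eq_zero_iff (x y : Qbar) (h : (P.freyCurve⁄Qbar).Nonsingular x y) :
    P.p • Point.some x y h = 0 ↔ ((P.freyCurve⁄Qbar).preΨ (P.p : ℤ)).eval x = 0 :=
  nsmul_eq_zero_iff P.freyCurve P.hp_odd x y h

/-- `hA1b` of `Supersingular.no_stable_line`. -/
theorem frey_zsmul_eq_zero_iff (x y : Qbar) (h : (P.freyCurve⁄Qbar).Nonsingular x y) :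
    (P.p : ℤ) • Point.some x y h = 0 ↔ ((P.freyCurve⁄Qbar).preΨ (P.p : ℤ)).eval x = 0 :=
  zsmul_eq_zero_iff P.freyCurve P.hp_odd x y h

/-- `[Finite (VV P)]` of `Local2.local_at_2`. -/
instance frey_finite_torsionBy :
    Finite (Submodule.torsionBy ℤ (P.freyCurve⁄Qbar).Point P.p) :=
  finite_torsionBy P.freyCurve P.hp_odd

/-- `hcard` of `Local2.local_at_2`. -/
theorem frey_card_torsionBy_le :
    Nat.card (Submodule.torsionBy ℤ (P.freyCurve⁄Qbar).Point P.p) ≤ P.p ^ 2 :=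
  card_torsionBy_le P.freyCurve P.hp_odd

end Frey

end Fermat.Agent.S13.A1Frey
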