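/-
Program A (S13), piece A3-super (helper10).

If ALL nonzero `p`-torsion points of `E/ℚ` lie in the kernel of reduction at a place over `p`
(`1 < v x` for all of them), then `E[p]` has no proper nonzero Galois-stable finite set of
points closed under the Galois action that misses some torsion point `Q₀` (up to sign).
In particular there is no Galois-stable line.

Idea: the product `Y` of the `x`-coordinates of the stable set is rational with `1 < v Y`, hence
`1 ≤ v p * v Y`; all these `x`-coordinates and `x(Q₀)` are distinct roots of `preΨ_p`, all roots of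
`preΨ_p` have `1 < v`, the leading coefficient is `p` and the constant coefficient is integral:
`v p * v Y * v (x Q₀) ≤ 1`. Contradiction.
-/
import Mathlib
import Fermat.Prelude.Def_FLTPrelim_GaloisRep

set_option autoImplicit false

namespace Fermat.Agent.S13.AtPSuper

open Polynomial WeierstrassCurve WeierstrassCurve.Affine

/-! ### A polynomial / valuation inequality -/

section Poly

variable {K : Type*} [Field K] {Γ₀ : Type*} [LinearOrderedCommGroupWithZero Γ₀]
  (v : Valuation K Γ₀)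

theorem one_le_multiset_prod_map {m : Multiset K} (h : ∀ ρ ∈ m, 1 ≤ v ρ) :
    1 ≤ (m.map v).prod := by
  induction m using Multiset.induction_on with
  | empty => simp
  | cons a s ih =>
    rw [Multiset.map_cons, Multiset.prod_cons]
    have h1 : 1 ≤ v a := h a (Multiset.mem_cons_self a s)
    have h2 : 1 ≤ (s.map v).prod := ih fun ρ hρ => h ρ (Multiset.mem_cons_of_mem hρ)
    calc (1 : Γ₀) = 1 * 1 := (mul_one 1).symm
      _ ≤ v a * (s.map v).prod := mul_le_mul' h1 h2

/-- If `f` splits, all roots have `1 ≤ v`, and `S` is a finite set of (distinct) roots, then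
`v (lc f) * ∏_{ρ ∈ S} v ρ ≤ v (f.coeff 0)`. -/
theorem val_leadingCoeff_mul_prod_le [DecidableEq K] {f : K[X]} (hf : f.Splits)
    (hroots : ∀ ρ ∈ f.roots, 1 ≤ v ρ) (S : Finset K) (hS : ∀ ρ ∈ S, ρ ∈ f.roots) :
    v f.leadingCoeff * ∏ ρ ∈ S, v ρ ≤ v (f.coeff 0) := by
  have hle : S.val ≤ f.roots := (Multiset.le_iff_subset S.nodup).mpr fun ρ hρ => hS ρ hρ
  have hdec : f.roots = S.val + (f.roots - S.val) := (add_tsub_cancel_of_le hle).symm
  have hrest : ∀ ρ ∈ f.roots - S.val, 1 ≤ v ρ := fun ρ hρ =>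
    hroots ρ (Multiset.mem_of_le (Multiset.sub_le_self _ _) hρ)
  rw [hf.coeff_zero_eq_leadingCoeff_mul_prod_roots, map_mul, map_mul, map_pow,
    Valuation.map_neg, map_one, one_pow, one_mul]
  have hprod : v f.roots.prod = (S.val.map v).prod * ((f.roots - S.val).map v).prod := by
    conv_lhs => rw [hdec]
    rw [Multiset.prod_add, map_mul, map_multiset_prod, map_multiset_prod]
  rw [hprod]
  have h1 := one_le_multiset_prod_map v hrest
  have h2 : ∏ ρ ∈ S, v ρ = (S.val.map v).prod := rfl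
  rw [h2]
  calc v f.leadingCoeff * (S.val.map v).prod
      = v f.leadingCoeff * ((S.val.map v).prod * 1) := by rw [mul_one]
    _ ≤ v f.leadingCoeff * ((S.val.map v).prod * ((f.roots - S.val).map v).prod) :=
        mul_le_mul' le_rfl (mul_le_mul' le_rfl h1)

end Poly

/-! ### Valuations of rational numbers -/

section Rat

variable {K : Type*} [Field K] [CharZero K] {Γ₀ : Type*} [LinearOrderedCommGroupWithZero Γ₀]
  (v : Valuation K Γ₀)

/-- A rational number of valuation `> 1` at a place over `p` has valuation `≥ (v p)⁻¹`. -/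
theorem one_le_val_p_mul_of_one_lt {p : ℕ} (hp : p.Prime) (hint : ∀ n : ℤ, v (n : K) ≤ 1)
    (hunit : ∀ n : ℤ, ¬ (p : ℤ) ∣ n → v (n : K) = 1) (y : ℚ) (hy : 1 < v (y : K)) :
    1 ≤ v (p : K) * v (y : K) := by
  have hden0 : (y.den : K) ≠ 0 := by exact_mod_cast y.den_pos.ne'
  have hvden0 : v (y.den : K) ≠ 0 := (Valuation.ne_zero_iff v).mpr hden0
  have hvdenpos : 0 < v (y.den : K) := zero_lt_iff.mpr hvden0
  have hyK : (y : K) = (y.num : K) / (y.den : K) := by
    conv_lhs => rw [← Rat.num_div_den y]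
    push_cast; rfl
  have hvy : v (y : K) = v (y.num : K) / v (y.den : K) := by rw [hyK, map_div₀]
  -- `p ∣ den`
  have hpden : (p : ℤ) ∣ (y.den : ℤ) := by
    by_contra hnd
    have h1 : v ((y.den : ℤ) : K) = 1 := hunit _ hnd
    have h1' : v (y.den : K) = 1 := by simpa using h1
    rw [hvy, h1', div_one] at hy
    exact absurd (hint y.num) (not_le.mpr hy)
  -- hence `p ∤ num`
  have hpnum : ¬ (p : ℤ) ∣ y.num := by
    intro hdn
    have hcop : IsCoprime y.num (y.den : ℤ) := by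
      rw [Int.isCoprime_iff_gcd_eq_one]
      have := y.reduced
      simpa [Int.gcd, Nat.Coprime] using this
    have hunitp : IsUnit (p : ℤ) := hcop.isUnit_of_dvd' hdn hpden
    have : (p : ℤ).natAbs = 1 := Int.isUnit_iff_natAbs_eq.mp hunitp
    simp at this
    exact hp.one_lt.ne' this
  have hvnum : v (y.num : K) = 1 := hunit _ hpnum
  obtain ⟨d, hd⟩ := hpden
  have hdenK : (y.den : K) = (p : K) * (d : K) := by
    have : ((y.den : ℤ) : K) = (((p : ℤ) * d : ℤ) : K) := by rw [hd]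
    push_cast at this
    exact this
  have hvden : v (y.den : K) ≤ v (p : K) := by
    rw [hdenK, map_mul]
    calc v (p : K) * v (d : K) ≤ v (p : K) * 1 := mul_le_mul' le_rfl (hint d)
      _ = v (p : K) := mul_one _
  rw [hvy, hvnum, mul_one_div, one_le_div₀ hvdenpos]
  exact hvden

end Rat

/-! ### Galois-stable finite sets have rational products -/

section Galois

local notation "Qbar" => AlgebraicClosure ℚ

theorem isAlgClosure_rat' :
    letI : Algebra ℚ Qbar := DivisionRing.toRatAlgebra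
    IsAlgClosure ℚ Qbar := by
  have h : (DivisionRing.toRatAlgebra : Algebra ℚ Qbar) =
      AlgebraicClosure.instAlgebra ℚ := Subsingleton.elim _ _
  rw [h]
  infer_instance

/-- An element of `Qbar` fixed by all automorphisms is rational. -/
theorem exists_rat_of_fixed' (x : Qbar) (h : ∀ σ : Qbar ≃ₐ[ℚ] Qbar, σ x = x) :
    ∃ q : ℚ, algebraMap ℚ Qbar q = x := by
  have := isAlgClosure_rat'
  have h1 := InfiniteGalois.fixedField_fixingSubgroup (k := ℚ) (K := Qbar) ⊥
  have hx : x ∈ IntermediateField.fixedField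
      ((⊥ : IntermediateField ℚ Qbar).fixingSubgroup) := by
    intro σ
    exact h σ
  rw [h1] at hx
  exact IntermediateField.mem_bot.mp hx

/-- The product of a finite Galois-stable set of algebraic numbers is rational. -/
theorem exists_rat_prod_of_stable (X : Finset Qbar)
    (hX : ∀ σ : Qbar ≃ₐ[ℚ] Qbar, ∀ ξ ∈ X, σ ξ ∈ X) :
    ∃ q : ℚ, algebraMap ℚ Qbar q = ∏ ξ ∈ X, ξ := by
  classical
  apply exists_rat_of_fixed'
  intro σ
  rw [map_prod]
  have himg : X.image (fun ξ => σ ξ) = X := by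
    apply Finset.eq_of_subset_of_card_le
    · intro ξ hξ
      obtain ⟨η, hη, rfl⟩ := Finset.mem_image.mp hξ
      exact hX σ η hη
    · rw [Finset.card_image_of_injective _ σ.injective]
  conv_rhs => rw [← himg]
  rw [Finset.prod_image]
  intro a _ b _ hab
  exact σ.injective hab

end Galois

/-! ### Integrality of the coefficients of division polynomials -/

section Integral

variable {K : Type*} [Field K]

/-- If the coefficients of `W` lie in a subring `A`, so do all coefficients of `preΨ n`. -/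
theorem coeff_preΨ_mem (A : Subring K) (W : WeierstrassCurve K) (h₁ : W.a₁ ∈ A) (h₂ : W.a₂ ∈ A)
    (h₃ : W.a₃ ∈ A) (h₄ : W.a₄ ∈ A) (h₆ : W.a₆ ∈ A) (n : ℤ) (i : ℕ) :
    (W.preΨ n).coeff i ∈ A := by
  let WA : WeierstrassCurve A := ⟨⟨W.a₁, h₁⟩, ⟨W.a₂, h₂⟩, ⟨W.a₃, h₃⟩, ⟨W.a₄, h₄⟩, ⟨W.a₆, h₆⟩⟩
  have hW : WA.map A.subtype = W := by
    ext <;> rfl
  rw [← hW, WeierstrassCurve.map_preΨ, Polynomial.coeff_map]
  exact (WA.preΨ n |>.coeff i).2

end Integral

/-! ### The main statement -/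

section Main

local notation "Qbar" => AlgebraicClosure ℚ

variable {W' : Affine ℚ}

/-- `x`-coordinate of a point (`0` for the point at infinity). -/
noncomputable def xc : (W'⁄Qbar).Point → Qbar
  | .zero => 0
  | .some x _ _ => x

theorem xc_smul (σ : Qbar ≃ₐ[ℚ] Qbar) (P : (W'⁄Qbar).Point) : xc (σ • P) = σ (xc P) := by
  rcases P with _ | ⟨x, y, h⟩
  · show (0 : Qbar) = σ 0
    rw [map_zero]
  · rfl

theorem one_lt_finset_prod {Γ₀ : Type*} [LinearOrderedCommGroupWithZero Γ₀] {ι : Type*}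
    (s : Finset ι) (f : ι → Γ₀) (hs : s.Nonempty) (h : ∀ i ∈ s, 1 < f i) :
    1 < ∏ i ∈ s, f i := by
  classical
  induction hs using Finset.Nonempty.cons_induction with
  | singleton a => simpa using h a (Finset.mem_singleton_self a)
  | cons a s ha hs ih =>
    rw [Finset.prod_cons]
    have h1 : 1 < f a := h a (Finset.mem_cons_self a s)
    have h2 : 1 < ∏ i ∈ s, f i := ih fun i hi => h i (Finset.mem_cons.mpr (Or.inr hi))
    calc (1 : Γ₀) < f a := h1
      _ = f a * 1 := (mul_one _).symm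
      _ ≤ f a * ∏ i ∈ s, f i := mul_le_mul' le_rfl h2.le

/-- **A3-super.** Let `v` be a valuation on `Qbar` over the odd prime `p`. Assume that the nonzero
`p`-torsion points of `E = W'/ℚ` are exactly the points whose `x`-coordinate is a root of
`preΨ_p`, that all of them lie in the kernel of reduction (`1 < v x`), and that the constant
coefficient of `preΨ_p` is integral. Then a nonempty finite Galois-stable set `T` of nonzero
`p`-torsion points contains `Q₀` or `-Q₀` for every nonzero `p`-torsion point `Q₀`. -/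
theorem mem_or_neg_mem_of_stable {Γ₀ : Type*} [LinearOrderedCommGroupWithZero Γ₀]
    (v : Valuation Qbar Γ₀) {p : ℕ} (hp : p.Prime) (hp2 : p ≠ 2)
    (hint : ∀ n : ℤ, v (n : Qbar) ≤ 1) (hunit : ∀ n : ℤ, ¬ (p : ℤ) ∣ n → v (n : Qbar) = 1)
    (hlink : ∀ (x y : Qbar) (h : (W'⁄Qbar).Nonsingular x y),
      p • Point.some x y h = 0 ↔ ((W'⁄Qbar).preΨ p).eval x = 0)
    (hns : ∀ x : Qbar, ∃ y, (W'⁄Qbar).Nonsingular x y)
    (hker : ∀ (x y : Qbar) (h : (W'⁄Qbar).Nonsingular x y),
      p • Point.some x y h = 0 → 1 < v x)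
    (hcoeff : v (((W'⁄Qbar).preΨ p).coeff 0) ≤ 1)
    (T : Set (W'⁄Qbar).Point) (hTfin : T.Finite) (hTne : T.Nonempty)
    (hT0 : ∀ P ∈ T, P ≠ 0) (hTp : ∀ P ∈ T, p • P = 0)
    (hTstab : ∀ σ : Qbar ≃ₐ[ℚ] Qbar, ∀ P ∈ T, σ • P ∈ T)
    (Q₀ : (W'⁄Qbar).Point) (hQ₀ : Q₀ ≠ 0) (hQ₀p : p • Q₀ = 0) :
    Q₀ ∈ T ∨ -Q₀ ∈ T := by
  classical
  by_contra hcon
  rw [not_or] at hcon
  obtain ⟨hQ₀T, hQ₀T'⟩ := hcon
  -- the finite set of `x`-coordinates
  set X : Finset Qbar := (hTfin.image xc).toFinset with hXdef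
  have hXmem : ∀ ξ, ξ ∈ X ↔ ∃ P ∈ T, xc P = ξ := by
    intro ξ
    rw [hXdef, Set.Finite.mem_toFinset]
    exact Iff.rfl
  have hXstab : ∀ σ : Qbar ≃ₐ[ℚ] Qbar, ∀ ξ ∈ X, σ ξ ∈ X := by
    intro σ ξ hξ
    obtain ⟨P, hP, rfl⟩ := (hXmem ξ).mp hξ
    exact (hXmem _).mpr ⟨σ • P, hTstab σ P hP, xc_smul σ P⟩
  have hXne : X.Nonempty := by
    obtain ⟨P, hP⟩ := hTne
    exact ⟨xc P, (hXmem _).mpr ⟨P, hP, rfl⟩⟩
  -- every element of `X` is a root of `preΨ_p` of valuation `> 1`
  have hXroot : ∀ ξ ∈ X, ((W'⁄Qbar).preΨ p).eval ξ = 0 ∧ 1 < v ξ := by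
    intro ξ hξ
    obtain ⟨P, hP, rfl⟩ := (hXmem ξ).mp hξ
    have hP0 := hT0 P hP
    have hPp := hTp P hP
    rcases P with _ | ⟨x, y, h⟩
    · exact absurd rfl hP0
    · exact ⟨(hlink x y h).mp hPp, hker x y h hPp⟩
  -- the product is rational
  obtain ⟨q, hq⟩ := exists_rat_prod_of_stable X hXstab
  have hqcast : ((q : ℚ) : Qbar) = ∏ ξ ∈ X, ξ := by
    rw [← hq]; exact (eq_ratCast (algebraMap ℚ Qbar) q).symm
  have hvY : 1 < v (∏ ξ ∈ X, ξ) := by
    rw [map_prod]
    exact one_lt_finset_prod X (fun ξ => v ξ) hXne fun ξ hξ => (hXroot ξ hξ).2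
  have hpY : 1 ≤ v (p : Qbar) * v (∏ ξ ∈ X, ξ) := by
    rw [← hqcast]
    exact one_le_val_p_mul_of_one_lt v hp hint hunit q (by rw [hqcast]; exact hvY)
  -- the point `Q₀`
  rcases Q₀ with _ | ⟨x₀, y₀, h₀⟩
  · exact hQ₀ rfl
  have hx₀root : ((W'⁄Qbar).preΨ p).eval x₀ = 0 := (hlink x₀ y₀ h₀).mp hQ₀p
  have hx₀v : 1 < v x₀ := hker x₀ y₀ h₀ hQ₀p
  have hx₀X : x₀ ∉ X := by
    intro hmem
    obtain ⟨P, hP, hxP⟩ := (hXmem x₀).mp hmem
    have hP0 := hT0 P hP
    rcases P with _ | ⟨x, y, h⟩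
    · exact hP0 rfl
    · have hx : x = x₀ := hxP
      subst hx
      rcases Affine.Y_eq_of_X_eq h₀.1 h.1 rfl with hy | hy
      · subst hy
        exact hQ₀T hP
      · apply hQ₀T'
        have : -Point.some x y₀ h₀ = Point.some x y h := by
          rw [Point.neg_some]
          congr 1
          rw [hy, Affine.negY_negY]
        rw [this]; exact hP
  -- the polynomial
  set f : Qbar[X] := (W'⁄Qbar).preΨ p with hfdef
  have hpK : ((p : ℤ) : Qbar) ≠ 0 := by
    have : (p : Qbar) ≠ 0 := by exact_mod_cast hp.ne_zero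
    simpa using this
  have hf0 : f ≠ 0 := (W'⁄Qbar).preΨ_ne_zero hpK
  have hodd : ¬ Even (p : ℤ) := by
    intro he
    have : Even p := by exact_mod_cast he
    exact hp2 ((Nat.Prime.even_iff hp).mp this)
  have hlc : f.leadingCoeff = (p : Qbar) := by
    rw [hfdef, (W'⁄Qbar).leadingCoeff_preΨ hpK, if_neg hodd]
    simp
  have hsplit : f.Splits := IsAlgClosed.splits f
  have hroots : ∀ ρ ∈ f.roots, 1 ≤ v ρ := by
    intro ρ hρ
    have hρ' : f.eval ρ = 0 := (Polynomial.mem_roots hf0).mp hρ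
    obtain ⟨y, hy⟩ := hns ρ
    exact (hker ρ y hy ((hlink ρ y hy).mpr hρ')).le
  have hS : ∀ ρ ∈ insert x₀ X, ρ ∈ f.roots := by
    intro ρ hρ
    rw [Polynomial.mem_roots hf0]
    rcases Finset.mem_insert.mp hρ with rfl | hρ
    · exact hx₀root
    · exact (hXroot ρ hρ).1
  have hmain := val_leadingCoeff_mul_prod_le v hsplit hroots (insert x₀ X) hS
  rw [Finset.prod_insert hx₀X, hlc, ← map_prod] at hmain
  have h1 : v (p : Qbar) * (v x₀ * v (∏ ξ ∈ X, ξ)) ≤ 1 := le_trans hmain hcoeff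
  have h2 : (1 : Γ₀) < v (p : Qbar) * (v x₀ * v (∏ ξ ∈ X, ξ)) := by
    calc (1 : Γ₀) < v x₀ := hx₀v
      _ = v x₀ * 1 := (mul_one _).symm
      _ ≤ v x₀ * (v (p : Qbar) * v (∏ ξ ∈ X, ξ)) := mul_le_mul' le_rfl hpY
      _ = v (p : Qbar) * (v x₀ * v (∏ ξ ∈ X, ξ)) := by ac_rfl
  exact absurd h1 (not_le.mpr h2)

end Main

end Fermat.Agent.S13.AtPSuper
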