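/-
Program A (S13), piece A3e (helper10): wrapper of `AtPSuper.mem_or_neg_mem_of_stable` in the shape
consumed by the assembly at `p` (`LocalP.lean`).

If EVERY nonzero `p`-torsion point of `E/ℚ` (integral Weierstrass coefficients at `p`, `Δ ≠ 0`,
`p` odd) lies in the kernel of reduction at a place `A` of `Qbar` over `p` (`1 < v x`), then the
`p`-torsion module has no Galois-stable submodule `N` with `N ≠ ⊥`, `N ≠ ⊤`.

* `no_stable_line_of_integral` : general `W' : Affine ℚ`.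
* `freyCurve_Δ`, `freyCurve_Δ_ne_zero`, integrality of the Frey coefficients at odd places.
* `no_stable_line` : the Frey curve.
-/
import Mathlib
import Fermat.Prelude.Def_FLTPrelim_Ramification
import Fermat.Agent.S05.Inertia
import Fermat.Agent.S13.AtPSuper
import Fermat.Agent.DivPoly.Count

set_option autoImplicit false

namespace Fermat.Agent.S13.AtPSuperFrey

open WeierstrassCurve WeierstrassCurve.Affine WeierstrassCurve.Affine.Point
open Fermat.Agent.S05.Inertia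
open Fermat.Agent.DivPoly.Count (TorsionIff)

local notation "Qbar" => AlgebraicClosure ℚ

/-- **A3e, general curve.** -/
theorem no_stable_line_of_integral (W' : Affine ℚ) {p : ℕ} (hp : p.Prime) (hp2 : p ≠ 2)
    (A : ValuationSubring Qbar) (hA : A.LiesOverPrime p) (hΔ : W'.Δ ≠ 0)
    (h₁ : (W'⁄Qbar).a₁ ∈ A) (h₂ : (W'⁄Qbar).a₂ ∈ A) (h₃ : (W'⁄Qbar).a₃ ∈ A)
    (h₄ : (W'⁄Qbar).a₄ ∈ A) (h₆ : (W'⁄Qbar).a₆ ∈ A)
    (hA1b : TorsionIff (W'⁄Qbar) p)
    (hV1 : ∀ (x y : Qbar) (h : (W'⁄Qbar).Nonsingular x y),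
      p • Point.some x y h = 0 → 1 < A.valuation x)
    (N : Submodule (ZMod p) (Submodule.torsionBy ℤ (W'⁄Qbar).Point p))
    (hN : IsGaloisStable ℚ N) (hbot : N ≠ ⊥) (htop : N ≠ ⊤) : False := by
  classical
  have hpQ : ((p : ℕ) : Qbar) ≠ 0 := by exact_mod_cast hp.ne_zero
  have hodd : Odd p := hp.odd_of_ne_two hp2
  have hΔ' : (W'⁄Qbar).Δ ≠ 0 := by
    change (W'.map (algebraMap ℚ Qbar)).Δ ≠ 0
    rw [WeierstrassCurve.map_Δ]
    exact fun h => hΔ ((algebraMap ℚ Qbar).injective (by rw [h, _root_.map_zero]))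
  -- the stable set
  set T : Set (W'⁄Qbar).Point :=
    {Q | Q ≠ 0 ∧ ∃ hQ : Q ∈ Submodule.torsionBy ℤ (W'⁄Qbar).Point p, (⟨Q, hQ⟩ : _) ∈ N} with hT
  have htors : ∀ Q : (W'⁄Qbar).Point,
      Q ∈ Submodule.torsionBy ℤ (W'⁄Qbar).Point p ↔ p • Q = 0 := fun Q =>
    Fermat.Agent.DivPoly.Count.mem_torsionBy_iff_nsmul Q
  have hTfin : T.Finite := by
    refine (Fermat.Agent.DivPoly.Count.torsion_finite_ncard_le hodd hpQ hA1b).1.subset ?_
    rintro Q ⟨_, hQ, _⟩
    exact (htors Q).mp hQ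
  have hTne : T.Nonempty := by
    obtain ⟨x, hxN, hx0⟩ := (Submodule.ne_bot_iff N).mp hbot
    refine ⟨x.1, fun h => hx0 (Subtype.ext h), x.2, hxN⟩
  -- a point outside `N`
  obtain ⟨Q₀, hQ₀N⟩ : ∃ Q₀ : Submodule.torsionBy ℤ (W'⁄Qbar).Point p, Q₀ ∉ N := by
    by_contra hcon
    exact htop (eq_top_iff.mpr fun x _ => not_not.mp fun hx => hcon ⟨x, hx⟩)
  have hQ₀0 : Q₀.1 ≠ 0 := by
    intro h
    apply hQ₀N
    have : Q₀ = 0 := Subtype.ext h
    rw [this]
    exact N.zero_mem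
  have hmain := AtPSuper.mem_or_neg_mem_of_stable (W' := W') A.valuation hp hp2
    (fun n => valuation_intCast_le_one n) (fun n hn => valuation_intCast_eq_one hp hA hn)
    (fun x y h => by
      have := hA1b x y h
      rwa [← WeierstrassCurve.preΨ_ofNat] at this)
    (fun x => by
      obtain ⟨y, hy⟩ := Fermat.Agent.S51.exists_equation (W'⁄Qbar) x
      exact ⟨y, (equation_iff_nonsingular_of_Δ_ne_zero hΔ').mp hy⟩)
    hV1
    ((ValuationSubring.valuation_le_one_iff A _).mpr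
      (AtPSuper.coeff_preΨ_mem A.toSubring (W'⁄Qbar) h₁ h₂ h₃ h₄ h₆ (p : ℤ) 0))
    T hTfin hTne (fun Q hQ => hQ.1) (fun Q hQ => (htors Q).mp hQ.2.1)
    (fun σ Q hQ => by
      obtain ⟨hQ0, hQt, hQN⟩ := hQ
      refine ⟨?_, ?_, ?_⟩
      · intro h
        exact hQ0 ((smul_eq_zero_iff_eq σ).mp h)
      · exact smul_mem_torsionBy σ hQt
      · exact hN σ ⟨Q, hQt⟩ hQN)
    Q₀.1 hQ₀0 ((htors _).mp Q₀.2)
  rcases hmain with h | h
  · obtain ⟨_, _, h3⟩ := h
    exact hQ₀N h3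
  · obtain ⟨_, h2, h3⟩ := h
    apply hQ₀N
    have : Q₀ = -(⟨-Q₀.1, h2⟩ : Submodule.torsionBy ℤ (W'⁄Qbar).Point p) := by
      apply Subtype.ext
      simp
    rw [this]
    exact N.neg_mem h3

/-! ### The Frey curve -/

theorem freyCurve_Δ (P : FreyPackage) :
    P.freyCurve.Δ = ((P.a : ℚ) ^ P.p) ^ 2 * ((P.b : ℚ) ^ P.p) ^ 2 * ((P.c : ℚ) ^ P.p) ^ 2 / 256 := by
  have h : (P.c : ℚ) ^ P.p = (P.a : ℚ) ^ P.p + (P.b : ℚ) ^ P.p := by
    exact_mod_cast P.hFLT.symm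
  rw [h]
  simp only [WeierstrassCurve.Δ, WeierstrassCurve.b₂, WeierstrassCurve.b₄, WeierstrassCurve.b₆,
    WeierstrassCurve.b₈, FreyPackage.freyCurve]
  ring

theorem freyCurve_Δ_ne_zero (P : FreyPackage) : P.freyCurve.Δ ≠ 0 := by
  rw [freyCurve_Δ]
  have ha : (P.a : ℚ) ≠ 0 := by exact_mod_cast P.ha0
  have hb : (P.b : ℚ) ≠ 0 := by exact_mod_cast P.hb0
  have hc : (P.c : ℚ) ≠ 0 := by exact_mod_cast P.hc0
  positivity

section FreyIntegral

variable (P : FreyPackage) (A : ValuationSubring Qbar)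

theorem frey_a₁_mem : (P.freyCurve⁄Qbar).a₁ ∈ A := by
  change algebraMap ℚ Qbar P.freyCurve.a₁ ∈ A
  have : P.freyCurve.a₁ = 1 := rfl
  rw [this, map_one]
  exact A.one_mem

theorem frey_a₃_mem : (P.freyCurve⁄Qbar).a₃ ∈ A := by
  change algebraMap ℚ Qbar P.freyCurve.a₃ ∈ A
  have : P.freyCurve.a₃ = 0 := rfl
  rw [this, _root_.map_zero]
  exact A.zero_mem

theorem frey_a₆_mem : (P.freyCurve⁄Qbar).a₆ ∈ A := by
  change algebraMap ℚ Qbar P.freyCurve.a₆ ∈ A
  have : P.freyCurve.a₆ = 0 := rfl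
  rw [this, _root_.map_zero]
  exact A.zero_mem

variable {A} {q : ℕ}

theorem frey_a₂_mem (hq : q.Prime) (hq2 : q ≠ 2) (hA : A.LiesOverPrime q) :
    (P.freyCurve⁄Qbar).a₂ ∈ A := by
  change algebraMap ℚ Qbar P.freyCurve.a₂ ∈ A
  have h : P.freyCurve.a₂ = ((P.b ^ P.p - 1 - P.a ^ P.p : ℤ) : ℚ) / ((4 : ℕ) : ℚ) := by
    simp [FreyPackage.freyCurve]
  rw [h, map_div₀, map_intCast, map_natCast, ← ValuationSubring.valuation_le_one_iff, map_div₀,
    valuation_natCast_eq_one hq hA (n := 4) (by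
      intro hd
      have : q ∣ 2 := by
        have h4 : q ∣ 2 * 2 := by simpa using hd
        rcases (Nat.Prime.dvd_mul hq).mp h4 with h | h <;> exact h
      exact hq2 ((Nat.prime_dvd_prime_iff_eq hq Nat.prime_two).mp this)), div_one]
  exact valuation_intCast_le_one _

theorem frey_a₄_mem (hq : q.Prime) (hq2 : q ≠ 2) (hA : A.LiesOverPrime q) :
    (P.freyCurve⁄Qbar).a₄ ∈ A := by
  change algebraMap ℚ Qbar P.freyCurve.a₄ ∈ A
  have h : P.freyCurve.a₄ = ((-(P.a ^ P.p) * (P.b ^ P.p) : ℤ) : ℚ) / ((16 : ℕ) : ℚ) := by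
    simp [FreyPackage.freyCurve]
  rw [h, map_div₀, map_intCast, map_natCast, ← ValuationSubring.valuation_le_one_iff, map_div₀,
    valuation_natCast_eq_one hq hA (n := 16) (by
      intro hd
      have : q ∣ 2 := by
        have h16 : q ∣ 2 ^ 4 := by simpa using hd
        exact hq.dvd_of_dvd_pow h16
      exact hq2 ((Nat.prime_dvd_prime_iff_eq hq Nat.prime_two).mp this)), div_one]
  exact valuation_intCast_le_one _

end FreyIntegral

/-- **A3e for the Frey curve** (shape of helper28 #409, with `hA1b` as `Count.TorsionIff`). -/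
theorem no_stable_line (P : FreyPackage) (A : ValuationSubring Qbar) (hA : A.LiesOverPrime P.p)
    (hA1b : TorsionIff (P.freyCurve⁄Qbar) P.p)
    (hV1 : ∀ (x y : Qbar) (h : (P.freyCurve⁄Qbar).Nonsingular x y),
      P.p • Point.some x y h = 0 → 1 < A.valuation x)
    (N : Submodule (ZMod P.p) (Submodule.torsionBy ℤ (P.freyCurve⁄Qbar).Point P.p))
    (hN : IsGaloisStable ℚ N) (hbot : N ≠ ⊥) (htop : N ≠ ⊤) : False := by
  have hp2 : P.p ≠ 2 := by have := P.hp5; omega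
  exact no_stable_line_of_integral P.freyCurve P.pp hp2 A hA (freyCurve_Δ_ne_zero P)
    (frey_a₁_mem P A) (frey_a₂_mem P P.pp hp2 hA) (frey_a₃_mem P A) (frey_a₄_mem P P.pp hp2 hA)
    (frey_a₆_mem P A) hA1b hV1 N hN hbot htop

/-- Same with the link stated with `preΨ` at the integer `p` (the literal shape of #409). -/
theorem no_stable_line' (P : FreyPackage) (A : ValuationSubring Qbar) (hA : A.LiesOverPrime P.p)
    (hA1b : ∀ (x y : Qbar) (h : (P.freyCurve⁄Qbar).Nonsingular x y),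
      P.p • Point.some x y h = 0 ↔ ((P.freyCurve⁄Qbar).preΨ (P.p : ℤ)).eval x = 0)
    (hV1 : ∀ (x y : Qbar) (h : (P.freyCurve⁄Qbar).Nonsingular x y),
      P.p • Point.some x y h = 0 → 1 < A.valuation x)
    (N : Submodule (ZMod P.p) (Submodule.torsionBy ℤ (P.freyCurve⁄Qbar).Point P.p))
    (hN : IsGaloisStable ℚ N) (hbot : N ≠ ⊥) (htop : N ≠ ⊤) : False :=
  no_stable_line P A hA (fun x y h => by
    have := hA1b x y h
    rwa [WeierstrassCurve.preΨ_ofNat] at this) hV1 N hN hbot htop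

end Fermat.Agent.S13.AtPSuperFrey
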