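/-
S13, piece A2 (helper25): the Frey curve at the prime `2`.

* integer facts on the coefficients of the Frey curve `y² + xy = x³ + a₂x² + a₄x`,
  `a₂ = (b^p - 1 - a^p)/4`, `a₄ = -a^p b^p/16` (`a ≡ 3 mod 4`, `b` even, `p ≥ 5`);
* `nodeShape_of_coeffs`: for any valued field `(K, v)` of characteristic `0` whose valuation lies
  over `2` (`FreyArith.LiesOver v 2`), any curve with these coefficients has `Node.NodeShape`;
* instances: `P.freyCurve` over `ℚ` with `Rat.padicValuation 2`, and `P.freyCurve⁄K`.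
-/
import Fermat.Agent.S13.NodeBasic
import Fermat.Agent.S05.FreyArith

set_option autoImplicit false

open WeierstrassCurve WeierstrassCurve.Affine

namespace Fermat.Agent.S13.Frey2

open Fermat.Agent.S05 Fermat.Agent.S13.Node

variable (P : FreyPackage)

/-! ### Integer facts -/

theorem b_even : (2 : ℤ) ∣ P.b := (ZMod.intCast_zmod_eq_zero_iff_dvd P.b 2).1 P.hb2

theorem a_odd : ¬ (2 : ℤ) ∣ P.a := by
  intro h
  obtain ⟨c, hc⟩ := h
  have h4 := P.ha4
  rw [hc] at h4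
  push_cast at h4
  -- `2 * c = 3` in `ZMod 4` is impossible
  have key : ∀ z : ZMod 4, (2 : ZMod 4) * z ≠ 3 := by decide
  exact key _ h4

theorem a_pow_mod_four : ((P.a ^ P.p : ℤ) : ZMod 4) = 3 := by
  push_cast
  rw [P.ha4]
  obtain ⟨k, hk⟩ := P.hp_odd
  rw [hk, pow_succ, pow_mul]
  have h9 : (3 : ZMod 4) ^ 2 = 1 := by decide
  rw [h9, one_pow, one_mul]

theorem exists_b_pow : ∃ m : ℤ, P.b ^ P.p = 32 * m := by
  obtain ⟨c, hc⟩ := b_even P
  have h5 := P.hp5
  obtain ⟨k, hk⟩ : ∃ k, P.p = 5 + k := ⟨P.p - 5, by omega⟩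
  refine ⟨2 ^ k * c ^ P.p, ?_⟩
  rw [hc, mul_pow]
  have h2 : (2 : ℤ) ^ P.p = 32 * 2 ^ k := by rw [hk, pow_add]; norm_num
  rw [h2]; ring

/-- `b^p - 1 - a^p` is divisible by `4`. -/
theorem exists_a2 : ∃ m : ℤ, P.b ^ P.p - 1 - P.a ^ P.p = 4 * m := by
  have h : (((P.b ^ P.p - 1 - P.a ^ P.p : ℤ)) : ZMod 4) = 0 := by
    obtain ⟨m, hm⟩ := exists_b_pow P
    have ha := a_pow_mod_four P
    rw [Int.cast_sub, Int.cast_sub, ha, hm]
    push_cast
    have : (32 : ZMod 4) = 0 := by decide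
    rw [this, zero_mul]
    decide
  exact (ZMod.intCast_zmod_eq_zero_iff_dvd _ 4).1 h

/-- `a^p b^p` is divisible by `32`. -/
theorem exists_a4 : ∃ m : ℤ, P.a ^ P.p * P.b ^ P.p = 32 * m := by
  obtain ⟨m, hm⟩ := exists_b_pow P
  exact ⟨P.a ^ P.p * m, by rw [hm]; ring⟩

/-- `b₂ = b^p - a^p` is odd. -/
theorem b2_odd : ¬ (2 : ℤ) ∣ P.b ^ P.p - P.a ^ P.p := by
  intro h
  have hb : (2 : ℤ) ∣ P.b ^ P.p := dvd_pow (b_even P) P.hp0
  have ha : (2 : ℤ) ∣ P.a ^ P.p := by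
    have := dvd_sub hb h
    rwa [sub_sub_cancel] at this
  exact a_odd P (Int.prime_two.dvd_of_dvd_pow ha)

/-! ### Node shape -/

section generic

variable {K : Type*} [Field K] {Γ₀ : Type*} [LinearOrderedCommGroupWithZero Γ₀]
  {v : Valuation K Γ₀}

theorem val_two_lt_one (hv : FreyArith.LiesOver v 2) : v (2 : K) < 1 := by
  have := (hv.lt_one_iff 2).mpr (by norm_num)
  simpa using this

theorem val_a_eq_one (hv : FreyArith.LiesOver v 2) : v (P.a : K) = 1 :=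
  hv.eq_one (by exact_mod_cast a_odd P)

/-- Any curve with the coefficients of the Frey curve has nodal shape at `2`. -/
theorem nodeShape_of_coeffs [CharZero K] (hv : FreyArith.LiesOver v 2) (W : Affine K)
    (h1 : W.a₁ = 1) (h3 : W.a₃ = 0) (h6 : W.a₆ = 0)
    (h2 : 4 * W.a₂ = (P.b : K) ^ P.p - 1 - (P.a : K) ^ P.p)
    (h4 : 16 * W.a₄ = -((P.a : K) ^ P.p * (P.b : K) ^ P.p)) : NodeShape v W := by
  obtain ⟨m₂, hm₂⟩ := exists_a2 P
  obtain ⟨m₄, hm₄⟩ := exists_a4 P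
  have e2 : W.a₂ = (m₂ : K) := by
    have h := congrArg (fun z : ℤ => (z : K)) hm₂
    simp only [Int.cast_sub, Int.cast_pow, Int.cast_one, Int.cast_mul, Int.cast_ofNat] at h
    have h4' : (4 : K) ≠ 0 := by norm_num
    apply mul_left_cancel₀ h4'
    rw [h2, h]
  have e4 : W.a₄ = -(2 * (m₄ : K)) := by
    have h := congrArg (fun z : ℤ => (z : K)) hm₄
    simp only [Int.cast_pow, Int.cast_mul, Int.cast_ofNat] at h
    have h16 : (16 : K) ≠ 0 := by norm_num
    apply mul_left_cancel₀ h16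
    rw [h4, h]; ring
  have hm₄0 : m₄ ≠ 0 := by
    rintro rfl
    have : P.a ^ P.p * P.b ^ P.p ≠ 0 :=
      mul_ne_zero (pow_ne_zero _ P.ha0) (pow_ne_zero _ P.hb0)
    exact this (by rw [hm₄]; ring)
  refine ⟨h3, h6, ?_, ?_, ?_, ?_, ?_⟩
  · rw [h1, map_one]
  · rw [e2]; exact hv.le_one m₂
  · rw [e4, Valuation.map_neg, map_mul]
    calc v 2 * v (m₄ : K) ≤ v 2 * 1 := by gcongr; exact hv.le_one m₄
      _ = v 2 := mul_one _
      _ < 1 := val_two_lt_one hv
  · rw [e4]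
    have : (m₄ : K) ≠ 0 := by exact_mod_cast hm₄0
    exact neg_ne_zero.mpr (mul_ne_zero two_ne_zero this)
  · have hb2 : W.b₂ = ((P.b ^ P.p - P.a ^ P.p : ℤ) : K) := by
      simp only [WeierstrassCurve.b₂, h1]
      push_cast
      linear_combination h2
    rw [hb2]
    exact hv.eq_one (b2_odd P)

/-- The valuation of `a₄`: `v a₄ * v 2 ^ 4 = v b ^ p`. -/
theorem val_a4 (hv : FreyArith.LiesOver v 2) (W : Affine K)
    (h4 : 16 * W.a₄ = -((P.a : K) ^ P.p * (P.b : K) ^ P.p)) :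
    v W.a₄ * v 2 ^ 4 = v (P.b : K) ^ P.p := by
  have h := congrArg v h4
  rw [Valuation.map_neg, map_mul, map_mul, map_pow, map_pow, val_a_eq_one P hv, one_pow,
    one_mul] at h
  have h16 : (16 : K) = 2 ^ 4 := by norm_num
  rw [h16, map_pow] at h
  rw [mul_comm]; exact h

end generic

/-! ### Instances -/

/-- The `2`-adic valuation on `ℚ` lies over `2`. -/
theorem liesOver_rat : FreyArith.LiesOver (Rat.padicValuation 2) 2 := by
  refine ⟨fun n => ?_, fun n => ?_⟩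
  · rw [Rat.padicValuation_cast]; exact Int.padicValuation_le_one 2 n
  · rw [Rat.padicValuation_cast]; exact Int.padicValuation_lt_one_iff

theorem freyCurve_coeffs_rat :
    P.freyCurve.a₁ = 1 ∧ P.freyCurve.a₃ = 0 ∧ P.freyCurve.a₆ = 0 ∧
    4 * P.freyCurve.a₂ = (P.b : ℚ) ^ P.p - 1 - (P.a : ℚ) ^ P.p ∧
    16 * P.freyCurve.a₄ = -((P.a : ℚ) ^ P.p * (P.b : ℚ) ^ P.p) := by
  refine ⟨rfl, rfl, rfl, ?_, ?_⟩
  · simp only [FreyPackage.freyCurve]; ring
  · simp only [FreyPackage.freyCurve]; ring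

/-- The Frey curve over `ℚ` has nodal shape for the `2`-adic valuation. -/
theorem nodeShape_rat :
    NodeShape (Rat.padicValuation 2) P.freyCurve.toAffine := by
  obtain ⟨h1, h3, h6, h2, h4⟩ := freyCurve_coeffs_rat P
  exact nodeShape_of_coeffs P liesOver_rat P.freyCurve.toAffine h1 h3 h6 h2 h4

section baseChange

variable {K : Type*} [Field K] [Algebra ℚ K] {Γ₀ : Type*} [LinearOrderedCommGroupWithZero Γ₀]
  {v : Valuation K Γ₀}

theorem freyCurve_coeffs_baseChange :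
    (P.freyCurve⁄K).a₁ = 1 ∧ (P.freyCurve⁄K).a₃ = 0 ∧ (P.freyCurve⁄K).a₆ = 0 ∧
    4 * (P.freyCurve⁄K).a₂ = (P.b : K) ^ P.p - 1 - (P.a : K) ^ P.p ∧
    16 * (P.freyCurve⁄K).a₄ = -((P.a : K) ^ P.p * (P.b : K) ^ P.p) := by
  have : CharZero K := algebraRat.charZero K
  obtain ⟨h1, h3, h6, h2, h4⟩ := freyCurve_coeffs_rat P
  refine ⟨?_, ?_, ?_, ?_, ?_⟩
  · show algebraMap ℚ K P.freyCurve.a₁ = 1
    rw [h1, map_one]
  · show algebraMap ℚ K P.freyCurve.a₃ = 0
    rw [h3, map_zero]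
  · show algebraMap ℚ K P.freyCurve.a₆ = 0
    rw [h6, map_zero]
  · show 4 * algebraMap ℚ K P.freyCurve.a₂ = _
    have := congrArg (algebraMap ℚ K) h2
    simpa using this
  · show 16 * algebraMap ℚ K P.freyCurve.a₄ = _
    have := congrArg (algebraMap ℚ K) h4
    simpa using this

/-- The base change of the Frey curve to a valued field over `2` has nodal shape. -/
theorem nodeShape_baseChange (hv : FreyArith.LiesOver v 2) : NodeShape v (P.freyCurve⁄K) := by
  have : CharZero K := algebraRat.charZero K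
  obtain ⟨h1, h3, h6, h2, h4⟩ := freyCurve_coeffs_baseChange P (K := K)
  exact nodeShape_of_coeffs P hv (P.freyCurve⁄K) h1 h3 h6 h2 h4

theorem val_a4_baseChange (hv : FreyArith.LiesOver v 2) :
    v (P.freyCurve⁄K).a₄ * v 2 ^ 4 = v (P.b : K) ^ P.p := by
  have : CharZero K := algebraRat.charZero K
  exact val_a4 P hv (P.freyCurve⁄K) (freyCurve_coeffs_baseChange P (K := K)).2.2.2.2

end baseChange

end Fermat.Agent.S13.Frey2
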