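/-
Program A (S13), small shared file (helper10): Galois descent to `ℚ` and valuations of rational
numbers at a place of `AlgebraicClosure ℚ` over a prime `p`.

* `rat_of_fixed`        : `x : Qbar` fixed by all of `Gal(Qbar/ℚ)` lies in the range of
                          `algebraMap ℚ Qbar`; `exists_ratCast_of_fixed` is the cast form.
* `valuation_natCast_eq_pow`, `valuation_intCast_eq_pow`, `valuation_ratCast_eq_zpow` :
                          `v n = v p ^ (padic valuation of n)`.
* `valuation_rat`       : `q ≠ 0 → ∃ k : ℤ, v q = v p ^ k`.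
-/
import Mathlib
import Fermat.Prelude.Def_FLTPrelim_Ramification
import Fermat.Agent.S05.Inertia

set_option autoImplicit false

namespace Fermat.Agent.S13.GalRat

open Fermat.Agent.S05.Inertia

section Galois

local notation "Qbar" => AlgebraicClosure ℚ

theorem isAlgClosure_rat :
    letI : Algebra ℚ Qbar := DivisionRing.toRatAlgebra
    IsAlgClosure ℚ Qbar :=
  ⟨inferInstance, isAlgebraic_rat⟩

/-- An element of `Qbar` fixed by all automorphisms is rational. -/
theorem rat_of_fixed (x : Qbar) (h : ∀ σ : Qbar ≃ₐ[ℚ] Qbar, σ x = x) :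
    x ∈ Set.range (algebraMap ℚ Qbar) := by
  have := isAlgClosure_rat
  have h1 := InfiniteGalois.fixedField_fixingSubgroup (k := ℚ) (K := Qbar) ⊥
  have hx : x ∈ IntermediateField.fixedField
      ((⊥ : IntermediateField ℚ Qbar).fixingSubgroup) := by
    intro σ
    exact h σ
  rw [h1] at hx
  exact IntermediateField.mem_bot.mp hx

/-- Cast form of `rat_of_fixed`. -/
theorem exists_ratCast_of_fixed (x : Qbar) (h : ∀ σ : Qbar ≃ₐ[ℚ] Qbar, σ x = x) :
    ∃ q : ℚ, (q : Qbar) = x := by
  obtain ⟨q, hq⟩ := rat_of_fixed x h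
  exact ⟨q, by rw [← hq]; exact (eq_ratCast (algebraMap ℚ Qbar) q).symm⟩

end Galois

section Val

variable {L : Type*} [Field L] (A : ValuationSubring L) {p : ℕ}

theorem valuation_natCast_eq_pow (hp : p.Prime) (hA : A.LiesOverPrime p) {n : ℕ} (hn : n ≠ 0) :
    A.valuation (n : L) = A.valuation (p : L) ^ (n.factorization p) := by
  have h1 : (n : L) = (p : L) ^ (n.factorization p) * ((n / p ^ n.factorization p : ℕ) : L) := by
    conv_lhs => rw [← Nat.ordProj_mul_ordCompl_eq_self n p]
    push_cast
    rfl
  rw [h1, map_mul, map_pow,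
    valuation_natCast_eq_one (A := A) hp hA (Nat.not_dvd_ordCompl hp hn), mul_one]

theorem valuation_intCast_eq_pow (hp : p.Prime) (hA : A.LiesOverPrime p) {n : ℤ} (hn : n ≠ 0) :
    A.valuation (n : L) = A.valuation (p : L) ^ (padicValInt p n) := by
  have hn' : n.natAbs ≠ 0 := Int.natAbs_ne_zero.mpr hn
  have h1 : A.valuation (n : L) = A.valuation (n.natAbs : L) := by
    rcases Int.natAbs_eq n with h | h
    · conv_lhs => rw [h]
      rw [Int.cast_natCast]
    · conv_lhs => rw [h]
      rw [Int.cast_neg, Int.cast_natCast, Valuation.map_neg]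
  rw [h1, valuation_natCast_eq_pow A hp hA hn', Nat.factorization_def _ hp]
  rfl

theorem valuation_ratCast_eq_zpow [CharZero L] (hp : p.Prime) (hA : A.LiesOverPrime p) {q : ℚ}
    (hq : q ≠ 0) :
    A.valuation (q : L) = A.valuation (p : L) ^ (padicValRat p q) := by
  have hp0 : A.valuation (p : L) ≠ 0 := by
    rw [Valuation.ne_zero_iff]
    exact_mod_cast hp.ne_zero
  have h1 : (q : L) = (q.num : L) / (q.den : L) := by
    rw [Rat.cast_def]
  rw [h1, map_div₀, valuation_intCast_eq_pow A hp hA (Rat.num_ne_zero.mpr hq),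
    valuation_natCast_eq_pow A hp hA q.den_ne_zero, Nat.factorization_def _ hp]
  unfold padicValRat
  rw [zpow_sub₀ hp0, zpow_natCast, zpow_natCast]

/-- A nonzero rational number has valuation an integral power of `v p`. -/
theorem valuation_rat [CharZero L] (hp : p.Prime) (hA : A.LiesOverPrime p) (q : ℚ)
    (hq : q ≠ 0) : ∃ k : ℤ, A.valuation (q : L) = A.valuation (p : L) ^ k :=
  ⟨padicValRat p q, valuation_ratCast_eq_zpow A hp hA hq⟩

end Val

end Fermat.Agent.S13.GalRat
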