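/-
Program A (S13), team A2 (helper13): exact addition formulas on a Weierstrass curve of "node shape"
`W : y² + a₁ x y = x³ + a₂ x² + a₄ x` (`a₃ = a₆ = 0`), over an arbitrary field (no `1/2` needed),
in the coordinates `(x, s)`, `s = y / x`, so that `s² + a₁ s = x + a₂ + a₄ / x`.
This generalises `Fermat/Agent/S05/Formulas.lean` (the case `a₁ = 0`) and applies to the Frey curve
itself at the prime `2`.

* `s_sq`, `ssub_mul_sadd` : curve equation, `(s₁-s₂)(s₁+s₂+a₁) = (x₁-x₂)(1 - a₄/(x₁x₂))`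
* `T0`, `add_T0_xs`, `neg_xs` : `(x,s) + T0 = (a₄/x, -s-a₁)`, `-(x,s) = (x,-s-a₁)`
* `add_xs` : master formula (`S := s₁+s₂+a₁ ≠ 0`, `x₁x₂ ≠ a₄`), chord AND doubling
* `add_xs_eq_T0`, `add_xs_of_S_eq_zero` : the degenerate cases
* `add_xs_chord` : `x(P₁+P₂) = x₁x₂(s₁-s₂)²/(x₁-x₂)²` for `x₁ ≠ x₂`
* `point_cases` : a point is `0`, `T0` or `(x, s)` with `x ≠ 0`
-/
import Mathlib

set_option autoImplicit false
set_option linter.unusedSectionVars false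

namespace Fermat.Agent.S13.NodeFormulas

open WeierstrassCurve WeierstrassCurve.Affine

variable {K : Type*} [Field K] [DecidableEq K] {W : Affine K}

/-- `W` has the shape `y² + a₁ x y = x³ + a₂ x² + a₄ x`. -/
structure NodeShape (W : Affine K) : Prop where
  a₃ : W.a₃ = 0
  a₆ : W.a₆ = 0

/-- Transport of `Point.some` along equalities of coordinates. -/
lemma some_congr {x y x' y' : K} (h : W.Nonsingular x y) (hx : x = x')
    (hy : y = y') : ∃ h' : W.Nonsingular x' y', Point.some x y h = Point.some x' y' h' := by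
  subst hx hy; exact ⟨h, rfl⟩

namespace NodeShape

variable (hW : NodeShape W)
include hW

lemma equation_iff (x y : K) :
    W.Equation x y ↔ y ^ 2 + W.a₁ * x * y = x ^ 3 + W.a₂ * x ^ 2 + W.a₄ * x := by
  rw [Affine.equation_iff, hW.a₃, hW.a₆]
  constructor <;> intro h <;> linear_combination h

lemma negY (x y : K) : W.negY x y = -y - W.a₁ * x := by
  rw [Affine.negY, hW.a₃, sub_zero]

/-- The curve equation in `(x, s)`-coordinates, `s = y / x`. -/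
lemma s_sq {x s : K} (h : W.Nonsingular x (x * s)) (hx : x ≠ 0) :
    s ^ 2 + W.a₁ * s = x + W.a₂ + W.a₄ / x := by
  have h1 := (hW.equation_iff _ _).1 h.1
  field_simp
  have : x * (x * (s ^ 2 + W.a₁ * s) - (x ^ 2 + W.a₂ * x + W.a₄)) = 0 := by
    linear_combination h1
  rcases mul_eq_zero.1 this with h0 | h0
  · exact absurd h0 hx
  · linear_combination h0

lemma a₂_eq {x s : K} (h : W.Nonsingular x (x * s)) (hx : x ≠ 0) :
    W.a₂ = s ^ 2 + W.a₁ * s - x - W.a₄ / x := by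
  rw [hW.s_sq h hx]; ring

/-- `(s₁ - s₂)(s₁ + s₂ + a₁) = (x₁ - x₂)(1 - a₄/(x₁x₂))`. -/
lemma ssub_mul_sadd {x₁ s₁ x₂ s₂ : K} (h₁ : W.Nonsingular x₁ (x₁ * s₁))
    (h₂ : W.Nonsingular x₂ (x₂ * s₂)) (hx₁ : x₁ ≠ 0) (hx₂ : x₂ ≠ 0) :
    (s₁ - s₂) * (s₁ + s₂ + W.a₁) = (x₁ - x₂) * (1 - W.a₄ / (x₁ * x₂)) := by
  have e1 := hW.s_sq h₁ hx₁
  have e2 := hW.s_sq h₂ hx₂
  have : (s₁ - s₂) * (s₁ + s₂ + W.a₁) = (s₁ ^ 2 + W.a₁ * s₁) - (s₂ ^ 2 + W.a₁ * s₂) := by ring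
  rw [this, e1, e2]
  field_simp
  ring

lemma a₄_eq_of_ne {x₁ s₁ x₂ s₂ : K} (h₁ : W.Nonsingular x₁ (x₁ * s₁))
    (h₂ : W.Nonsingular x₂ (x₂ * s₂)) (hx₁ : x₁ ≠ 0) (hx₂ : x₂ ≠ 0) (hne : x₁ ≠ x₂) :
    W.a₄ = x₁ * x₂ * (1 - (s₁ - s₂) * (s₁ + s₂ + W.a₁) / (x₁ - x₂)) := by
  have := hW.ssub_mul_sadd h₁ h₂ hx₁ hx₂
  have hne' : x₁ - x₂ ≠ 0 := sub_ne_zero.2 hne
  rw [this]
  field_simp
  ring

end NodeShape

/-- `x`-coordinate of the sum in `(x,s)`-coordinates. -/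
def addXs (W : Affine K) (x₁ s₁ x₂ s₂ : K) : K :=
  (x₁ * x₂ - W.a₄) ^ 2 / (x₁ * x₂ * (s₁ + s₂ + W.a₁) ^ 2)

/-- `s`-coordinate of the sum in `(x,s)`-coordinates. -/
def addSs (W : Affine K) (x₁ s₁ x₂ s₂ : K) : K :=
  (s₁ * s₂ + W.a₂ + W.a₄ / x₁ + W.a₄ / x₂) / (s₁ + s₂ + W.a₁)
    + (s₁ + s₂ + W.a₁) * W.a₄ / (x₁ * x₂ - W.a₄)

namespace NodeShape

variable (hW : NodeShape W)
include hW

/-- **Master addition formula** (chord and doubling), valid in every characteristic. -/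
theorem add_xs {x₁ s₁ x₂ s₂ : K} (h₁ : W.Nonsingular x₁ (x₁ * s₁))
    (h₂ : W.Nonsingular x₂ (x₂ * s₂)) (hx₁ : x₁ ≠ 0) (hx₂ : x₂ ≠ 0)
    (hS : s₁ + s₂ + W.a₁ ≠ 0) (hb' : x₁ * x₂ ≠ W.a₄) :
    ∃ h₃ : W.Nonsingular (addXs W x₁ s₁ x₂ s₂) (addXs W x₁ s₁ x₂ s₂ * addSs W x₁ s₁ x₂ s₂),
      Point.some _ _ h₁ + Point.some _ _ h₂ = Point.some _ _ h₃ := by
  have hb'' : x₁ * x₂ - W.a₄ ≠ 0 := sub_ne_zero.2 hb'
  by_cases hne : x₁ = x₂
  · subst hne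
    have hs : s₁ = s₂ := by
      have : (s₁ - s₂) * (s₁ + s₂ + W.a₁) = 0 := by
        rw [hW.ssub_mul_sadd h₁ h₂ hx₁ hx₁]; ring
      rcases mul_eq_zero.1 this with h0 | h0
      · exact sub_eq_zero.1 h0
      · exact absurd h0 hS
    subst hs
    have hS' : 2 * s₁ + W.a₁ ≠ 0 := by
      intro h; apply hS; linear_combination h
    have hy : x₁ * s₁ ≠ W.negY x₁ (x₁ * s₁) := by
      rw [hW.negY]; intro h
      have : x₁ * (2 * s₁ + W.a₁) = 0 := by linear_combination h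
      exact (mul_ne_zero hx₁ hS') this
    rw [Point.add_self_of_Y_ne hy]
    have ha := hW.a₂_eq h₁ hx₁
    have hx2b : x₁ ^ 2 - W.a₄ ≠ 0 := by rwa [pow_two]
    have hsl : W.slope x₁ x₁ (x₁ * s₁) (x₁ * s₁) =
        (3 * x₁ ^ 2 + 2 * W.a₂ * x₁ + W.a₄ - W.a₁ * (x₁ * s₁)) / (x₁ * (2 * s₁ + W.a₁)) := by
      rw [Affine.slope_of_Y_ne rfl hy, hW.negY]
      congr 1
      ring
    have hSS : s₁ + s₁ + W.a₁ = 2 * s₁ + W.a₁ := by ring
    apply some_congr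
    · rw [hsl]
      simp only [Affine.addX, addXs, hSS]
      rw [ha]
      field_simp
      ring
    · rw [hsl]
      simp only [Affine.addY, Affine.negAddY, Affine.addX, hW.negY, addXs, addSs, hSS]
      rw [ha]
      field_simp
      ring
  · have hne' : x₁ - x₂ ≠ 0 := sub_ne_zero.2 hne
    have ha := hW.a₂_eq h₁ hx₁
    have hb := hW.a₄_eq_of_ne h₁ h₂ hx₁ hx₂ hne
    have hM : s₁ - s₂ ≠ 0 := by
      intro h0
      have := hW.ssub_mul_sadd h₁ h₂ hx₁ hx₂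
      rw [h0, zero_mul] at this
      rcases mul_eq_zero.1 this.symm with h1 | h1
      · exact hne' h1
      · apply hb''
        field_simp at h1
        linear_combination h1
    rw [Point.add_of_X_ne hne]
    apply some_congr
    · rw [Affine.slope_of_X_ne hne]
      simp only [Affine.addX, addXs]
      rw [ha, hb]
      field_simp
      ring
    · rw [Affine.slope_of_X_ne hne]
      simp only [Affine.addY, Affine.negAddY, Affine.addX, hW.negY, addXs, addSs]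
      rw [ha, hb]
      field_simp
      ring

lemma nonsingular_T0 (hb : W.a₄ ≠ 0) : W.Nonsingular 0 0 := by
  rw [Affine.nonsingular_iff, hW.equation_iff]
  refine ⟨by ring, Or.inl ?_⟩
  simpa [eq_comm] using hb

/-- The rational 2-torsion point `(0, 0)` (the node of the reduction). -/
def T0 (hb : W.a₄ ≠ 0) : W.Point := .some 0 0 (hW.nonsingular_T0 hb)

/-- A point with `x = 0` is `T0`. -/
lemma eq_T0_of_x_eq_zero (hb : W.a₄ ≠ 0) {y : K} (h : W.Nonsingular 0 y) :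
    Point.some 0 y h = hW.T0 hb := by
  have h1 := (hW.equation_iff _ _).1 h.1
  have hy : y = 0 := by
    have : y ^ 2 = 0 := by linear_combination h1
    exact pow_eq_zero_iff (two_ne_zero) |>.mp this
  subst hy; rfl

/-- Every affine point with `x ≠ 0` can be written in `(x, s)`-coordinates. -/
lemma some_eq_xs {x y : K} (h : W.Nonsingular x y) (hx : x ≠ 0) :
    ∃ h' : W.Nonsingular x (x * (y / x)), Point.some x y h = Point.some x (x * (y / x)) h' :=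
  some_congr h rfl (by field_simp)

/-- Classification: a point is `0`, `T0`, or `(x, s)` with `x ≠ 0`. -/
lemma point_cases (hb : W.a₄ ≠ 0) (P : W.Point) :
    P = 0 ∨ P = hW.T0 hb ∨ ∃ (x s : K) (h : W.Nonsingular x (x * s)),
      x ≠ 0 ∧ P = Point.some x (x * s) h := by
  rcases P with _ | ⟨x, y, h⟩
  · exact Or.inl rfl
  · by_cases hx : x = 0
    · subst hx; exact Or.inr (Or.inl (hW.eq_T0_of_x_eq_zero hb h))
    · obtain ⟨h', e⟩ := hW.some_eq_xs h hx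
      exact Or.inr (Or.inr ⟨x, y / x, h', hx, e⟩)

/-- Negation: `-(x, s) = (x, -s - a₁)`. -/
lemma neg_xs {x s : K} (h : W.Nonsingular x (x * s)) :
    ∃ h' : W.Nonsingular x (x * (-s - W.a₁)),
      -Point.some x (x * s) h = Point.some x (x * (-s - W.a₁)) h' := by
  rw [Point.neg_some]
  exact some_congr _ rfl (by rw [hW.negY]; ring)

lemma neg_T0 (hb : W.a₄ ≠ 0) : -(hW.T0 hb) = hW.T0 hb := by
  rw [T0, Point.neg_some]
  obtain ⟨h', e⟩ := some_congr ((Affine.nonsingular_neg ..).mpr (hW.nonsingular_T0 hb)) rfl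
    (show W.negY 0 0 = 0 by rw [hW.negY]; ring)
  exact e

lemma T0_add_T0 (hb : W.a₄ ≠ 0) : hW.T0 hb + hW.T0 hb = 0 := by
  rw [T0]; exact Point.add_of_Y_eq rfl (by rw [hW.negY]; ring)

/-- Translation by `T0`: `(x, s) ↦ (a₄ / x, -s - a₁)`. -/
lemma add_T0_xs (hb : W.a₄ ≠ 0) {x s : K} (h : W.Nonsingular x (x * s)) (hx : x ≠ 0) :
    ∃ h' : W.Nonsingular (W.a₄ / x) (W.a₄ / x * (-s - W.a₁)),
      Point.some x (x * s) h + hW.T0 hb = Point.some (W.a₄ / x) (W.a₄ / x * (-s - W.a₁)) h' := by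
  have ha := hW.a₂_eq h hx
  rw [T0, Point.add_of_X_ne hx]
  apply some_congr
  · rw [Affine.slope_of_X_ne hx]
    simp only [Affine.addX]
    rw [ha]
    field_simp
    ring
  · rw [Affine.slope_of_X_ne hx]
    simp only [Affine.addY, Affine.negAddY, Affine.addX, hW.negY]
    rw [ha]
    field_simp
    ring

/-- If `s₁ + s₂ + a₁ ≠ 0` and `x₁ x₂ = a₄` then the sum is `T0`. -/
theorem add_xs_eq_T0 (hb : W.a₄ ≠ 0) {x₁ s₁ x₂ s₂ : K}
    (h₁ : W.Nonsingular x₁ (x₁ * s₁)) (h₂ : W.Nonsingular x₂ (x₂ * s₂))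
    (hx₁ : x₁ ≠ 0) (hx₂ : x₂ ≠ 0) (hS : s₁ + s₂ + W.a₁ ≠ 0) (hb' : x₁ * x₂ = W.a₄) :
    Point.some _ _ h₁ + Point.some _ _ h₂ = hW.T0 hb := by
  have hs : s₁ = s₂ := by
    have : (s₁ - s₂) * (s₁ + s₂ + W.a₁) = 0 := by
      rw [hW.ssub_mul_sadd h₁ h₂ hx₁ hx₂, hb', div_self hb]; ring
    rcases mul_eq_zero.1 this with h0 | h0
    · exact sub_eq_zero.1 h0
    · exact absurd h0 hS
  subst hs
  have hx₂' : x₂ = W.a₄ / x₁ := by rw [← hb']; field_simp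
  subst hx₂'
  obtain ⟨hn, en⟩ := hW.neg_xs h₁
  obtain ⟨ht, et⟩ := hW.add_T0_xs hb hn hx₁
  have e2 : Point.some _ _ h₂ = -Point.some _ _ h₁ + hW.T0 hb := by
    rw [en, et]
    obtain ⟨h', e'⟩ := some_congr h₂ rfl
      (show W.a₄ / x₁ * s₁ = W.a₄ / x₁ * (-(-s₁ - W.a₁) - W.a₁) by ring)
    exact e'
  rw [e2, add_neg_cancel_left]

/-- If `s₁ + s₂ + a₁ = 0` then either `x₁ = x₂` (and the sum is `0`) or `x₁ x₂ = a₄`
(and `P₂ = P₁ + T0`). -/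
theorem add_xs_of_S_eq_zero (hb : W.a₄ ≠ 0) {x₁ s₁ x₂ s₂ : K}
    (h₁ : W.Nonsingular x₁ (x₁ * s₁)) (h₂ : W.Nonsingular x₂ (x₂ * s₂))
    (hx₁ : x₁ ≠ 0) (hx₂ : x₂ ≠ 0) (hS : s₁ + s₂ + W.a₁ = 0) :
    (x₁ = x₂ ∧ Point.some _ _ h₁ + Point.some _ _ h₂ = 0) ∨
      (x₁ * x₂ = W.a₄ ∧ Point.some _ _ h₂ = Point.some _ _ h₁ + hW.T0 hb) := by
  have hs : s₂ = -s₁ - W.a₁ := by linear_combination hS
  subst hs
  have key : (x₁ - x₂) * (1 - W.a₄ / (x₁ * x₂)) = 0 := by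
    rw [← hW.ssub_mul_sadd h₁ h₂ hx₁ hx₂]; ring
  rcases mul_eq_zero.1 key with h0 | h0
  · left
    have hx : x₁ = x₂ := sub_eq_zero.1 h0
    refine ⟨hx, Point.add_of_Y_eq hx ?_⟩
    rw [hW.negY, hx]; ring
  · right
    have hb' : x₁ * x₂ = W.a₄ := by
      field_simp at h0
      linear_combination h0
    refine ⟨hb', ?_⟩
    have hx₂' : x₂ = W.a₄ / x₁ := by rw [← hb']; field_simp
    subst hx₂'
    obtain ⟨ht, et⟩ := hW.add_T0_xs hb h₁ hx₁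
    rw [et]

/-- Chord formula for the `x`-coordinate (`x₁ ≠ x₂`). -/
theorem add_xs_chord {x₁ s₁ x₂ s₂ : K} (h₁ : W.Nonsingular x₁ (x₁ * s₁))
    (h₂ : W.Nonsingular x₂ (x₂ * s₂)) (hx₁ : x₁ ≠ 0) (hx₂ : x₂ ≠ 0) (hne : x₁ ≠ x₂) :
    ∃ (y₃ : K) (h₃ : W.Nonsingular (x₁ * x₂ * (s₁ - s₂) ^ 2 / (x₁ - x₂) ^ 2) y₃),
      Point.some _ _ h₁ + Point.some _ _ h₂ = Point.some _ _ h₃ := by
  have hne' : x₁ - x₂ ≠ 0 := sub_ne_zero.2 hne
  have ha := hW.a₂_eq h₁ hx₁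
  have hb := hW.a₄_eq_of_ne h₁ h₂ hx₁ hx₂ hne
  rw [Point.add_of_X_ne hne]
  refine ⟨W.addY x₁ x₂ (x₁ * s₁) (W.slope x₁ x₂ (x₁ * s₁) (x₂ * s₂)), ?_⟩
  apply some_congr _ _ rfl
  rw [Affine.slope_of_X_ne hne]
  simp only [Affine.addX]
  rw [ha, hb]
  field_simp
  ring

end NodeShape

end Fermat.Agent.S13.NodeFormulas
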