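/-
A4 / INF-b (helper28): lifting an element of the inertia group of a finite Galois extension
`K/ℚ` (inside `Qbar`) to an element of the absolute Galois group which moves every algebraic
integer by an element of the maximal ideal of a given valuation subring `A` of `Qbar`.

Proof: `H := Gal(Qbar/K)` is profinite and acts continuously on the (discrete) ring `𝓞 Qbar` with
invariants `𝓞 K`; Mathlib's `Algebra.IsInvariant.exists_smul_of_under_eq_of_profinite` (transitivity
on primes above a given prime) and `Ideal.Quotient.stabilizerHom_surjective_of_profinite`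
(surjectivity of decomposition group onto the automorphisms of the residue extension) do the rest.
-/
import Mathlib
import Fermat.Prelude.Def_FLTPrelim_Ramification
import Fermat.Agent.S05.Inertia
import Fermat.Agent.S13.UnramVal

set_option autoImplicit false

namespace Fermat.Agent.S13.UnramInf

open NumberField
open scoped Pointwise

local notation "Qbar" => AlgebraicClosure ℚ

theorem isAlgClosure_rat : IsAlgClosure ℚ Qbar :=
  ⟨inferInstance, Fermat.Agent.S05.Inertia.isAlgebraic_rat⟩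

attribute [local instance] isAlgClosure_rat

section Setup

variable (K : IntermediateField ℚ Qbar)

theorem coe_algebraMap_OK (a : 𝓞 K) :
    ((algebraMap (𝓞 K) (𝓞 Qbar) a : 𝓞 Qbar) : Qbar) = ((a : K) : Qbar) := rfl

theorem coe_smul_OQ {F : Type*} [Field F] [Algebra F Qbar] (h : Qbar ≃ₐ[F] Qbar) (b : 𝓞 Qbar) :
    ((h • b : 𝓞 Qbar) : Qbar) = h (b : Qbar) := rfl

theorem coe_sub_OQ (x y : 𝓞 Qbar) : ((x - y : 𝓞 Qbar) : Qbar) = (x : Qbar) - (y : Qbar) :=
  map_sub (algebraMap (𝓞 Qbar) Qbar) x y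

theorem smul_algebraMap_OK (h : Qbar ≃ₐ[K] Qbar) (a : 𝓞 K) :
    h • algebraMap (𝓞 K) (𝓞 Qbar) a = algebraMap (𝓞 K) (𝓞 Qbar) a :=
  RingOfIntegers.ext (h.commutes (a : K))

instance smulCommClass_OK : SMulCommClass (Qbar ≃ₐ[K] Qbar) (𝓞 K) (𝓞 Qbar) where
  smul_comm h a b := by
    rw [Algebra.smul_def, Algebra.smul_def, smul_mul', smul_algebraMap_OK]

instance isInvariant_OK : Algebra.IsInvariant (𝓞 K) (𝓞 Qbar) (Qbar ≃ₐ[K] Qbar) where
  isInvariant b hb := by
    have hmem : (b : Qbar) ∈ Set.range (algebraMap K Qbar) :=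
      (InfiniteGalois.mem_range_algebraMap_iff_fixed (k := K) (K := Qbar) (b : Qbar)).mpr
        fun h => congrArg (fun x : 𝓞 Qbar => (x : Qbar)) (hb h)
    obtain ⟨k, hk⟩ := hmem
    have hint : IsIntegral ℤ k := by
      have h1 : IsIntegral ℤ (b : Qbar) := RingOfIntegers.isIntegral_coe b
      rw [← hk] at h1
      exact (isIntegral_algebraMap_iff (algebraMap K Qbar).injective).mp h1
    exact ⟨⟨k, hint⟩, RingOfIntegers.ext hk⟩

/-- The discrete topology on the ring of all algebraic integers. -/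
abbrev topOQ : TopologicalSpace (𝓞 Qbar) := ⊥

attribute [local instance] topOQ

instance discreteTopology_OQ : DiscreteTopology (𝓞 Qbar) := ⟨rfl⟩

instance continuousSMul_OQ : ContinuousSMul (Qbar ≃ₐ[K] Qbar) (𝓞 Qbar) := by
  refine ⟨continuous_prod_of_discrete_right.mpr fun b => ?_⟩
  rw [continuous_discrete_rng]
  intro b'
  rw [isOpen_iff_mem_nhds]
  intro g hg
  have hb : IsIntegral K (b : Qbar) := Algebra.IsIntegral.isIntegral _
  have : FiniteDimensional K (IntermediateField.adjoin K {(b : Qbar)}) :=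
    IntermediateField.adjoin.finiteDimensional hb
  have hopen : IsOpen
      ((IntermediateField.adjoin K {(b : Qbar)}).fixingSubgroup : Set (Qbar ≃ₐ[K] Qbar)) :=
    IntermediateField.fixingSubgroup_isOpen _
  have hopen' := (Homeomorph.mulLeft g).isOpenMap _ hopen
  refine Filter.mem_of_superset (hopen'.mem_nhds ⟨1, one_mem _, by simp⟩) ?_
  rintro _ ⟨h, hh, rfl⟩
  have hfix : h (b : Qbar) = b :=
    (IntermediateField.mem_fixingSubgroup_iff _ _).mp hh (b : Qbar)
      (IntermediateField.mem_adjoin_simple_self K _)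
  have hg' : g • b = b' := hg
  show (g * h) • b = b'
  rw [mul_smul, ← hg']
  congr 1
  exact RingOfIntegers.ext hfix

end Setup

section Prime

variable (A : ValuationSubring Qbar)

/-- The inclusion of the ring of algebraic integers into a valuation subring. -/
noncomputable def toA : 𝓞 Qbar →+* A :=
  (algebraMap (𝓞 Qbar) Qbar).codRestrict A fun x =>
    Fermat.Agent.S13.UnramVal.mem_of_isIntegral_int A (RingOfIntegers.isIntegral_coe x)

/-- The prime of `𝓞 Qbar` cut out by the maximal ideal of `A`. -/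
noncomputable def primeQ : Ideal (𝓞 Qbar) := (IsLocalRing.maximalIdeal A).comap (toA A)

instance primeQ_isPrime : (primeQ A).IsPrime := Ideal.comap_isPrime _ _

theorem mem_primeQ {x : 𝓞 Qbar} : x ∈ primeQ A ↔ (x : Qbar) ∈ A.nonunits := by
  rw [ValuationSubring.mem_nonunits_iff_exists_mem_maximalIdeal]
  constructor
  · intro h
    exact ⟨_, h⟩
  · rintro ⟨_, h⟩
    exact h

end Prime

section Main

theorem nonunits_congr (A : ValuationSubring Qbar) {x y : Qbar} (h : x - y ∈ A.nonunits) :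
    x ∈ A.nonunits ↔ y ∈ A.nonunits := by
  simp only [ValuationSubring.mem_nonunits_iff] at h ⊢
  constructor
  · intro hx
    have : y = x - (x - y) := by ring
    rw [this]
    exact Valuation.map_sub_lt _ hx h
  · intro hy
    have : x = (x - y) + y := by ring
    rw [this]
    exact Valuation.map_add_lt _ h hy

attribute [local instance] topOQ

/-- **(INF-b)** An element `τ` of `Gal(K/ℚ)` (`K/ℚ` finite Galois inside `Qbar`) moving every
integer of `K` by an element of the maximal ideal of `A` lifts to an element of the absolute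
Galois group moving every algebraic integer by an element of the maximal ideal of `A`. -/
theorem exists_lift_congr_integral (K : IntermediateField ℚ Qbar) [FiniteDimensional ℚ K]
    [IsGalois ℚ K] (A : ValuationSubring Qbar) (τ : K ≃ₐ[ℚ] K)
    (hτ : ∀ x : K, IsIntegral ℤ x → ((τ x : Qbar) - x) ∈ A.nonunits) :
    ∃ σ : Qbar ≃ₐ[ℚ] Qbar, (∀ x : K, σ x = τ x) ∧
      ∀ x : Qbar, IsIntegral ℤ x → σ x - x ∈ A.nonunits := by
  classical
  -- Step 0: an arbitrary lift of `τ`
  set σ₀ : Qbar ≃ₐ[ℚ] Qbar := τ.liftNormal Qbar with hσ₀def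
  have hσ₀ : ∀ x : K, σ₀ (x : Qbar) = τ x := fun x => τ.liftNormal_commutes Qbar x
  set Q : Ideal (𝓞 Qbar) := primeQ A with hQdef
  -- Step 1: `σ₀ • Q` and `Q` lie over the same prime of `𝓞 K`
  have hunder : (σ₀ • Q).under (𝓞 K) = Q.under (𝓞 K) := by
    ext a
    rw [Ideal.under_def, Ideal.under_def, Ideal.mem_comap, Ideal.mem_comap,
      Ideal.mem_pointwise_smul_iff_inv_smul_mem, mem_primeQ, mem_primeQ]
    -- `a' = τ⁻¹ a`
    have hint : IsIntegral ℤ (τ.symm (a : K)) :=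
      map_isIntegral_int τ.symm (RingOfIntegers.isIntegral_coe a)
    have h1 : σ₀ ((τ.symm (a : K) : K) : Qbar) = ((a : K) : Qbar) := by
      rw [hσ₀, AlgEquiv.apply_symm_apply]
    have h2 : ((σ₀⁻¹ • algebraMap (𝓞 K) (𝓞 Qbar) a : 𝓞 Qbar) : Qbar) =
        ((τ.symm (a : K) : K) : Qbar) := by
      rw [coe_smul_OQ, coe_algebraMap_OK, ← h1]
      exact σ₀.symm_apply_apply _
    rw [h2, coe_algebraMap_OK]
    have h3 := hτ (τ.symm (a : K)) hint
    rw [AlgEquiv.apply_symm_apply] at h3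
    exact (nonunits_congr A h3).symm
  -- Step 2: transitivity
  obtain ⟨ρ, hρ⟩ := Algebra.IsInvariant.exists_smul_of_under_eq_of_profinite
    (A := 𝓞 K) (B := 𝓞 Qbar) (G := Qbar ≃ₐ[K] Qbar) (σ₀ • Q) Q hunder
  set σ₁ : Qbar ≃ₐ[ℚ] Qbar := (ρ.restrictScalars ℚ) * σ₀ with hσ₁def
  have hσ₁Q : σ₁ • Q = Q := by
    ext x
    rw [Ideal.mem_pointwise_smul_iff_inv_smul_mem]
    conv_rhs => rw [hρ, Ideal.mem_pointwise_smul_iff_inv_smul_mem,
      Ideal.mem_pointwise_smul_iff_inv_smul_mem]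
    have : σ₁⁻¹ • x = σ₀⁻¹ • ρ⁻¹ • x := by
      rw [hσ₁def, mul_inv_rev, mul_smul]
      rfl
    rw [this]
  have hσ₁K : ∀ x : K, σ₁ (x : Qbar) = τ x := by
    intro x
    show ρ (σ₀ (x : Qbar)) = _
    rw [hσ₀]
    exact ρ.commutes (τ x)
  -- Step 3: the automorphism of the residue ring induced by `σ₁`
  have hQmap : Q = Q.map (MulSemiringAction.toRingEquiv (Qbar ≃ₐ[ℚ] Qbar) (𝓞 Qbar) σ₁) := by
    conv_lhs => rw [← hσ₁Q]
    rfl
  let φ : ((𝓞 Qbar) ⧸ Q) ≃ₐ[(𝓞 K) ⧸ Q.under (𝓞 K)] ((𝓞 Qbar) ⧸ Q) :=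
    { Ideal.quotientEquiv Q Q (MulSemiringAction.toRingEquiv (Qbar ≃ₐ[ℚ] Qbar) (𝓞 Qbar) σ₁)
        hQmap with
      commutes' := by
        rintro ⟨a⟩
        show Ideal.Quotient.mk Q (σ₁ • algebraMap (𝓞 K) (𝓞 Qbar) a) =
          Ideal.Quotient.mk Q (algebraMap (𝓞 K) (𝓞 Qbar) a)
        rw [Ideal.Quotient.eq, mem_primeQ, coe_sub_OQ, coe_smul_OQ, coe_algebraMap_OK, hσ₁K]
        exact hτ (a : K) (RingOfIntegers.isIntegral_coe a) }
  have hφ : ∀ b : 𝓞 Qbar, φ (Ideal.Quotient.mk Q b) = Ideal.Quotient.mk Q (σ₁ • b) := fun b => rfl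
  -- Step 4: realise it by an element of the decomposition group in `Gal(Qbar/K)`
  obtain ⟨⟨ρ', hρ'⟩, hρ'φ⟩ := Ideal.Quotient.stabilizerHom_surjective_of_profinite
    (G := Qbar ≃ₐ[K] Qbar) (Q.under (𝓞 K)) Q φ
  have hρ'Q : ρ' • Q = Q := hρ'
  have hcongr : ∀ b : 𝓞 Qbar, σ₁ • b - ρ' • b ∈ Q := by
    intro b
    have h1 := DFunLike.congr_fun hρ'φ (Ideal.Quotient.mk Q b)
    rw [hφ, Ideal.Quotient.stabilizerHom_apply] at h1
    exact Ideal.Quotient.eq.mp h1.symm
  refine ⟨(ρ'⁻¹.restrictScalars ℚ) * σ₁, ?_, ?_⟩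
  · intro x
    show ρ'⁻¹ (σ₁ (x : Qbar)) = _
    rw [hσ₁K]
    exact ρ'⁻¹.commutes (τ x)
  · intro x hx
    set b : 𝓞 Qbar := ⟨x, hx⟩ with hb
    have h1 : ρ'⁻¹ • (σ₁ • b - ρ' • b) ∈ Q := by
      have := hcongr b
      rw [← hρ'Q, Ideal.mem_pointwise_smul_iff_inv_smul_mem] at this
      exact this
    rw [mem_primeQ] at h1
    have h2 : ((ρ'⁻¹ • (σ₁ • b - ρ' • b) : 𝓞 Qbar) : Qbar) = ρ'⁻¹ (σ₁ x) - x := by
      rw [smul_sub, inv_smul_smul, coe_sub_OQ, coe_smul_OQ, coe_smul_OQ]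
      rfl
    rw [h2] at h1
    exact h1

end Main

end Fermat.Agent.S13.UnramInf
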